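import Mathlib
import Fermat.Agent.S59.NonMin.Geom.Defs
import Fermat.Agent.Betti.Eigen

/-!
# S59 / RT-NONMIN / NMGEOM, leaf RANK (sub-planner helper27): interface

Plan: `NOTES/plan/S59_NMG_RANK.md`.  Target: `Geom.Stmt_RANK` (multiplicity one: the eigenspaces
of the Betti lattices do not grow from the level `N` to the level `N q²`).

Route (no newform theory, no semisimplicity, no signs of `U_r`):
* `rank_𝒪 M[x] = dim_K EB(K)` (`Stmt_LAT`), `dim EB` does not depend on the field (`Stmt_FIELD`,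
  `Stmt_EMBED`), `dim_ℂ EB(ℂ) = 2 dim_ℂ EC` (`Stmt_ES`, Eichler–Shimura);
* `dim EC ≤ 1` at every state (`Stmt_MULT1`): `a₁` is injective on `EC`, by depletion
  (`Stmt_DEPL`), the single-prime main lemma of Atkin–Lehner (`Stmt_MAIN`, `Stmt_MAINb`) and the
  Galois-theoretic input `Stmt_NOLOW` (no form of a level prime to `r ∈ Smin`, `r ∣ N₀`, has the
  eigenvalues of `x`);
* `EC ≠ 0` at every state (`Stmt_NONVAN`).

Conventions for a leaf `X`: file `Fermat/Agent/S59/NonMin/Geom/Rank/H<seat>_<X>.lean`, namespace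
`Fermat.Agent.S59.NonMin.Geom.Rank.H<seat>`, `theorem stmt_<X> : Stmt_<X>` (or
`<x>_of : <other leaves as hypotheses> → Stmt_<X>`).  Definitions only; no `sorry`.
-/

set_option autoImplicit false

open Polynomial CuspForm CongruenceSubgroup IsLocalRing ModularFormClass
open scoped MatrixGroups

namespace Fermat.Agent.S59.NonMin.Geom.Rank

open Fermat.Agent.Betti Fermat.Agent.S59 Fermat.Agent.S59.Asm
open ModularCurve.Period

/-! ## 1. The eigenspaces -/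

section Eigenspaces

variable (N : ℕ) [NeZero N] (S : Set ℕ) (Sig : Finset ℕ)

/-- `φ : Γ₀(N) → R` is parabolic, an eigenvector of the `T_ℓ` (`ℓ ∤ N`, `ℓ ∉ S`) for the
character `χ`, and killed by the `U_r`, `r ∈ Sig`. -/
def IsEB (R : Type) [CommRing R] (χ : CuspForm.heckeAlgebra N 2 S →+* R)
    (φ : Additive (Gamma0 N) →+ R) : Prop :=
  IsParabolicHom (Gamma0 N) φ ∧
  (∀ (ℓ : ℕ) (hℓ : ℓ.Prime) (hℓN : ¬ ℓ ∣ N) (hℓS : ℓ ∉ S),
    TB N R hℓ hℓN φ = χ (CuspForm.heckeAlgebra.T hℓ hℓN hℓS) • φ) ∧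
  ∀ r ∈ Sig, ∀ hr : r ∣ N, UB N R hr φ = 0

/-- The Betti eigenspace with coefficients in a field `K`. -/
def EB (K : Type) [Field K] (χ : CuspForm.heckeAlgebra N 2 S →+* K) :
    Submodule K (Additive (Gamma0 N) →+ K) where
  carrier := {φ | IsEB N S Sig K χ φ}
  zero_mem' := by
    refine ⟨fun _ _ => rfl, fun ℓ hℓ hℓN hℓS => ?_, fun r _ hr => ?_⟩
    · rw [map_zero, smul_zero]
    · rw [map_zero]
  add_mem' := by
    rintro φ ψ ⟨h1, h2, h3⟩ ⟨k1, k2, k3⟩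
    refine ⟨(parabolicHoms K (Gamma0 N) K).add_mem h1 k1, fun ℓ hℓ hℓN hℓS => ?_,
      fun r hr hrN => ?_⟩
    · rw [map_add, h2, k2, smul_add]
    · rw [map_add, h3 r hr hrN, k3 r hr hrN, add_zero]
  smul_mem' := by
    rintro c φ ⟨h1, h2, h3⟩
    refine ⟨(parabolicHoms K (Gamma0 N) K).smul_mem c h1, fun ℓ hℓ hℓN hℓS => ?_,
      fun r hr hrN => ?_⟩
    · rw [TB_smul, h2, smul_comm]
    · rw [UB_smul, h3 r hr hrN, smul_zero]

variable {N S Sig} in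
theorem mem_EB {K : Type} [Field K] {χ : CuspForm.heckeAlgebra N 2 S →+* K}
    {φ : Additive (Gamma0 N) →+ K} : φ ∈ EB N S Sig K χ ↔ IsEB N S Sig K χ φ := Iff.rfl

/-- The cusp form eigenspace: `T_ℓ f = χ(T_ℓ) f` (`ℓ ∤ N`, `ℓ ∉ S`), `U_r f = 0` (`r ∈ Sig`). -/
def EC (χ : CuspForm.heckeAlgebra N 2 S →+* ℂ) : Submodule ℂ (CuspForm (Gamma0 N) 2) where
  carrier := {f | (∀ (ℓ : ℕ) (hℓ : ℓ.Prime) (hℓN : ¬ ℓ ∣ N) (hℓS : ℓ ∉ S),
      CuspForm.heckeTLin 2 hℓ hℓN f = χ (CuspForm.heckeAlgebra.T hℓ hℓN hℓS) • f) ∧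
    ∀ r ∈ Sig, ∀ hr : r ∣ N, CuspForm.heckeULin 2 hr f = 0}
  zero_mem' := by
    refine ⟨fun ℓ hℓ hℓN hℓS => ?_, fun r _ hr => ?_⟩
    · rw [map_zero, smul_zero]
    · rw [map_zero]
  add_mem' := by
    rintro f g ⟨h2, h3⟩ ⟨k2, k3⟩
    refine ⟨fun ℓ hℓ hℓN hℓS => ?_, fun r hr hrN => ?_⟩
    · rw [map_add, h2, k2, smul_add]
    · rw [map_add, h3 r hr hrN, k3 r hr hrN, add_zero]
  smul_mem' := by
    rintro c f ⟨h2, h3⟩
    refine ⟨fun ℓ hℓ hℓN hℓS => ?_, fun r hr hrN => ?_⟩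
    · rw [map_smul, h2, smul_comm]
    · rw [map_smul, h3 r hr hrN, smul_zero]

variable {N S Sig} in
theorem mem_EC {χ : CuspForm.heckeAlgebra N 2 S →+* ℂ} {f : CuspForm (Gamma0 N) 2} :
    f ∈ EC N S Sig χ ↔
      (∀ (ℓ : ℕ) (hℓ : ℓ.Prime) (hℓN : ¬ ℓ ∣ N) (hℓS : ℓ ∉ S),
        CuspForm.heckeTLin 2 hℓ hℓN f = χ (CuspForm.heckeAlgebra.T hℓ hℓN hℓS) • f) ∧
      ∀ r ∈ Sig, ∀ hr : r ∣ N, CuspForm.heckeULin 2 hr f = 0 := Iff.rfl

end Eigenspaces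

/-- `f` (of level `L`) is an eigenvector of `T_ℓ` with eigenvalue `a ℓ` for every prime `ℓ ∤ L`,
`ℓ ∉ S` (a condition which makes sense at every level). -/
def IsAnemic (L : ℕ) (S : Set ℕ) (a : ℕ → ℂ) (f : CuspForm (Gamma0 L) 2) : Prop :=
  ∀ (ℓ : ℕ) (hℓ : ℓ.Prime) (hℓL : ¬ ℓ ∣ L), ℓ ∉ S → CuspForm.heckeTLin 2 hℓ hℓL f = a ℓ • f

open Classical in
/-- The eigenvalues `ℓ ↦ χ(T_ℓ)` of a character of the Hecke algebra (`0` at the primes where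
`T_ℓ` is not in the algebra). -/
noncomputable def eigVal {N : ℕ} [NeZero N] {S : Set ℕ} {R : Type} [Zero R]
    (χ : CuspForm.heckeAlgebra N 2 S → R) (ℓ : ℕ) : R :=
  if h : ℓ.Prime ∧ ¬ ℓ ∣ N ∧ ℓ ∉ S then χ (CuspForm.heckeAlgebra.T h.1 h.2.1 h.2.2) else 0

theorem eigVal_eq {N : ℕ} [NeZero N] {S : Set ℕ} {R : Type} [Zero R]
    (χ : CuspForm.heckeAlgebra N 2 S → R) {ℓ : ℕ} (hℓ : ℓ.Prime) (hℓN : ¬ ℓ ∣ N) (hℓS : ℓ ∉ S) :
    eigVal χ ℓ = χ (CuspForm.heckeAlgebra.T hℓ hℓN hℓS) := by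
  unfold eigVal
  rw [dif_pos ⟨hℓ, hℓN, hℓS⟩]

/-- **No low level at `r`**: no nonzero cusp form of a level prime to `r` (with all its prime
divisors in `S`) is an eigenvector of the `T_ℓ`, `ℓ ∉ S`, with the eigenvalues `a`. -/
def NoLow (S : Set ℕ) (a : ℕ → ℂ) (r : ℕ) : Prop :=
  ∀ (L : ℕ) [NeZero L], ¬ r ∣ L → (∀ s : ℕ, s.Prime → s ∣ L → s ∈ S) →
    ∀ f : CuspForm (Gamma0 L) 2, IsAnemic L S a f → f = 0

/-- The characters `x` (with values in `𝒪`) and `χ` (with values in `ℂ`) are conjugate: they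
come from one character `x₀` with values in a field `F` which maps to `Frac 𝒪` and to `ℂ`. -/
def Conj {𝒪 : Type} [CommRing 𝒪] [IsDomain 𝒪] {H : Type} [CommRing H] (x : H →+* 𝒪)
    (χ : H →+* ℂ) : Prop :=
  ∃ (F : Type) (_ : Field F) (x₀ : H →+* F) (jK : F →+* FractionRing 𝒪) (jC : F →+* ℂ),
    jK.comp x₀ = (algebraMap 𝒪 (FractionRing 𝒪)).comp x ∧ jC.comp x₀ = χ

/-! ## 2. Cusp forms: the tools (pure modular forms, no Galois theory) -/

/-- **DEPL** (depletion at `r`, `r² ∣ L`, stays at the level `L`):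
`g = f - (1/r) ∑_{j mod r} f(z + j/r) = ∑_{r ∤ n} a_n qⁿ`.
[For `γ = [[a,b],[c,d]] ∈ Γ₀(L)`, `r² ∣ c`: `T^{j/r} γ T^{-j'/r} ∈ Γ₀(L)` for
`j' ≡ a⁻¹ d j mod r` (`T^{j/r} = [[1, j/r],[0, 1]]`), so `∑_j f ∣ T^{j/r}` is `Γ₀(L)`-invariant;
each term is a cusp form on `Γ₀(L) ∩ Γ₁(r)` (`CuspForm.translate`, `S59.H61.restrictCusp`);
coefficients: `∑_j ζ_r^{jn} = r [r ∣ n]`.] -/
def Stmt_DEPL : Prop :=
  ∀ (L r : ℕ) [NeZero L], r.Prime → r ^ 2 ∣ L → ∀ f : CuspForm (Gamma0 L) 2,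
    ∃ g : CuspForm (Gamma0 L) 2, ∀ n : ℕ, qCoeff g n = if r ∣ n then 0 else qCoeff f n

/-- **MAIN** (the single-prime main lemma of Atkin–Lehner): a form of level `L` whose
`q`-expansion is supported on the multiples of `r` is `G(r z)` with `G` of level `L / gcd(L, r)`.
[`G(z) := f(z/r)` is invariant under `Γ₀(L') ∩ Γ⁰(r)`, `L' = L / gcd(L, r)`, and under `T`
(`f(z + 1/r) = f(z)`); `Γ₀(L') = ⟨Γ₀(L') ∩ Γ⁰(r), T⟩` for every `L'` and every prime `r`.] -/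
def Stmt_MAIN : Prop :=
  ∀ (L r : ℕ) [NeZero L], r.Prime → ∀ f : CuspForm (Gamma0 L) 2,
    (∀ n : ℕ, ¬ r ∣ n → qCoeff f n = 0) →
    ∃ G : CuspForm (Gamma0 (L / Nat.gcd L r)) 2, ∀ n : ℕ, qCoeff G n = qCoeff f (r * n)

/-- **MAINb**: a form of level `L` prime to `r` supported on the multiples of `r` is zero.
[`G₀` from `Stmt_MAIN` has level `L`; `f₀ = G₀`, `f₁ = f`, `f_{k+1} = (T_r f_k - f_{k-1}) / r` has
the coefficients `a_n(f_k) = a_{n / r^k}(G₀) [r^k ∣ n]`; if `G₀ ≠ 0` the `f_k` are linearly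
independent (distinct orders of vanishing): contradiction with `finiteDimensional_cuspForm`
(`R/H99_Newform.lean`).] -/
def Stmt_MAINb : Prop :=
  ∀ (L r : ℕ) [NeZero L], r.Prime → ¬ r ∣ L → ∀ f : CuspForm (Gamma0 L) 2,
    (∀ n : ℕ, ¬ r ∣ n → qCoeff f n = 0) → f = 0

/-- **CLAIM** (the induction): an eigenvector of the `T_ℓ` (`ℓ ∉ S`) whose coefficients `a_n`
vanish for all `n` prime to the primes of `P` is zero, if every `r ∈ P` divides the level at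
most once and, when it does, `NoLow S a r` holds.
[Induction on `P`.  `P = ∅`: `q`-expansion principle.  `r ∈ P`: include `f` in the level
`L r²` and deplete at `r` (`Stmt_DEPL`): `f''` is an eigenvector (coefficient formulas
`ModularFormClass.qCoeff_heckeT` + `UpperHalfPlane.eq_of_forall_qCoeff_eq`) with `a_n(f'') = 0`
for `n` prime to `P \ {r}`: `f'' = 0` by induction, so `f` is supported on the multiples of `r`.
If `r ∤ L`: `f = 0` (`Stmt_MAINb`).  If `r ∣ L`: `G` of `Stmt_MAIN` has level `L / r`, prime to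
`r`, and is an eigenvector: `G = 0` by `NoLow`; hence `f = 0`.] -/
def Stmt_CLAIM : Prop :=
  ∀ (S : Set ℕ) (a : ℕ → ℂ) (P : Finset ℕ), (∀ r ∈ P, r.Prime ∧ r ∈ S) →
    ∀ (L : ℕ) [NeZero L], (∀ s : ℕ, s.Prime → s ∣ L → s ∈ S) →
    (∀ r ∈ P, ¬ r ^ 2 ∣ L) → (∀ r ∈ P, r ∣ L → NoLow S a r) →
    ∀ f : CuspForm (Gamma0 L) 2, IsAnemic L S a f →
    (∀ n : ℕ, (∀ r ∈ P, ¬ r ∣ n) → qCoeff f n = 0) → f = 0

/-- the leaf CLAIM proves this -/
def Stmt_CLAIM_of : Prop := Stmt_DEPL → Stmt_MAIN → Stmt_MAINb → Stmt_CLAIM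

/-- the leaf MAINb proves this -/
def Stmt_MAINb_of : Prop := Stmt_MAIN → Stmt_MAINb

/-- **COEF**: for `f ∈ EC` with `a₁(f) = 0`, `a_n(f) = 0` for every `n` without prime factor in
`S \ Sig`.  [Strong induction on `n`: `n = 1` given (`n = 0`: cusp form); a prime factor
`r ∈ Sig`: `a_n(f) = a_{n/r}(U_r f) = 0`; a prime factor `ℓ ∉ S`:
`a_n(f) = χ(T_ℓ) a_{n/ℓ}(f) - ℓ a_{n/ℓ²}(f)`.] -/
def Stmt_COEF : Prop :=
  ∀ (N : ℕ) [NeZero N] (S : Set ℕ) (Sig : Finset ℕ) (χ : CuspForm.heckeAlgebra N 2 S →+* ℂ),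
    (∀ s : ℕ, s.Prime → s ∣ N → s ∈ S) → (∀ r ∈ Sig, r ∣ N) →
    ∀ f ∈ EC N S Sig χ, qCoeff f 1 = 0 →
    ∀ n : ℕ, (∀ s : ℕ, s.Prime → s ∣ n → s ∈ S → s ∈ Sig) → qCoeff f n = 0

/-- **NONVAN**: the eigenspace `EC` is not zero (any level, any character, `r² ∣ N` for
`r ∈ Sig`).  [`X = {f : T_ℓ f = χ(T_ℓ) f, ℓ ∉ S} ≠ 0` (`GTor.H81.exists_cusp_eigenvector`) is
stable under all `T_ℓ` (`ℓ ∤ N`) and `U_s` (`s ∣ N`) (prelude `heckeTLin_comm`, …); if `a₁ = 0`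
on `X` then all `a_n = 0` on `X` (strong induction on `n`), so there is `f ∈ X` with
`a₁(f) ≠ 0`; deplete `f` at every `r ∈ Sig` (`Stmt_DEPL`): the result is in `EC` (coefficient
formulas) and has `a₁ ≠ 0`.] -/
def Stmt_NONVAN : Prop :=
  ∀ (N : ℕ) [NeZero N] (S : Set ℕ) (Sig : Finset ℕ) (χ : CuspForm.heckeAlgebra N 2 S →+* ℂ),
    (∀ r ∈ Sig, r.Prime ∧ r ^ 2 ∣ N) → EC N S Sig χ ≠ ⊥

/-- the leaf NONVAN proves this -/
def Stmt_NONVAN_of : Prop := Stmt_DEPL → Stmt_NONVAN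

/-! ## 3. The Galois-theoretic input -/

/-- **NOLOW**: for `r ∈ Smin` (`r ≠ p`, or `r = p` and `ρbar` not flat at `p`), no nonzero form
of a level prime to `r` has the eigenvalues of `χ` (conjugate to `x`, which lifts `θ`).
[Let `f ≠ 0` of level `L` be such a form.  `R.H99.exists_character_of_eigenvector` gives a
character `y` of `heckeAlgebra L 2 S` with `y(T_ℓ) = χ(T_ℓ) = jC (x₀ (T_ℓ))`; its values lie in
`jC` of the subring `{b : jK b ∈ 𝒪}`, so `y = jC ∘ jK⁻¹ ∘ y₀` with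
`y₀ : heckeAlgebra L 2 S →+* 𝒪`, `y₀(T_ℓ) = x(T_ℓ)`.  `S30` (`Fermat.Agent.S30.result`) for
`y₀`: `ρ` over `𝒪''`, unramified at `r ∤ L p`, Frobenius polynomials
`X² - y₀(T_ℓ) X + ℓ`.  Its residual representation has the Frobenius polynomials of `ρbar`
(`FrobHyp`), so it is absolutely irreducible and equivalent to a base change of `ρbar`
(`Datum.H57.stmt_ResIrr`).  `r ≠ p`: `ρbar` is unramified at `r`, contradiction with
`ResHyp.hmin`.  `r = p`: `ρ` is flat at `p` (`R.Stmt_FlatPoint`, proved in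
`S59/NonMin/H7_CondOrdFinal.lean`), hence `ρbar` is flat (`Datum.H78.stmt_FlatDesc`):
contradiction.] -/
def Stmt_NOLOW : Prop :=
  ∀ (𝒪 : Type) [CommRing 𝒪] [IsDomain 𝒪] [IsDiscreteValuationRing 𝒪]
    [IsAdicComplete (maximalIdeal 𝒪) 𝒪] [Finite (ResidueField 𝒪)] [CharZero 𝒪]
    (p : ℕ) [Fact p.Prime], p ≠ 2 → (p : 𝒪) ∈ maximalIdeal 𝒪 →
    ∀ (ρbar : ResidualGaloisRep (ResidueField 𝒪)) (Smin : Finset ℕ), ResHyp p ρbar Smin →
    ∀ (N : ℕ) [NeZero N] (S : Finset ℕ), Smin ⊆ S → (∀ s : ℕ, s.Prime → s ∣ N → s ∈ S) →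
    ∀ (θ : CuspForm.heckeAlgebra N 2 (↑S : Set ℕ) →+* ResidueField 𝒪),
    Fermat.Agent.S59.Datum.FrobHyp ρbar N S θ →
    ∀ (x : CuspForm.heckeAlgebra N 2 (↑S : Set ℕ) →+* 𝒪), (∀ t, residue 𝒪 (x t) = θ t) →
    ∀ (χ : CuspForm.heckeAlgebra N 2 (↑S : Set ℕ) →+* ℂ), Conj x χ →
    ∀ r ∈ Smin, (r = p → ¬ (GaloisRepAdic.ofResidualGaloisRep ρbar).IsFlatAt p) →
      NoLow (↑S : Set ℕ) (eigVal χ) r

/-- **MULT1** (multiplicity one): `dim EC ≤ 1` at every state.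
[`a₁ : EC → ℂ` is injective: for `f ∈ EC` with `a₁(f) = 0`, `Stmt_COEF` gives `a_n(f) = 0` for
`n` prime to `Smin`; `Stmt_CLAIM` with `P = Smin`, `L = N` (`N₀` squarefree, `Sig ∩ Smin = ∅`;
`r ∈ Smin`, `r ∣ N` ⟹ `r ∣ N₀`: `Stmt_NOLOW`, with the non-flatness if `r = p`).] -/
def Stmt_MULT1 : Prop :=
  ∀ (𝒪 : Type) [CommRing 𝒪] [IsDomain 𝒪] [IsDiscreteValuationRing 𝒪]
    [IsAdicComplete (maximalIdeal 𝒪) 𝒪] [Finite (ResidueField 𝒪)] [CharZero 𝒪]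
    (p : ℕ) [Fact p.Prime], p ≠ 2 → (p : 𝒪) ∈ maximalIdeal 𝒪 →
    ∀ (ρbar : ResidualGaloisRep (ResidueField 𝒪)) (Smin : Finset ℕ), ResHyp p ρbar Smin →
    ∀ (N₀ : ℕ), (p ∣ N₀ → ¬ (GaloisRepAdic.ofResidualGaloisRep ρbar).IsFlatAt p) →
    ∀ (Sig : Finset ℕ) (N : ℕ) [NeZero N] (S : Finset ℕ), GeomHyp p Smin N₀ Sig N S →
    ∀ (θ : CuspForm.heckeAlgebra N 2 (↑S : Set ℕ) →+* ResidueField 𝒪),
    Fermat.Agent.S59.Datum.FrobHyp ρbar N S θ →
    ∀ (x : CuspForm.heckeAlgebra N 2 (↑S : Set ℕ) →+* 𝒪), (∀ t, residue 𝒪 (x t) = θ t) →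
    ∀ (χ : CuspForm.heckeAlgebra N 2 (↑S : Set ℕ) →+* ℂ), Conj x χ →
      Module.finrank ℂ ↥(EC N (↑S : Set ℕ) Sig χ) ≤ 1

/-- the leaf MULT1 proves this -/
def Stmt_MULT1_of : Prop := Stmt_CLAIM → Stmt_COEF → Stmt_NOLOW → Stmt_MULT1

/-! ## 4. Betti side: lattices, fields, Eichler–Shimura -/

/-- **ES** (Eichler–Shimura): `dim_ℂ EB(ℂ) = 2 dim_ℂ EC`.
[`periodHomPair N : S₂ × S₂ → Hom(Γ₀(N), ℂ)` is `ℂ`-linear, injective with range the parabolic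
homomorphisms (`Fermat.Agent.S21.result`), and intertwines `T × T` with `TB`, `U × U` with `UB`
(`Betti.H76.stmt_period_TB/UB`, `charInvolution_TB/UB`; model: `GTor.H81.periodHomPair_word`);
so it maps `EC × EC` isomorphically onto `EB`.] -/
def Stmt_ES : Prop :=
  ∀ (N : ℕ) [NeZero N] (S : Set ℕ) (Sig : Finset ℕ) (χ : CuspForm.heckeAlgebra N 2 S →+* ℂ),
    (∀ r ∈ Sig, r.Prime) →
    Module.finrank ℂ ↥(EB N S Sig ℂ χ) = 2 * Module.finrank ℂ ↥(EC N S Sig χ)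

/-- **FIELD**: the dimension of the Betti eigenspace is invariant under extension of the field
of coefficients.  [In a universal basis `b` (`Betti.stmt_basis`, `IsParBasis`) the parabolic
homomorphisms with values in `F` are `F^r`, and `TB`, `UB` are given by integer matrices
(`TB_castHom`, `UB_castHom`); `EB(F)` is the kernel of a family of matrices with entries in `F`,
which can be taken finite; the rank of a matrix does not change under field extension.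
`CharZero F`: needed for `IsParBasis` (torsion free coefficients).] -/
def Stmt_FIELD : Prop :=
  ∀ (N : ℕ) [NeZero N] (S : Set ℕ) (Sig : Finset ℕ) (F L : Type) [Field F] [Field L]
    [CharZero F] (j : F →+* L) (χ : CuspForm.heckeAlgebra N 2 S →+* F),
    Module.finrank L ↥(EB N S Sig L (j.comp χ)) = Module.finrank F ↥(EB N S Sig F χ)

/-- **EMBED**: every character with values in `𝒪` (characteristic zero) is conjugate to a
complex one.  [`F` := the algebraic closure of `ℚ` in `Frac 𝒪`; the values of `x` are integral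
over `ℤ` (`Fermat.Agent.S22.result`: the Hecke algebra is a finite `ℤ`-module), so `x` factors
through `F`; `jC := IsAlgClosed.lift`.] -/
def Stmt_EMBED : Prop :=
  ∀ (𝒪 : Type) [CommRing 𝒪] [IsDomain 𝒪] [CharZero 𝒪] (N : ℕ) [NeZero N] (S : Set ℕ)
    (x : CuspForm.heckeAlgebra N 2 S →+* 𝒪),
    ∃ χ : CuspForm.heckeAlgebra N 2 S →+* ℂ, Conj x χ

/-- **LAT**: the rank of the eigenspace of a Betti state is the dimension of the Betti
eigenspace over `K = Frac 𝒪`.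
[`ι` of `IsBetti` identifies `s.eigen x` with `{φ : IsEB … 𝒪 x φ}` (an eigenvector for the
generators `T_ℓ` is one for the whole algebra: all primes of `N` are in `S`, so there is no `U`
among the generators; an eigenvector for `x` lifting `θ` is `θ`-local:
`(T_ℓ - a)ⁿ φ = (x(T_ℓ) - a)ⁿ φ`); `φ ↦ algebraMap ∘ φ` embeds it in `EB(K)` and every element of
`EB(K)` has a multiple in the image (`IsParBasis`: finitely many coordinates); so the ranks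
agree.] -/
def Stmt_LAT : Prop :=
  ∀ (𝒪 : Type) [CommRing 𝒪] [IsDomain 𝒪] [IsDiscreteValuationRing 𝒪]
    (s : NMState 𝒪) (Sig : Finset ℕ), (∀ r : ℕ, r.Prime → r ∣ s.N → r ∈ s.S) →
    IsBetti s Sig →
    ∀ (x : CuspForm.heckeAlgebra s.N 2 (↑s.S : Set ℕ) →+* 𝒪),
    (∀ t, residue 𝒪 (x t) = s.θ t) →
    Module.finrank 𝒪 ↥(s.eigen x) =
      Module.finrank (FractionRing 𝒪)
        ↥(EB s.N (↑s.S : Set ℕ) Sig (FractionRing 𝒪)
          ((algebraMap 𝒪 (FractionRing 𝒪)).comp x))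

/-! ## 5. The assembly -/

/-- **RANK-ASM**: the assembly.
[`χ` from `Stmt_EMBED` for `x`; then `x ∘ rest` is conjugate to `χ ∘ rest` (same `F`).
`rank M'[x ∘ rest] = dim_K EB' = dim_F EB' = dim_ℂ EB' = 2 dim EC' ≤ 2` (`Stmt_LAT`,
`Stmt_FIELD` twice, `Stmt_ES`, `Stmt_MULT1` at the state of level `N q²`, whose `GeomHyp` holds
with `insert q Sig`), and `rank M[x] = … = 2 dim EC ≥ 2` (`Stmt_NONVAN`).] -/
def Stmt_RANKASM : Prop :=
  Stmt_LAT → Stmt_FIELD → Stmt_EMBED → Stmt_ES → Stmt_MULT1 → Stmt_NONVAN → Stmt_RANK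

end Fermat.Agent.S59.NonMin.Geom.Rank
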