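import Mathlib

/-!
# S59 / NMGEOM / RANK, leaf RANK-ES, part 1 (helper21): kernels of systems of linear equations

`kerFam A` : the common kernel of a family of square matrices `A j` over a commutative ring.

* `finrank_kerFam_map` : for an extension of fields `F → K` the dimension of the common kernel
  does not change;
* `finrank_kerFam_fraction` : for a domain `R` with fraction field `K`, the rank of the common
  kernel over `R` is the dimension of the common kernel over `K`.

Mathlib only.
-/

set_option autoImplicit false

open Module

namespace Fermat.Agent.S59.NonMin.Geom.Rank.H21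

/-- The common kernel of a family of matrices. -/
def kerFam {R : Type*} [CommRing R] {n : ℕ} {J : Type*} (A : J → Matrix (Fin n) (Fin n) R) :
    Submodule R (Fin n → R) :=
  ⨅ j, LinearMap.ker (Matrix.mulVecLin (A j))

theorem mem_kerFam {R : Type*} [CommRing R] {n : ℕ} {J : Type*}
    (A : J → Matrix (Fin n) (Fin n) R) (v : Fin n → R) :
    v ∈ kerFam A ↔ ∀ j, (A j).mulVec v = 0 := by
  simp only [kerFam, Submodule.mem_iInf, LinearMap.mem_ker, Matrix.mulVecLin_apply]

section FieldExt

variable {F K : Type*} [Field F] [Field K] [Algebra F K] {n : ℕ} {J : Type*}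

/-- extension of scalars of vectors -/
def extV (F K : Type*) [Field F] [Field K] [Algebra F K] (n : ℕ) :
    (Fin n → F) →ₗ[F] (Fin n → K) :=
  (Algebra.linearMap F K).compLeft (Fin n)

theorem extV_apply (v : Fin n → F) (k : Fin n) : extV F K n v k = algebraMap F K (v k) := rfl

/-- coordinatewise application of an `F`-linear functional -/
def coV (n : ℕ) (l : K →ₗ[F] F) : (Fin n → K) →ₗ[F] (Fin n → F) :=
  l.compLeft (Fin n)

theorem coV_apply (l : K →ₗ[F] F) (v : Fin n → K) (k : Fin n) : coV n l v k = l (v k) := rfl

theorem coV_mulVec (l : K →ₗ[F] F) (A : Matrix (Fin n) (Fin n) F) (v : Fin n → K) :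
    coV n l ((A.map (algebraMap F K)).mulVec v) = A.mulVec (coV n l v) := by
  funext k
  rw [coV_apply]
  simp only [Matrix.mulVec, dotProduct, Matrix.map_apply, coV_apply]
  rw [map_sum]
  refine Finset.sum_congr rfl fun j _ => ?_
  rw [← Algebra.smul_def, map_smul, smul_eq_mul]

theorem coV_smul_extV (l : K →ₗ[F] F) (c : K) (w : Fin n → F) :
    coV n l (c • extV F K n w) = l c • w := by
  funext k
  rw [coV_apply, Pi.smul_apply, Pi.smul_apply, extV_apply, smul_eq_mul, smul_eq_mul, mul_comm c,
    ← Algebra.smul_def, map_smul, smul_eq_mul, mul_comm]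

theorem extV_mem_kerFam (A : J → Matrix (Fin n) (Fin n) F) {v : Fin n → F}
    (hv : v ∈ kerFam A) : extV F K n v ∈ kerFam (fun j => (A j).map (algebraMap F K)) := by
  rw [mem_kerFam] at hv ⊢
  intro j
  funext k
  have h := congrFun (hv j) k
  simp only [Matrix.mulVec, dotProduct, Matrix.map_apply, extV_apply, Pi.zero_apply] at h ⊢
  simp only [← map_mul, ← map_sum, h, map_zero]

theorem coV_mem_kerFam (A : J → Matrix (Fin n) (Fin n) F) (l : K →ₗ[F] F) {v : Fin n → K}
    (hv : v ∈ kerFam (fun j => (A j).map (algebraMap F K))) : coV n l v ∈ kerFam A := by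
  rw [mem_kerFam] at hv ⊢
  intro j
  rw [← coV_mulVec, hv j, map_zero]

/-- every vector over `K` is a combination of its coordinate vectors in a basis of `K / F` -/
theorem exists_decomp (v : Fin n → K) :
    ∃ (T : Finset (Basis.ofVectorSpaceIndex F K)),
      v = ∑ s ∈ T, (Basis.ofVectorSpace F K s) •
        extV F K n (coV n ((Basis.ofVectorSpace F K).coord s) v) := by
  classical
  let b := Basis.ofVectorSpace F K
  refine ⟨Finset.univ.biUnion fun k => (b.repr (v k)).support, ?_⟩
  funext k
  rw [Finset.sum_apply]
  have h1 : v k = Finsupp.linearCombination F b (b.repr (v k)) :=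
    (b.linearCombination_repr (v k)).symm
  rw [Finsupp.linearCombination_apply, Finsupp.sum_of_support_subset (b.repr (v k))
    (s := Finset.univ.biUnion fun k => (b.repr (v k)).support)
    (fun s hs => Finset.mem_biUnion.mpr ⟨k, Finset.mem_univ k, hs⟩) _
    (fun s _ => zero_smul F (b s))] at h1
  conv_lhs => rw [h1]
  refine Finset.sum_congr rfl fun s _ => ?_
  rw [Pi.smul_apply, extV_apply, coV_apply, Basis.coord_apply, smul_eq_mul, Algebra.smul_def,
    mul_comm]

theorem kerFam_map_le_span (A : J → Matrix (Fin n) (Fin n) F) :
    kerFam (fun j => (A j).map (algebraMap F K)) ≤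
      Submodule.span K (extV F K n '' (kerFam A : Set (Fin n → F))) := by
  intro v hv
  obtain ⟨T, hT⟩ := exists_decomp (F := F) v
  rw [hT]
  refine Submodule.sum_mem _ fun s _ => Submodule.smul_mem _ _ (Submodule.subset_span ?_)
  exact ⟨_, coV_mem_kerFam A _ hv, rfl⟩

theorem linearIndependent_extV {ι : Type*} {w : ι → (Fin n → F)}
    (hw : LinearIndependent F w) : LinearIndependent K (fun a => extV F K n (w a)) := by
  classical
  rw [linearIndependent_iff'] at hw ⊢
  intro s c hc a ha
  rw [← Module.forall_dual_apply_eq_zero_iff (R := F)]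
  intro l
  have h1 := congrArg (coV n l) hc
  rw [map_sum, map_zero] at h1
  simp only [coV_smul_extV] at h1
  exact hw s (fun a => l (c a)) h1 a ha

/-- **Field extension**: the dimension of the common kernel of a family of matrices does not
change under an extension of fields. -/
theorem finrank_kerFam_map (A : J → Matrix (Fin n) (Fin n) F) :
    finrank K (kerFam (fun j => (A j).map (algebraMap F K))) = finrank F (kerFam A) := by
  classical
  let w := Module.finBasis F (kerFam A)
  have hw : LinearIndependent F (fun a => ((w a : kerFam A) : Fin n → F)) :=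
    w.linearIndependent.map' (kerFam A).subtype (Submodule.ker_subtype _)
  have hli := linearIndependent_extV (K := K) hw
  have hspan : kerFam (fun j => (A j).map (algebraMap F K)) =
      Submodule.span K (Set.range fun a => extV F K n ((w a : kerFam A) : Fin n → F)) := by
    apply le_antisymm
    · refine (kerFam_map_le_span A).trans (Submodule.span_le.mpr ?_)
      rintro _ ⟨v, hv, rfl⟩
      have h2 : (⟨v, hv⟩ : kerFam A) ∈ Submodule.span F (Set.range w) := by
        rw [w.span_eq]; exact Submodule.mem_top
      have h3 : v ∈ Submodule.span F (Set.range fun a => ((w a : kerFam A) : Fin n → F)) := by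
        have := Submodule.apply_mem_span_image_of_mem_span (kerFam A).subtype h2
        rwa [← Set.range_comp] at this
      have h4 : Submodule.span F (Set.range fun a => ((w a : kerFam A) : Fin n → F)) ≤
          ((Submodule.span K (Set.range fun a =>
            extV F K n ((w a : kerFam A) : Fin n → F))).restrictScalars F).comap
              (extV F K n) := by
        rw [Submodule.span_le]
        rintro _ ⟨a, rfl⟩
        exact Submodule.subset_span ⟨a, rfl⟩
      exact h4 h3
    · rw [Submodule.span_le]
      rintro _ ⟨a, rfl⟩
      exact extV_mem_kerFam A (w a).2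
  rw [hspan, finrank_span_eq_card hli, Fintype.card_fin]

end FieldExt

section Fraction

variable {R K : Type*} [CommRing R] [Field K] [Algebra R K] {n : ℕ} {J : Type*}

/-- extension of scalars of vectors, from a domain to its fraction field -/
def extR (R K : Type*) [CommRing R] [Field K] [Algebra R K] (n : ℕ) :
    (Fin n → R) →ₗ[R] (Fin n → K) :=
  (Algebra.linearMap R K).compLeft (Fin n)

theorem extR_apply (v : Fin n → R) (k : Fin n) : extR R K n v k = algebraMap R K (v k) := rfl

theorem extR_mulVec (A : Matrix (Fin n) (Fin n) R) (v : Fin n → R) :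
    (A.map (algebraMap R K)).mulVec (extR R K n v) = extR R K n (A.mulVec v) := by
  funext k
  simp only [Matrix.mulVec, dotProduct, Matrix.map_apply, extR_apply]
  simp only [← map_mul, ← map_sum]

variable [IsFractionRing R K]

theorem extR_injective : Function.Injective (extR R K n) := by
  intro v w h
  funext k
  exact IsFractionRing.injective R K (congrFun h k)

theorem extR_mem_kerFam_iff (A : J → Matrix (Fin n) (Fin n) R) (v : Fin n → R) :
    extR R K n v ∈ kerFam (fun j => (A j).map (algebraMap R K)) ↔ v ∈ kerFam A := by
  rw [mem_kerFam, mem_kerFam]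
  refine forall_congr' fun j => ?_
  rw [extR_mulVec, ← map_zero (extR R K n)]
  exact (extR_injective (R := R) (K := K)).eq_iff

/-- the map from the kernel over `R` to the kernel over `K` -/
def kerMap (A : J → Matrix (Fin n) (Fin n) R) :
    kerFam A →ₗ[R] kerFam (fun j => (A j).map (algebraMap R K)) where
  toFun v := ⟨extR R K n v.1, (extR_mem_kerFam_iff A v.1).mpr v.2⟩
  map_add' v w := Subtype.ext (map_add (extR R K n) v.1 w.1)
  map_smul' c v := Subtype.ext (map_smul (extR R K n) c v.1)

theorem kerMap_coe (A : J → Matrix (Fin n) (Fin n) R) (v : kerFam A) :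
    ((kerMap (K := K) A v : kerFam (fun j => (A j).map (algebraMap R K))) : Fin n → K) =
      extR R K n v.1 := rfl

theorem kerMap_injective (A : J → Matrix (Fin n) (Fin n) R) :
    Function.Injective (kerMap (K := K) A) := by
  intro v w h
  exact Subtype.ext (extR_injective (R := R) (K := K) (congrArg Subtype.val h))

theorem exists_smul_eq_kerMap (A : J → Matrix (Fin n) (Fin n) R)
    (y : kerFam (fun j => (A j).map (algebraMap R K))) :
    ∃ (d : nonZeroDivisors R) (v : kerFam A), d • y = kerMap (K := K) A v := by
  obtain ⟨d, hd⟩ := IsLocalization.exist_integer_multiples_of_finite (nonZeroDivisors R)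
    (fun k : Fin n => (y : Fin n → K) k)
  choose v hv using hd
  have hext : extR R K n v = (d : R) • (y : Fin n → K) := by
    funext k
    rw [extR_apply, hv k, Pi.smul_apply]
  have hmem : v ∈ kerFam A := by
    rw [← extR_mem_kerFam_iff (K := K), hext]
    exact Submodule.smul_of_tower_mem _ _ y.2
  refine ⟨d, ⟨v, hmem⟩, Subtype.ext ?_⟩
  rw [kerMap_coe, hext]
  rfl

variable [IsDomain R]

instance kerMap_isLocalizedModule (A : J → Matrix (Fin n) (Fin n) R) :
    IsLocalizedModule (nonZeroDivisors R) (kerMap (K := K) A) where
  map_units d := by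
    rw [Module.End.isUnit_iff]
    have hd : algebraMap R K d ≠ 0 :=
      IsFractionRing.to_map_ne_zero_of_mem_nonZeroDivisors d.2
    constructor
    · intro y z h
      simp only [Module.algebraMap_end_apply] at h
      have h' : (algebraMap R K d) • y = (algebraMap R K d) • z := by
        rwa [algebraMap_smul, algebraMap_smul]
      exact smul_right_injective _ hd h'
    · intro y
      refine ⟨(algebraMap R K d)⁻¹ • y, ?_⟩
      simp only [Module.algebraMap_end_apply]
      rw [← algebraMap_smul K (d : R), smul_smul, mul_inv_cancel₀ hd, one_smul]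
  surj y := by
    obtain ⟨d, v, h⟩ := exists_smul_eq_kerMap A y
    exact ⟨(v, d), h⟩
  exists_of_eq {v w} h := ⟨1, by rw [kerMap_injective A h]⟩

/-- **Fraction field**: the rank of the common kernel over a domain is the dimension of the
common kernel over its fraction field. -/
theorem finrank_kerFam_fraction (A : J → Matrix (Fin n) (Fin n) R) :
    finrank K (kerFam (fun j => (A j).map (algebraMap R K))) = finrank R (kerFam A) := by
  rw [IsFractionRing.finrank_right_eq R K]
  exact IsLocalizedModule.finrank_eq (nonZeroDivisors R) (kerMap (K := K) A) le_rfl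

end Fraction

end Fermat.Agent.S59.NonMin.Geom.Rank.H21
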