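import Mathlib
import Fermat.Agent.S59.NonMin.Geom.Rank.H21_KerExt

/-!
# S59 / NMGEOM / RANK, leaves FIELD and LAT, abstract part 2 (helper21)

* `finrank_sub_ext` : `F → L` an extension of fields, `UF ⊆ F^n`, `UL ⊆ L^n` subspaces such that
  `UF` maps to `UL` and `l ∘ UL ⊆ UF` for every `F`-linear functional `l : L → F`; then
  `dim_L UL = dim_F UF`.
* `finrank_hom_ext` : the same for subspaces of `Hom(G, F)`, `Hom(G, L)`, `G` a finitely generated
  group.

Mathlib only.
-/

set_option autoImplicit false

open Module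

namespace Fermat.Agent.S59.NonMin.Geom.Rank.H21

section FieldExt

variable {F L : Type*} [Field F] [Field L] [Algebra F L] {n : ℕ}

/-- **Field extension** for subspaces of `F^n`, `L^n`. -/
theorem finrank_sub_ext (UF : Submodule F (Fin n → F)) (UL : Submodule L (Fin n → L))
    (h1 : ∀ v ∈ UF, extV F L n v ∈ UL) (h2 : ∀ (l : L →ₗ[F] F), ∀ v ∈ UL, coV n l v ∈ UF) :
    finrank L UL = finrank F UF := by
  classical
  let w := Module.finBasis F UF
  have hw : LinearIndependent F (fun a => ((w a : UF) : Fin n → F)) :=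
    w.linearIndependent.map' UF.subtype (Submodule.ker_subtype _)
  have hli := linearIndependent_extV (K := L) hw
  have hspan : UL =
      Submodule.span L (Set.range fun a => extV F L n ((w a : UF) : Fin n → F)) := by
    apply le_antisymm
    · intro v hv
      obtain ⟨T, hT⟩ := exists_decomp (F := F) v
      rw [hT]
      refine Submodule.sum_mem _ fun s _ => Submodule.smul_mem _ _ ?_
      have hu := h2 ((Basis.ofVectorSpace F L).coord s) v hv
      have h2' : (⟨_, hu⟩ : UF) ∈ Submodule.span F (Set.range w) := by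
        rw [w.span_eq]; exact Submodule.mem_top
      have h3 : coV n ((Basis.ofVectorSpace F L).coord s) v ∈
          Submodule.span F (Set.range fun a => ((w a : UF) : Fin n → F)) := by
        have := Submodule.apply_mem_span_image_of_mem_span UF.subtype h2'
        rwa [← Set.range_comp] at this
      have h4 : Submodule.span F (Set.range fun a => ((w a : UF) : Fin n → F)) ≤
          ((Submodule.span L (Set.range fun a =>
            extV F L n ((w a : UF) : Fin n → F))).restrictScalars F).comap (extV F L n) := by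
        rw [Submodule.span_le]
        rintro _ ⟨a, rfl⟩
        exact Submodule.subset_span ⟨a, rfl⟩
      exact h4 h3
    · rw [Submodule.span_le]
      rintro _ ⟨a, rfl⟩
      exact h1 _ (w a).2
  rw [hspan, finrank_span_eq_card hli, Fintype.card_fin]

end FieldExt

section Hom

variable {G : Type*} [AddGroup G]

/-- a finitely generated group has a finite generating family -/
theorem exists_gen (hG : AddGroup.FG G) :
    ∃ (m : ℕ) (g : Fin m → G), AddSubgroup.closure (Set.range g) = ⊤ := by
  classical
  obtain ⟨S, hS, hfin⟩ := AddGroup.fg_iff.mp hG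
  obtain ⟨m, g, hg⟩ : ∃ (m : ℕ) (g : Fin m → G), Set.range g = S := by
    obtain ⟨m, g, -, hg⟩ := hfin.fin_param
    exact ⟨m, g, hg⟩
  exact ⟨m, g, by rw [hg, hS]⟩

/-- evaluation at a family of elements -/
def evG {m : ℕ} (g : Fin m → G) (A : Type*) [CommRing A] : (G →+ A) →ₗ[A] (Fin m → A) where
  toFun φ i := φ (g i)
  map_add' _ _ := rfl
  map_smul' _ _ := rfl

@[simp] theorem evG_apply {m : ℕ} (g : Fin m → G) (A : Type*) [CommRing A] (φ : G →+ A)
    (i : Fin m) : evG g A φ i = φ (g i) := rfl

theorem evG_injective {m : ℕ} {g : Fin m → G} (hg : AddSubgroup.closure (Set.range g) = ⊤)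
    (A : Type*) [CommRing A] : Function.Injective (evG g A) := by
  intro φ ψ h
  refine AddMonoidHom.eq_of_eqOn_dense hg ?_
  rintro _ ⟨i, rfl⟩
  exact congrFun h i

variable {F L : Type*} [Field F] [Field L] [Algebra F L]

/-- **Field extension** for subspaces of `Hom(G, F)`, `Hom(G, L)`: if `WF` maps to `WL` under
`φ ↦ algebraMap ∘ φ` and `l ∘ WL ⊆ WF` for every `F`-linear functional `l`, the dimensions
agree. -/
theorem finrank_hom_ext (hG : AddGroup.FG G) (WF : Submodule F (G →+ F))
    (WL : Submodule L (G →+ L))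
    (h1 : ∀ φ ∈ WF, (algebraMap F L).toAddMonoidHom.comp φ ∈ WL)
    (h2 : ∀ (l : L →ₗ[F] F), ∀ φ ∈ WL, l.toAddMonoidHom.comp φ ∈ WF) :
    finrank L WL = finrank F WF := by
  obtain ⟨m, g, hg⟩ := exists_gen hG
  have e1 : finrank L WL = finrank L (WL.map (evG g L)) :=
    (Submodule.equivMapOfInjective (evG g L) (evG_injective hg L) WL).finrank_eq
  have e2 : finrank F WF = finrank F (WF.map (evG g F)) :=
    (Submodule.equivMapOfInjective (evG g F) (evG_injective hg F) WF).finrank_eq
  rw [e1, e2]
  refine finrank_sub_ext _ _ ?_ ?_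
  · rintro _ ⟨φ, hφ, rfl⟩
    exact ⟨_, h1 φ hφ, rfl⟩
  · rintro l _ ⟨φ, hφ, rfl⟩
    exact ⟨_, h2 l φ hφ, rfl⟩

end Hom

end Fermat.Agent.S59.NonMin.Geom.Rank.H21
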