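import Mathlib
import Fermat.Agent.S59.NonMin.Geom.Rank.Defs
import Fermat.Agent.S59.NonMin.Geom.Rank.H21_SubExt
import Fermat.Agent.Betti.Basis

/-!
# S59 / NMGEOM / RANK, leaf FIELD (helper21)

`stmt_FIELD : Stmt_FIELD`: the dimension of the Betti eigenspace `EB` does not depend on the
field of coefficients.

Route: `Γ₀(N)` is finitely generated, so `Hom(Γ₀(N), F)` embeds in `F^m` (values on generators);
the Betti operators commute with post-composition by additive maps, so `EB(F)` maps to `EB(L)`
and `l ∘ EB(L) ⊆ EB(F)` for every `F`-linear functional `l : L → F`; then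
`H21.finrank_hom_ext` (coordinates in a basis of `L / F`).  No universal basis, no `CharZero`.
-/

set_option autoImplicit false

open Module CuspForm CongruenceSubgroup
open scoped MatrixGroups

namespace Fermat.Agent.S59.NonMin.Geom.Rank.H21

open Fermat.Agent.Betti ModularCurve.Period

section Comp

variable {N : ℕ} {A B : Type*} [AddCommGroup A] [AddCommGroup B]

/-- `TB` commutes with post-composition by an additive map -/
theorem TB_comp (u : A →+ B) {p : ℕ} (hp : p.Prime) (hpN : ¬ p ∣ N)
    (φ : Additive (Gamma0 N) →+ A) :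
    TB N B hp hpN (u.comp φ) = u.comp (TB N A hp hpN φ) := by
  have : Fact p.Prime := ⟨hp⟩
  exact (isHeckeFamily_T N hpN).heckeOp_comp (incl_injective N) u φ

/-- `UB` commutes with post-composition by an additive map -/
theorem UB_comp [NeZero N] (u : A →+ B) {p : ℕ} (hpN : p ∣ N)
    (φ : Additive (Gamma0 N) →+ A) :
    UB N B hpN (u.comp φ) = u.comp (UB N A hpN φ) := by
  have : NeZero p := neZero_of_dvd hpN
  exact (isHeckeFamily_U N hpN).heckeOp_comp (incl_injective N) u φ

theorem isParabolicHom_comp (u : A →+ B) {φ : Additive (Gamma0 N) →+ A}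
    (h : IsParabolicHom (Gamma0 N) φ) : IsParabolicHom (Gamma0 N) (u.comp φ) := by
  intro γ hγ
  show u (φ (Additive.ofMul γ)) = 0
  rw [h γ hγ, map_zero]

end Comp

section EB

variable {N : ℕ} [NeZero N] {S : Set ℕ} {Sig : Finset ℕ}

/-- `IsEB` is preserved by post-composition with an additive map which is semilinear for the
two characters. -/
theorem isEB_comp {R R' : Type} [CommRing R] [CommRing R'] (u : R →+ R')
    (χ : CuspForm.heckeAlgebra N 2 S →+* R) (χ' : CuspForm.heckeAlgebra N 2 S →+* R')
    (hu : ∀ t a, u (χ t * a) = χ' t * u a) {φ : Additive (Gamma0 N) →+ R}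
    (h : IsEB N S Sig R χ φ) : IsEB N S Sig R' χ' (u.comp φ) := by
  obtain ⟨h1, h2, h3⟩ := h
  refine ⟨isParabolicHom_comp u h1, fun ℓ hℓ hℓN hℓS => ?_, fun r hr hrN => ?_⟩
  · rw [TB_comp, h2 ℓ hℓ hℓN hℓS]
    refine AddMonoidHom.ext fun γ => ?_
    show u (χ _ • φ γ) = χ' _ • u (φ γ)
    rw [smul_eq_mul, smul_eq_mul, hu]
  · rw [UB_comp, h3 r hr hrN]
    exact AddMonoidHom.comp_zero u

end EB

/-- **FIELD**: the dimension of the Betti eigenspace is invariant under extension of the field
of coefficients. -/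
theorem stmt_FIELD : Stmt_FIELD := by
  intro N _ S Sig F L _ _ _ j χ
  letI : Algebra F L := j.toAlgebra
  have hG : AddGroup.FG (Additive (Gamma0 N)) := GroupFG.iff_add_fg.mp (fg_Gamma0 N)
  refine finrank_hom_ext hG (EB N S Sig F χ) (EB N S Sig L (j.comp χ)) ?_ ?_
  · intro φ hφ
    exact isEB_comp (algebraMap F L).toAddMonoidHom χ (j.comp χ)
      (fun t a => map_mul j (χ t) a) hφ
  · intro l φ hφ
    refine isEB_comp l.toAddMonoidHom (j.comp χ) χ (fun t a => ?_) hφ
    show l (j (χ t) * a) = χ t * l a
    have : j (χ t) * a = χ t • a := (Algebra.smul_def (χ t) a).symm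
    rw [this, map_smul, smul_eq_mul]

end Fermat.Agent.S59.NonMin.Geom.Rank.H21
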