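/-
S59 / PGEOM / P-RANK (sub-planner helper27), leaf FIELD-U (helper25):
`stmt_FIELDU : Stmt_FIELDU`.

The dimension of the `U_p = c` eigenspace `EBU` of the Betti eigenspace does not depend on the
field of coefficients.

Route: as `H21.stmt_FIELD` (helper21): the Betti operators commute with post-composition by
additive maps, so `EBU(F)` maps to `EBU(L)` under `φ ↦ j ∘ φ`, and `l ∘ EBU(L) ⊆ EBU(F)` for every
`F`-linear functional `l : L → F`; then `H21.finrank_hom_ext`.
-/
import Fermat.Agent.S59.NonMin.Geom.Rank.DefsP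
import Fermat.Agent.S59.NonMin.Geom.Rank.H21_Field

set_option autoImplicit false

open CuspForm CongruenceSubgroup Module
open scoped MatrixGroups

namespace Fermat.Agent.S59.NonMin.Geom.Rank.H25F

open Fermat.Agent.Betti Fermat.Agent.S59.NonMin.Geom.Rank
open ModularCurve.Period

/-- **FIELD-U**. -/
theorem stmt_FIELDU : Stmt_FIELDU := by
  intro N _ S Sig F L _ _ _ j χ p hp c
  let _ : Algebra F L := j.toAlgebra
  have hsmul : ∀ (d : F) (x : L), j d * x = d • x := fun d x => (Algebra.smul_def d x).symm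
  have hG : AddGroup.FG (Additive (Gamma0 N)) := GroupFG.iff_add_fg.mp (fg_Gamma0 N)
  refine H21.finrank_hom_ext hG (EBU N S Sig F χ hp c) (EBU N S Sig L (j.comp χ) hp (j c))
    (fun φ hφ => ⟨?_, ?_⟩) (fun l ψ hψ => ⟨?_, ?_⟩)
  · exact H21.isEB_comp (algebraMap F L).toAddMonoidHom χ (j.comp χ)
      (fun t a => map_mul j (χ t) a) hφ.1
  · rw [H21.UB_comp, hφ.2]
    refine AddMonoidHom.ext fun γ => ?_
    show j (c * φ γ) = j c * j (φ γ)
    rw [map_mul]
  · refine H21.isEB_comp l.toAddMonoidHom (j.comp χ) χ (fun t a => ?_) hψ.1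
    show l (j (χ t) * a) = χ t * l a
    rw [hsmul, map_smul, smul_eq_mul]
  · rw [H21.UB_comp, hψ.2]
    refine AddMonoidHom.ext fun γ => ?_
    show l (j c * ψ γ) = c * l (ψ γ)
    rw [hsmul, map_smul, smul_eq_mul]

end Fermat.Agent.S59.NonMin.Geom.Rank.H25F
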