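import Mathlib
import Fermat.Agent.S59.NonMin.Geom.Rank.Defs
import Fermat.Agent.S59.CaseC.Geom.Defs

/-!
# S59 / case C / PGEOM, leaf P-RANK (sub-planner helper27): interface

Plan: `NOTES/plan/S59_NMG_RANK.md` §5.  Target: `CaseC.Geom.Stmt_PRANK` (the eigenspaces do not
grow from the level `N` to the `U_p`-ordinary part of the level `N p`, `p ∤ N`).

Route.  `E' := EC (N p) S Sig (χ ∘ rest)` (no condition at `p`).
* cusp forms: `f ∈ E'`, `a₁(f) = 0` ⟹ `f = V_p G`, `G ∈ EC N` (`Stmt_PSTRUCT`); hence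
  `U_p² - a U_p + p = 0` on `E'`, `a` = the eigenvalue of `T_p` on `EC N` (`Stmt_PQUAD`), and the
  eigenspaces of `U_p` in `E'` have dimension `≤ 1` (`Stmt_PMULT1U`);
* transfer to the Betti lattice: `Stmt_ESU`, `Stmt_RELTR`, `Stmt_FIELDU`, `Stmt_EMBEDA`;
* algebra: on a separated `𝒪`-module with `U² - a U + p = 0` the `U`-divisible elements are
  eigenvectors for one `u` (`Stmt_PORDALG`);
* lattice: the eigenspace of the ordinary part consists of `U`-divisible eigenvectors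
  (`Stmt_UINJ`, `Stmt_PLAT`).

Conventions as in `Rank/Defs.lean`: leaf `X` in `S59/NonMin/Geom/Rank/H<seat>_<X>.lean`,
namespace `Fermat.Agent.S59.NonMin.Geom.Rank.H<seat>`.  Definitions only; no `sorry`.
-/

set_option autoImplicit false

open Polynomial CuspForm CongruenceSubgroup IsLocalRing ModularFormClass
open scoped MatrixGroups

namespace Fermat.Agent.S59.NonMin.Geom.Rank

open Fermat.Agent.Betti Fermat.Agent.S59 Fermat.Agent.S59.Asm Fermat.Agent.S41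
open ModularCurve.Period

/-! ## 1. Eigenspaces of `U_p` -/

section Eigenspaces

variable (N : ℕ) [NeZero N] (S : Set ℕ) (Sig : Finset ℕ)

/-- The `U_p = c` eigenspace of the Betti eigenspace `EB`. -/
def EBU (K : Type) [Field K] (χ : CuspForm.heckeAlgebra N 2 S →+* K) {p : ℕ} (hp : p ∣ N)
    (c : K) : Submodule K (Additive (Gamma0 N) →+ K) where
  carrier := {φ | φ ∈ EB N S Sig K χ ∧ UB N K hp φ = c • φ}
  zero_mem' := ⟨Submodule.zero_mem _, by rw [map_zero, smul_zero]⟩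
  add_mem' := by
    rintro φ ψ ⟨h1, h2⟩ ⟨k1, k2⟩
    exact ⟨Submodule.add_mem _ h1 k1, by rw [map_add, h2, k2, smul_add]⟩
  smul_mem' := by
    rintro d φ ⟨h1, h2⟩
    exact ⟨Submodule.smul_mem _ d h1, by rw [UB_smul, h2, smul_comm]⟩

/-- The `U_p = c` eigenspace of the cusp form eigenspace `EC`. -/
def ECU (χ : CuspForm.heckeAlgebra N 2 S →+* ℂ) {p : ℕ} (hp : p ∣ N) (c : ℂ) :
    Submodule ℂ (CuspForm (Gamma0 N) 2) where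
  carrier := {f | f ∈ EC N S Sig χ ∧ CuspForm.heckeULin 2 hp f = c • f}
  zero_mem' := ⟨Submodule.zero_mem _, by rw [map_zero, smul_zero]⟩
  add_mem' := by
    rintro f g ⟨h1, h2⟩ ⟨k1, k2⟩
    exact ⟨Submodule.add_mem _ h1 k1, by rw [map_add, h2, k2, smul_add]⟩
  smul_mem' := by
    rintro d f ⟨h1, h2⟩
    exact ⟨Submodule.smul_mem _ d h1, by rw [map_smul, h2, smul_comm]⟩

end Eigenspaces

/-- `Conj` with a field `F` which contains all the elements of `Frac 𝒪` integral over `ℤ`. -/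
def ConjA {𝒪 : Type} [CommRing 𝒪] [IsDomain 𝒪] {H : Type} [CommRing H] (x : H →+* 𝒪)
    (χ : H →+* ℂ) : Prop :=
  ∃ (F : Type) (_ : Field F) (x₀ : H →+* F) (jK : F →+* FractionRing 𝒪) (jC : F →+* ℂ),
    jK.comp x₀ = (algebraMap 𝒪 (FractionRing 𝒪)).comp x ∧ jC.comp x₀ = χ ∧
    ∀ y : FractionRing 𝒪, IsIntegral ℤ y → y ∈ Set.range jK

theorem ConjA.conj {𝒪 : Type} [CommRing 𝒪] [IsDomain 𝒪] {H : Type} [CommRing H] {x : H →+* 𝒪}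
    {χ : H →+* ℂ} (h : ConjA x χ) : Conj x χ := by
  obtain ⟨F, i, x₀, jK, jC, h1, h2, -⟩ := h
  exact ⟨F, i, x₀, jK, jC, h1, h2⟩

/-- The standing hypotheses of the step at `p`: a state of the class `G` of level `N` prime to
`p`, a character `x` lifting `θ`, a conjugate complex character `χ`, and the restriction map. -/
structure PHyp {𝒪 : Type} [CommRing 𝒪] [IsDomain 𝒪] [IsLocalRing 𝒪] (p : ℕ)
    (ρbar : ResidualGaloisRep (ResidueField 𝒪)) (Smin : Finset ℕ) (N₀ : ℕ) (Sig : Finset ℕ)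
    (N : ℕ) [NeZero N] [NeZero (N * p)] (S : Finset ℕ)
    (θ : CuspForm.heckeAlgebra N 2 (↑S : Set ℕ) →+* ResidueField 𝒪)
    (x : CuspForm.heckeAlgebra N 2 (↑S : Set ℕ) →+* 𝒪)
    (χ : CuspForm.heckeAlgebra N 2 (↑S : Set ℕ) →+* ℂ)
    (rest : CuspForm.heckeAlgebra (N * p) 2 (↑S : Set ℕ) →+*
      CuspForm.heckeAlgebra N 2 (↑S : Set ℕ)) : Prop where
  hp2 : p ≠ 2
  hp𝒪 : (p : 𝒪) ∈ maximalIdeal 𝒪
  hRes : ResHyp p ρbar Smin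
  hG : GeomHyp p Smin N₀ Sig N S
  hpN : ¬ p ∣ N
  hFrob : Fermat.Agent.S59.Datum.FrobHyp ρbar N S θ
  hx : ∀ t, residue 𝒪 (x t) = θ t
  hχ : Conj x χ
  hrest : ∀ (ℓ : ℕ) (hℓ : ℓ.Prime) (hℓN' : ¬ ℓ ∣ N * p) (hℓS : ℓ ∉ (↑S : Set ℕ))
    (hℓN : ¬ ℓ ∣ N),
    rest (CuspForm.heckeAlgebra.T hℓ hℓN' hℓS) = CuspForm.heckeAlgebra.T hℓ hℓN hℓS

/-! ## 2. Cusp forms -/

/-- **P-STRUCT**: a form of `E'` (level `N p`) with `a₁ = 0` is `V_p G`, `G ∈ EC` of level `N`.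
[`Stmt_COEF` at the level `N p`: `a_n(f) = 0` for `n` prime to `Smin`.  Include `f` in the level
`N p²` and deplete at `p` (`Stmt_DEPL`): `f''` is an eigenvector with `a_n(f'') = 0` for `n`
prime to `Smin ∖ {p}`; `Stmt_CLAIM` with `P = Smin.erase p` (`NoLow r` from `Stmt_NOLOW`,
`r ≠ p`: no flatness hypothesis) gives `f'' = 0`.  So `f` is supported on the multiples of `p`,
and `Stmt_MAIN` (`L = N p`, `r = p`, `L / gcd = N`) gives `G`; `G ∈ EC N` by the coefficient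
formulas.] -/
def Stmt_PSTRUCT : Prop :=
  ∀ (𝒪 : Type) [CommRing 𝒪] [IsDomain 𝒪] [IsDiscreteValuationRing 𝒪]
    [IsAdicComplete (maximalIdeal 𝒪) 𝒪] [Finite (ResidueField 𝒪)] [CharZero 𝒪]
    (p : ℕ) [Fact p.Prime] (ρbar : ResidualGaloisRep (ResidueField 𝒪)) (Smin : Finset ℕ)
    (N₀ : ℕ) (Sig : Finset ℕ) (N : ℕ) [NeZero N] [NeZero (N * p)] (S : Finset ℕ)
    (θ : CuspForm.heckeAlgebra N 2 (↑S : Set ℕ) →+* ResidueField 𝒪)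
    (x : CuspForm.heckeAlgebra N 2 (↑S : Set ℕ) →+* 𝒪)
    (χ : CuspForm.heckeAlgebra N 2 (↑S : Set ℕ) →+* ℂ)
    (rest : CuspForm.heckeAlgebra (N * p) 2 (↑S : Set ℕ) →+*
      CuspForm.heckeAlgebra N 2 (↑S : Set ℕ)),
    PHyp p ρbar Smin N₀ Sig N S θ x χ rest →
    ∀ f ∈ EC (N * p) (↑S : Set ℕ) Sig (χ.comp rest), qCoeff f 1 = 0 →
      (∀ n : ℕ, ¬ p ∣ n → qCoeff f n = 0) ∧
      ∃ G ∈ EC N (↑S : Set ℕ) Sig χ, ∀ n : ℕ, qCoeff G n = qCoeff f (p * n)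

/-- the leaf P-STRUCT proves this -/
def Stmt_PSTRUCT_of : Prop :=
  Stmt_CLAIM → Stmt_COEF → Stmt_NOLOW → Stmt_DEPL → Stmt_MAIN → Stmt_PSTRUCT

/-- **P-QUAD**: `U_p² - a U_p + p = 0` on `E'`, with `a` an algebraic integer.
[`EC N` is a line (`Stmt_MULT1`, whose non-flatness hypothesis is empty as `p ∤ N₀`; `Stmt_NONVAN`)
stable under `T_p` (prelude `heckeTLin_comm`, `heckeTLin_heckeULin_comm`): `T_p = a` on it; `a` is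
integral (`S22.result`).  `G₀ ∈ EC N`, `a₁(G₀) = 1`.  For `f ∈ E'`: `f - a₁(f) G₀` has `a₁ = 0`,
so `f = a₁(f) G₀ + V_p G` (`Stmt_PSTRUCT`); the relation holds for `G₀` (`a a_{pn} = a_{p²n} +
p a_n` from `T_p G₀ = a G₀`) and for `V_p G` (`a_{pn}(G) - a a_n(G) + p a_{n/p}(G) = 0`);
conclude by `UpperHalfPlane.eq_of_forall_qCoeff_eq` and `qCoeff_heckeU`.] -/
def Stmt_PQUAD : Prop :=
  ∀ (𝒪 : Type) [CommRing 𝒪] [IsDomain 𝒪] [IsDiscreteValuationRing 𝒪]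
    [IsAdicComplete (maximalIdeal 𝒪) 𝒪] [Finite (ResidueField 𝒪)] [CharZero 𝒪]
    (p : ℕ) [Fact p.Prime] (ρbar : ResidualGaloisRep (ResidueField 𝒪)) (Smin : Finset ℕ)
    (N₀ : ℕ) (Sig : Finset ℕ) (N : ℕ) [NeZero N] [NeZero (N * p)] (S : Finset ℕ)
    (θ : CuspForm.heckeAlgebra N 2 (↑S : Set ℕ) →+* ResidueField 𝒪)
    (x : CuspForm.heckeAlgebra N 2 (↑S : Set ℕ) →+* 𝒪)
    (χ : CuspForm.heckeAlgebra N 2 (↑S : Set ℕ) →+* ℂ)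
    (rest : CuspForm.heckeAlgebra (N * p) 2 (↑S : Set ℕ) →+*
      CuspForm.heckeAlgebra N 2 (↑S : Set ℕ)),
    PHyp p ρbar Smin N₀ Sig N S θ x χ rest → ∀ (hd : p ∣ N * p),
    ∃ a : ℂ, IsIntegral ℤ a ∧ ∀ f ∈ EC (N * p) (↑S : Set ℕ) Sig (χ.comp rest),
      CuspForm.heckeULin 2 hd (CuspForm.heckeULin 2 hd f) - a • CuspForm.heckeULin 2 hd f
        + (p : ℂ) • f = 0

/-- the leaf P-QUAD proves this -/
def Stmt_PQUAD_of : Prop := Stmt_PSTRUCT → Stmt_MULT1 → Stmt_NONVAN → Stmt_PQUAD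

/-- **P-MULT1U**: the eigenspaces of `U_p` in `E'` have dimension `≤ 1`.
[`a₁` is injective: `f ∈ ECU c`, `a₁(f) = 0` ⟹ `a_n(f) = 0` for `p ∤ n` (`Stmt_PSTRUCT`) and
`a_{pn}(f) = c a_n(f)`, so all `a_n(f) = 0`.] -/
def Stmt_PMULT1U : Prop :=
  ∀ (𝒪 : Type) [CommRing 𝒪] [IsDomain 𝒪] [IsDiscreteValuationRing 𝒪]
    [IsAdicComplete (maximalIdeal 𝒪) 𝒪] [Finite (ResidueField 𝒪)] [CharZero 𝒪]
    (p : ℕ) [Fact p.Prime] (ρbar : ResidualGaloisRep (ResidueField 𝒪)) (Smin : Finset ℕ)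
    (N₀ : ℕ) (Sig : Finset ℕ) (N : ℕ) [NeZero N] [NeZero (N * p)] (S : Finset ℕ)
    (θ : CuspForm.heckeAlgebra N 2 (↑S : Set ℕ) →+* ResidueField 𝒪)
    (x : CuspForm.heckeAlgebra N 2 (↑S : Set ℕ) →+* 𝒪)
    (χ : CuspForm.heckeAlgebra N 2 (↑S : Set ℕ) →+* ℂ)
    (rest : CuspForm.heckeAlgebra (N * p) 2 (↑S : Set ℕ) →+*
      CuspForm.heckeAlgebra N 2 (↑S : Set ℕ)),
    PHyp p ρbar Smin N₀ Sig N S θ x χ rest → ∀ (hd : p ∣ N * p) (c : ℂ),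
    Module.finrank ℂ ↥(ECU (N * p) (↑S : Set ℕ) Sig (χ.comp rest) hd c) ≤ 1

/-- the leaf P-MULT1U proves this -/
def Stmt_PMULT1U_of : Prop := Stmt_PSTRUCT → Stmt_PMULT1U

/-! ## 3. Transfer between `ℂ`, `F` and `Frac 𝒪` -/

/-- **ES-U**: Eichler–Shimura with the operator `U_p`: dimensions of the `U_p`-eigenspaces, and
transfer of a quadratic relation for `U_p` from cusp forms to complex Betti classes.
[As `Stmt_ES`: `periodHomPair` intertwines `U_p × U_p` with `UB`.] -/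
def Stmt_ESU : Prop :=
  ∀ (N : ℕ) [NeZero N] (S : Set ℕ) (Sig : Finset ℕ) (χ : CuspForm.heckeAlgebra N 2 S →+* ℂ)
    (p : ℕ) (hp : p ∣ N), p.Prime → (∀ r ∈ Sig, r.Prime) →
    (∀ c : ℂ, Module.finrank ℂ ↥(EBU N S Sig ℂ χ hp c) =
      2 * Module.finrank ℂ ↥(ECU N S Sig χ hp c)) ∧
    ∀ a : ℂ,
      (∀ f ∈ EC N S Sig χ, CuspForm.heckeULin 2 hp (CuspForm.heckeULin 2 hp f)
        - a • CuspForm.heckeULin 2 hp f + (p : ℂ) • f = 0) →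
      ∀ φ ∈ EB N S Sig ℂ χ, UB N ℂ hp (UB N ℂ hp φ) - a • UB N ℂ hp φ + (p : ℂ) • φ = 0

/-- **FIELD-U**: `Stmt_FIELD` for the eigenspaces of `U_p`. -/
def Stmt_FIELDU : Prop :=
  ∀ (N : ℕ) [NeZero N] (S : Set ℕ) (Sig : Finset ℕ) (F L : Type) [Field F] [Field L]
    [CharZero F] (j : F →+* L) (χ : CuspForm.heckeAlgebra N 2 S →+* F) (p : ℕ) (hp : p ∣ N)
    (c : F),
    Module.finrank L ↥(EBU N S Sig L (j.comp χ) hp (j c)) =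
      Module.finrank F ↥(EBU N S Sig F χ hp c)

/-- **REL-TR**: a quadratic relation for `U_p` on `EB` holds over `F` iff it holds over an
extension `L`; and its coefficient `a'` over `L` comes from `F` if `U_p ≠ 0` on `EB(F)`.
[`φ ↦ j ∘ φ` is injective, additive, commutes with `UB` (`heckeOp_comp`) and maps `EB(F)` into
`EB(L)`: this gives `⇐`.  `⇒`: `EB(L)` is the `L`-span of the image (it contains it, and the
dimensions agree by `Stmt_FIELD` since linearly independent families stay independent).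
Descent of `a'`: for `φ ∈ EB(F)`, `γ` with `(UB φ)(γ) ≠ 0`:
`a' = j (((UB (UB φ)) γ + p φ γ) / (UB φ) γ)`.] -/
def Stmt_RELTR : Prop :=
  Stmt_FIELD →
  ∀ (N : ℕ) [NeZero N] (S : Set ℕ) (Sig : Finset ℕ) (F L : Type) [Field F] [Field L]
    [CharZero F] (j : F →+* L) (χ : CuspForm.heckeAlgebra N 2 S →+* F) (p : ℕ) (hp : p ∣ N),
    (∀ a : F,
      (∀ φ ∈ EB N S Sig F χ, UB N F hp (UB N F hp φ) - a • UB N F hp φ + (p : F) • φ = 0) ↔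
      (∀ φ ∈ EB N S Sig L (j.comp χ),
        UB N L hp (UB N L hp φ) - (j a) • UB N L hp φ + (p : L) • φ = 0)) ∧
    ∀ a' : L,
      (∀ φ ∈ EB N S Sig L (j.comp χ),
        UB N L hp (UB N L hp φ) - a' • UB N L hp φ + (p : L) • φ = 0) →
      (∃ φ ∈ EB N S Sig F χ, UB N F hp φ ≠ 0) → ∃ a : F, j a = a'

/-- **EMBED-A**: `Stmt_EMBED` with `F` = the algebraic closure of `ℚ` in `Frac 𝒪`. -/
def Stmt_EMBEDA : Prop :=
  ∀ (𝒪 : Type) [CommRing 𝒪] [IsDomain 𝒪] [CharZero 𝒪] (N : ℕ) [NeZero N] (S : Set ℕ)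
    (x : CuspForm.heckeAlgebra N 2 S →+* 𝒪),
    ∃ χ : CuspForm.heckeAlgebra N 2 S →+* ℂ, ConjA x χ

/-! ## 4. The lattice -/

/-- **U-INJ**: `U_p` of level `N p` (`p ∤ N`) is injective on `Hom(Γ₀(N p), A)`, `A` without
`p`-torsion.  [`U φ = 0` ⟹ `p c₂ φ = c₁ U φ = 0` and `c₁ φ = T c₂ φ - c₂ U φ = 0`
(`CaseC.Geom.Stmt_PREL`), so `φ = U (U φ) = 0` by `S41.H39.al_main`.] -/
def Stmt_UINJ : Prop :=
  ∀ (N p : ℕ) [NeZero N] [NeZero (N * p)], p.Prime → ¬ p ∣ N → ∀ (hd : p ∣ N * p)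
    (A : Type) [AddCommGroup A], (∀ a : A, p • a = 0 → a = 0) →
    ∀ φ : Additive (Gamma0 (N * p)) →+ A, UB (N * p) A hd φ = 0 → φ = 0

/-- the leaf U-INJ proves this -/
def Stmt_UINJ_of : Prop := Fermat.Agent.S59.CaseC.Geom.Stmt_PREL → Stmt_UINJ

/-- **P-ORDALG** (pure algebra, Mathlib only): on a separated module over a complete discrete
valuation ring with `U² - a U + p = 0`, the infinitely `U`-divisible elements are eigenvectors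
of `U` for one `u`.
[`a ∈ 𝔪`: `U² Λ ⊆ 𝔪 Λ`, the divisible elements are in `⋂ 𝔪ⁿ Λ = 0`; `u := 0`.  `a ∉ 𝔪`:
`X² - a X + p ≡ X (X - a)` has a root `u ≡ a` (Hensel: `IsAdicComplete` ⟹ `HenselianLocalRing`),
`v := a - u ∈ 𝔪`, `(U - v)(U - u) = 0`; if `ψ = Uⁿ ψ'` then
`(U - u) ψ = Uⁿ (U - u) ψ' = vⁿ (U - u) ψ' ∈ 𝔪ⁿ Λ`.  `u` is integral over `ℤ[a]`.] -/
def Stmt_PORDALG : Prop :=
  ∀ (𝒪 : Type) [CommRing 𝒪] [IsDomain 𝒪] [IsDiscreteValuationRing 𝒪]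
    [IsAdicComplete (maximalIdeal 𝒪) 𝒪] (p : ℕ), (p : 𝒪) ∈ maximalIdeal 𝒪 →
    ∀ (Λ : Type) [AddCommGroup Λ] [Module 𝒪 Λ],
    (∀ ψ : Λ, (∀ n : ℕ, ψ ∈ (maximalIdeal 𝒪 ^ n • ⊤ : Submodule 𝒪 Λ)) → ψ = 0) →
    ∀ (U : Module.End 𝒪 Λ) (a : 𝒪), (∀ ψ : Λ, U (U ψ) - a • U ψ + (p : 𝒪) • ψ = 0) →
    ∃ u : 𝒪, (IsIntegral ℤ a → IsIntegral ℤ u) ∧
      ∀ ψ : Λ, (∀ n : ℕ, ∃ ψ' : Λ, (U ^ n) ψ' = ψ) → U ψ = u • ψ

/-- **P-ORDALG-R** (relative form of `Stmt_PORDALG`, the one used by the assembly; pure algebra):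
`X` a separated `𝒪`-module, `U ∈ End X`, `P` a predicate on `X` such that
`U² ψ - a U ψ + p ψ = 0` for all `ψ` with `P ψ`.  Then there is `u ∈ 𝒪` such that every `ψ`
which is `Uⁿ ψ'` with `P ψ'` for every `n` satisfies `U ψ = u ψ`.
[No stability of `P` under `U` is needed: `U^(2n) - (a U - p)ⁿ` is a multiple of
`U² - a U + p` in `𝒪[U]`, so `U^(2n) ψ' = (a U - p)ⁿ ψ' ∈ 𝔪ⁿ X` if `a ∈ 𝔪`; if `a ∉ 𝔪`: Hensel
gives `u`, `v = a - u ∈ 𝔪`, `w := U ψ' - u ψ'` has `U w = v w`, so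
`U ψ - u ψ = Uⁿ w = vⁿ w ∈ 𝔪ⁿ X`.] -/
def Stmt_PORDALGR : Prop :=
  ∀ (𝒪 : Type) [CommRing 𝒪] [IsDomain 𝒪] [IsDiscreteValuationRing 𝒪]
    [IsAdicComplete (maximalIdeal 𝒪) 𝒪] (p : ℕ), (p : 𝒪) ∈ maximalIdeal 𝒪 →
    ∀ (X : Type) [AddCommGroup X] [Module 𝒪 X],
    (∀ ψ : X, (∀ n : ℕ, ψ ∈ (maximalIdeal 𝒪 ^ n • ⊤ : Submodule 𝒪 X)) → ψ = 0) →
    ∀ (U : Module.End 𝒪 X) (P : X → Prop) (a : 𝒪),
    (∀ ψ : X, P ψ → U (U ψ) - a • U ψ + (p : 𝒪) • ψ = 0) →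
    ∃ u : 𝒪, (IsIntegral ℤ a → IsIntegral ℤ u) ∧
      ∀ ψ : X, (∀ n : ℕ, ∃ ψ' : X, P ψ' ∧ (U ^ n) ψ' = ψ) → U ψ = u • ψ

/-- **P-LAT**: if the `U_p`-divisible elements of the lattice `{ψ : IsEB … 𝒪 x' ψ}` are
eigenvectors of `U_p` for `u`, then the rank of the eigenspace of the ordinary part is at most
the dimension of the `U_p = u` eigenspace over `Frac 𝒪`.
[`ι'` maps `M'[x']` injectively to `{ψ : IsEB … ∧ ψ ordinary}` (as in `Stmt_LAT`); if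
`ψ = Uⁿ ψ'`, `ψ'` in the lattice `InBetti`, then `Uⁿ (T_ℓ ψ' - x'(T_ℓ) ψ') = 0`
(`NonMin.Geom.H53.UB_TB_comm`), so `ψ'` is an eigenvector (`Stmt_UINJ`): `ψ` is `U`-divisible
in `{IsEB}`; hence `U ψ = u ψ`, and `ψ ↦ algebraMap ∘ ψ` maps `M'[x']` injectively and
`𝒪`-linearly into `EBU(Frac 𝒪, u)`.] -/
def Stmt_PLAT : Prop :=
  Stmt_UINJ →
  ∀ (𝒪 : Type) [CommRing 𝒪] [IsDomain 𝒪] [IsDiscreteValuationRing 𝒪] [CharZero 𝒪]
    (N p : ℕ) [NeZero N] [NeZero (N * p)], p.Prime → ¬ p ∣ N → ∀ (hd : p ∣ N * p)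
    (S : Finset ℕ), (∀ r : ℕ, r.Prime → r ∣ N * p → r ∈ S) →
    ∀ (θ' : CuspForm.heckeAlgebra (N * p) 2 (↑S : Set ℕ) →+* ResidueField 𝒪)
      (M' : HMod 𝒪 (N * p) (↑S : Set ℕ) θ') (Sig : Finset ℕ)
      (ι' : M'.V →ₗ[𝒪] (Additive (Gamma0 (N * p)) →+ 𝒪)), Function.Injective ι' →
    (∀ ψ, ψ ∈ Set.range ι' ↔
      (InBetti 𝒪 (N * p) (↑S : Set ℕ) θ' Sig ψ ∧
        ∀ n : ℕ, ∃ ψ', InBetti 𝒪 (N * p) (↑S : Set ℕ) θ' Sig ψ' ∧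
          (UB (N * p) 𝒪 hd)^[n] ψ' = ψ)) →
    (∀ (ℓ : ℕ) (hℓ : ℓ.Prime) (hℓN' : ¬ ℓ ∣ N * p) (hℓS : ℓ ∉ (↑S : Set ℕ)) (w : M'.V),
      ι' (M'.η (CuspForm.heckeAlgebra.T hℓ hℓN' hℓS) w) = TB (N * p) 𝒪 hℓ hℓN' (ι' w)) →
    ∀ (x' : CuspForm.heckeAlgebra (N * p) 2 (↑S : Set ℕ) →+* 𝒪),
    (∀ t, residue 𝒪 (x' t) = θ' t) →
    ∀ u : 𝒪,
    (∀ ψ : Additive (Gamma0 (N * p)) →+ 𝒪, IsEB (N * p) (↑S : Set ℕ) Sig 𝒪 x' ψ →
      (∀ n : ℕ, ∃ ψ', IsEB (N * p) (↑S : Set ℕ) Sig 𝒪 x' ψ' ∧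
        (UB (N * p) 𝒪 hd)^[n] ψ' = ψ) → UB (N * p) 𝒪 hd ψ = u • ψ) →
    Module.finrank 𝒪 ↥(NMState.eigen (⟨N * p, S, θ', M'⟩ : NMState 𝒪) x') ≤
      Module.finrank (FractionRing 𝒪)
        ↥(EBU (N * p) (↑S : Set ℕ) Sig (FractionRing 𝒪)
          ((algebraMap 𝒪 (FractionRing 𝒪)).comp x') hd (algebraMap 𝒪 (FractionRing 𝒪) u))

/-! ## 5. The assembly -/

/-- **PRANK-ASM**: the assembly.
[`χ`, `F` from `Stmt_EMBEDA`.  `rank M[x] = 2 dim EC N ≥ 2` (`H27.rank_eq`, `Stmt_NONVAN`).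
`Stmt_PQUAD` gives `a`; `Stmt_ESU` the relation on `EB(ℂ)`; if `EB(F) = 0` then
`EB(Frac 𝒪) = 0` and the left side is `0`; otherwise (`Stmt_UINJ`) `Stmt_RELTR` gives
`a = jC a_F`, the relation on `EB(F)` and on `EB(Frac 𝒪)` with `a_K = jK a_F`, integral over `ℤ`,
hence `a_K ∈ 𝒪` (integrally closed) and the relation on the lattice `{ψ : IsEB … 𝒪 ψ}`
(separated: the values lie in `𝒪`); `Stmt_PORDALG` gives `u`, integral over `ℤ`, so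
`u = jK u_F`; `Stmt_PLAT`, `Stmt_FIELDU` (twice), `Stmt_ESU`, `Stmt_PMULT1U`:
`rank M'[x ∘ rest] ≤ dim EBU(Frac 𝒪, u) = dim EBU(ℂ, jC u_F) = 2 dim ECU ≤ 2`.] -/
def Stmt_PRANKASM : Prop :=
  Stmt_LAT → Stmt_FIELD → Stmt_ES → Stmt_NONVAN → Stmt_EMBEDA → Stmt_PQUAD → Stmt_PMULT1U →
    Stmt_ESU → Stmt_FIELDU → Stmt_RELTR → Stmt_UINJ → Stmt_PORDALGR →
    Stmt_PLAT → Fermat.Agent.S59.CaseC.Geom.Stmt_PRANK

end Fermat.Agent.S59.NonMin.Geom.Rank
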