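/-
S59 / case C / PGEOM, leaf P-RANK, sub-leaf ES-U (helper34): `stmt_ESU : Stmt_ESU`.

Eichler–Shimura with the operator `U_p`: the period pair `periodHomPair N : S₂ × S₂ → Hom(Γ₀(N), ℂ)`
is injective with range the parabolic homomorphisms (`Fermat.Agent.S21.result`) and intertwines
`T_ℓ × T_ℓ` with `TB`, `U_p × U_p` with `UB` (`Betti.H76.stmt_period_TB/UB`,
`charInvolution_TB/UB`); so it maps `EC × EC` onto `EB`, `ECU(c) × ECU(c)` isomorphically onto
`EBU(c)`, and a quadratic relation for `U_p` on `EC` passes to `EB`.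
-/
import Fermat.Agent.S59.NonMin.Geom.Rank.DefsP
import Fermat.Agent.S21
import Fermat.Agent.Betti.H76_Period
import Fermat.Agent.Betti.Invol
import Fermat.Agent.R.H99_Newform

set_option autoImplicit false
set_option linter.unusedSectionVars false
set_option linter.style.haveILetI false

namespace Fermat.Agent.S59.NonMin.Geom.Rank.H34

open CongruenceSubgroup ModularCurve ModularCurve.Period
open Fermat.Agent.Betti Fermat.Agent.Betti.H76

section Pair

variable (N : ℕ) [NeZero N]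

/-- The explicit formula for the period pair. -/
theorem periodHomPair_apply (f g : CuspForm (Gamma0 N) 2) :
    periodHomPair N (f, g) =
      (periodMap N f + charInvolution N ℂ ℂ (periodMap N f)) +
        (periodMap N g - charInvolution N ℂ ℂ (periodMap N g)) := by
  obtain ⟨pml, hpml, hdef⟩ := periodHomPair_def N
    (Fermat.Agent.S21.existsPeriodMapLinear_of_partA (Fermat.Agent.S21.partA N))
  rw [hdef]
  simp only [LinearMap.coprod_apply, LinearMap.comp_apply, LinearMap.add_apply,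
    LinearMap.sub_apply, LinearMap.id_apply, hpml]

/-- The period pair intertwines `T_ℓ × T_ℓ` with `TB`. -/
theorem periodHomPair_TB {ℓ : ℕ} (hℓ : ℓ.Prime) (hℓN : ¬ ℓ ∣ N) (f g : CuspForm (Gamma0 N) 2) :
    TB N ℂ hℓ hℓN (periodHomPair N (f, g)) =
      periodHomPair N (CuspForm.heckeTLin 2 hℓ hℓN f, CuspForm.heckeTLin 2 hℓ hℓN g) := by
  rw [periodHomPair_apply, periodHomPair_apply, map_add, map_add, map_sub,
    stmt_period_TB N hℓ hℓN f, stmt_period_TB N hℓ hℓN g, charInvolution_TB, charInvolution_TB]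

/-- The period pair intertwines `U_p × U_p` with `UB`. -/
theorem periodHomPair_UB {p : ℕ} (hp : p ∣ N) (f g : CuspForm (Gamma0 N) 2) :
    UB N ℂ hp (periodHomPair N (f, g)) =
      periodHomPair N (CuspForm.heckeULin 2 hp f, CuspForm.heckeULin 2 hp g) := by
  rw [periodHomPair_apply, periodHomPair_apply, map_add, map_add, map_sub,
    stmt_period_UB N hp f, stmt_period_UB N hp g, charInvolution_UB, charInvolution_UB]

end Pair

section Eigen

variable (N : ℕ) [NeZero N] (S : Set ℕ) (Sig : Finset ℕ)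
  (χ : CuspForm.heckeAlgebra N 2 S →+* ℂ)

/-- injectivity of the period pair, componentwise -/
theorem pair_eq_of {f g f' g' : CuspForm (Gamma0 N) 2}
    (h : periodHomPair N (f, g) = periodHomPair N (f', g')) : f = f' ∧ g = g' := by
  have := (Fermat.Agent.S21.result N).1 h
  exact ⟨congrArg Prod.fst this, congrArg Prod.snd this⟩

/-- the period pair maps `EC × EC` into `EB` -/
theorem periodHomPair_mem_EB {f g : CuspForm (Gamma0 N) 2} (hf : f ∈ EC N S Sig χ)
    (hg : g ∈ EC N S Sig χ) : periodHomPair N (f, g) ∈ EB N S Sig ℂ χ := by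
  refine ⟨?_, fun ℓ hℓ hℓN hℓS => ?_, fun r hr hrN => ?_⟩
  · have : periodHomPair N (f, g) ∈ LinearMap.range (periodHomPair N) := ⟨_, rfl⟩
    rw [(Fermat.Agent.S21.result N).2] at this
    exact this
  · rw [periodHomPair_TB, hf.1 ℓ hℓ hℓN hℓS, hg.1 ℓ hℓ hℓN hℓS, ← Prod.smul_mk, map_smul]
  · rw [periodHomPair_UB, hf.2 r hr hrN, hg.2 r hr hrN]
    exact map_zero _

/-- every element of `EB` is the period pair of an element of `EC × EC` -/
theorem exists_of_mem_EB {φ : Additive (Gamma0 N) →+ ℂ} (hφ : φ ∈ EB N S Sig ℂ χ) :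
    ∃ f g : CuspForm (Gamma0 N) 2, f ∈ EC N S Sig χ ∧ g ∈ EC N S Sig χ ∧
      periodHomPair N (f, g) = φ := by
  obtain ⟨h1, h2, h3⟩ := hφ
  have hmem : φ ∈ parabolicHoms ℂ (Gamma0 N) ℂ := h1
  rw [← (Fermat.Agent.S21.result N).2] at hmem
  obtain ⟨⟨f, g⟩, rfl⟩ := hmem
  have hT : ∀ (ℓ : ℕ) (hℓ : ℓ.Prime) (hℓN : ¬ ℓ ∣ N) (hℓS : ℓ ∉ S),
      CuspForm.heckeTLin 2 hℓ hℓN f = χ (CuspForm.heckeAlgebra.T hℓ hℓN hℓS) • f ∧
      CuspForm.heckeTLin 2 hℓ hℓN g = χ (CuspForm.heckeAlgebra.T hℓ hℓN hℓS) • g := by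
    intro ℓ hℓ hℓN hℓS
    apply pair_eq_of N
    rw [← periodHomPair_TB, h2 ℓ hℓ hℓN hℓS, ← Prod.smul_mk, map_smul]
  have hU : ∀ r ∈ Sig, ∀ hr : r ∣ N,
      CuspForm.heckeULin 2 hr f = 0 ∧ CuspForm.heckeULin 2 hr g = 0 := by
    intro r hr hrN
    apply pair_eq_of N
    rw [← periodHomPair_UB, h3 r hr hrN]
    exact (map_zero _).symm
  exact ⟨f, g, ⟨fun ℓ hℓ hℓN hℓS => (hT ℓ hℓ hℓN hℓS).1, fun r hr hrN => (hU r hr hrN).1⟩,
    ⟨fun ℓ hℓ hℓN hℓS => (hT ℓ hℓ hℓN hℓS).2, fun r hr hrN => (hU r hr hrN).2⟩, rfl⟩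

variable {p : ℕ} (hp : p ∣ N) (c : ℂ)

/-- the period pair, from `ECU × ECU` to `EBU` -/
noncomputable def pairU :
    (↥(ECU N S Sig χ hp c) × ↥(ECU N S Sig χ hp c)) →ₗ[ℂ] ↥(EBU N S Sig ℂ χ hp c) where
  toFun x := ⟨periodHomPair N ((x.1 : CuspForm (Gamma0 N) 2), (x.2 : CuspForm (Gamma0 N) 2)),
    periodHomPair_mem_EB N S Sig χ x.1.2.1 x.2.2.1, by
      rw [periodHomPair_UB, x.1.2.2, x.2.2.2, ← Prod.smul_mk, map_smul]⟩
  map_add' x y := by
    apply Subtype.ext
    show periodHomPair N (((x + y).1 : CuspForm (Gamma0 N) 2), ((x + y).2 : CuspForm (Gamma0 N) 2))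
      = periodHomPair N ((x.1 : CuspForm (Gamma0 N) 2), (x.2 : CuspForm (Gamma0 N) 2)) +
        periodHomPair N ((y.1 : CuspForm (Gamma0 N) 2), (y.2 : CuspForm (Gamma0 N) 2))
    rw [← map_add]
    rfl
  map_smul' a x := by
    apply Subtype.ext
    show periodHomPair N (((a • x).1 : CuspForm (Gamma0 N) 2),
        ((a • x).2 : CuspForm (Gamma0 N) 2))
      = a • periodHomPair N ((x.1 : CuspForm (Gamma0 N) 2), (x.2 : CuspForm (Gamma0 N) 2))
    rw [← map_smul]
    rfl

theorem pairU_injective : Function.Injective (pairU N S Sig χ hp c) := by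
  intro x y h
  have h1 := pair_eq_of N (congrArg Subtype.val h)
  exact Prod.ext (Subtype.ext h1.1) (Subtype.ext h1.2)

theorem pairU_surjective : Function.Surjective (pairU N S Sig χ hp c) := by
  rintro ⟨φ, hφ, hφU⟩
  obtain ⟨f, g, hf, hg, rfl⟩ := exists_of_mem_EB N S Sig χ hφ
  have hU : CuspForm.heckeULin 2 hp f = c • f ∧ CuspForm.heckeULin 2 hp g = c • g := by
    apply pair_eq_of N
    rw [← periodHomPair_UB, hφU, ← Prod.smul_mk, map_smul]
  exact ⟨(⟨f, hf, hU.1⟩, ⟨g, hg, hU.2⟩), rfl⟩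

end Eigen

/-- **ES-U.** -/
theorem stmt_ESU : Stmt_ESU := by
  intro N _ S Sig χ p hp _ _
  refine ⟨fun c => ?_, fun a ha φ hφ => ?_⟩
  · haveI := Fermat.Agent.R.H99.finiteDimensional_cuspForm N
    have e := LinearEquiv.ofBijective (pairU N S Sig χ hp c)
      ⟨pairU_injective N S Sig χ hp c, pairU_surjective N S Sig χ hp c⟩
    rw [← e.finrank_eq, Module.finrank_prod, two_mul]
  · obtain ⟨f, g, hf, hg, rfl⟩ := exists_of_mem_EB N S Sig χ hφ
    rw [periodHomPair_UB, periodHomPair_UB, ← map_smul, ← map_smul, ← map_sub, ← map_add]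
    have h1 := ha f hf
    have h2 := ha g hg
    have : (CuspForm.heckeULin 2 hp (CuspForm.heckeULin 2 hp f),
          CuspForm.heckeULin 2 hp (CuspForm.heckeULin 2 hp g)) -
        a • (CuspForm.heckeULin 2 hp f, CuspForm.heckeULin 2 hp g) + (p : ℂ) • (f, g) = 0 := by
      rw [Prod.smul_mk, Prod.smul_mk, Prod.mk_sub_mk, Prod.mk_add_mk, h1, h2]
      rfl
    rw [this, map_zero]

end Fermat.Agent.S59.NonMin.Geom.Rank.H34
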