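/-
S59 / RT-NONMIN / NMGEOM, leaf RANK, sub-leaf ES (helper34; by-product of `H34_ESU.lean`):
`stmt_ES : Stmt_ES`, Eichler–Shimura `dim_ℂ EB(ℂ) = 2 dim_ℂ EC`: the period pair maps `EC × EC`
isomorphically onto `EB`.
-/
import Fermat.Agent.S59.NonMin.Geom.Rank.H34_ESU

set_option autoImplicit false
set_option linter.unusedSectionVars false
set_option linter.style.haveILetI false

namespace Fermat.Agent.S59.NonMin.Geom.Rank.H34

open CongruenceSubgroup ModularCurve ModularCurve.Period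
open Fermat.Agent.Betti Fermat.Agent.Betti.H76

section Eigen

variable (N : ℕ) [NeZero N] (S : Set ℕ) (Sig : Finset ℕ)
  (χ : CuspForm.heckeAlgebra N 2 S →+* ℂ)

/-- the period pair, from `EC × EC` to `EB` -/
noncomputable def pairE :
    (↥(EC N S Sig χ) × ↥(EC N S Sig χ)) →ₗ[ℂ] ↥(EB N S Sig ℂ χ) where
  toFun x := ⟨periodHomPair N ((x.1 : CuspForm (Gamma0 N) 2), (x.2 : CuspForm (Gamma0 N) 2)),
    periodHomPair_mem_EB N S Sig χ x.1.2 x.2.2⟩
  map_add' x y := by
    apply Subtype.ext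
    show periodHomPair N (((x + y).1 : CuspForm (Gamma0 N) 2), ((x + y).2 : CuspForm (Gamma0 N) 2))
      = periodHomPair N ((x.1 : CuspForm (Gamma0 N) 2), (x.2 : CuspForm (Gamma0 N) 2)) +
        periodHomPair N ((y.1 : CuspForm (Gamma0 N) 2), (y.2 : CuspForm (Gamma0 N) 2))
    rw [← map_add]
    rfl
  map_smul' a x := by
    apply Subtype.ext
    show periodHomPair N (((a • x).1 : CuspForm (Gamma0 N) 2),
        ((a • x).2 : CuspForm (Gamma0 N) 2))
      = a • periodHomPair N ((x.1 : CuspForm (Gamma0 N) 2), (x.2 : CuspForm (Gamma0 N) 2))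
    rw [← map_smul]
    rfl

theorem pairE_injective : Function.Injective (pairE N S Sig χ) := by
  intro x y h
  have h1 := pair_eq_of N (congrArg Subtype.val h)
  exact Prod.ext (Subtype.ext h1.1) (Subtype.ext h1.2)

theorem pairE_surjective : Function.Surjective (pairE N S Sig χ) := by
  rintro ⟨φ, hφ⟩
  obtain ⟨f, g, hf, hg, rfl⟩ := exists_of_mem_EB N S Sig χ hφ
  exact ⟨(⟨f, hf⟩, ⟨g, hg⟩), rfl⟩

end Eigen

/-- **ES.** -/
theorem stmt_ES : Stmt_ES := by
  intro N _ S Sig χ _
  haveI := Fermat.Agent.R.H99.finiteDimensional_cuspForm N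
  have e := LinearEquiv.ofBijective (pairE N S Sig χ)
    ⟨pairE_injective N S Sig χ, pairE_surjective N S Sig χ⟩
  rw [← e.finrank_eq, Module.finrank_prod, two_mul]

end Fermat.Agent.S59.NonMin.Geom.Rank.H34
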