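import Fermat.Agent.S59.NonMin.Geom.Rank.DefsP
import Fermat.Agent.S59.NonMin.Geom.H53_BComm
import Fermat.Agent.Betti.Basis

/-!
# S59 / case C / PGEOM, P-RANK, leaf P-LAT (helper55)

`stmt_PLAT : Stmt_PLAT`.

* `finrank_le_of_injective` : an injective `𝒪`-linear map from a finite free `𝒪`-module to a
  finite dimensional vector space over `K = Frac 𝒪` gives `rank_𝒪 ≤ dim_K`
  (`LinearIndependent.localization`);
* `finiteDimensional_hom` : `Hom(Γ₀(N), K)` is finite dimensional (`Betti.fg_Gamma0`);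
* the elements of the lattice eigenspace `M'[x']` are `U`-divisible eigenvectors (the witnesses
  of divisibility are eigenvectors because `U` commutes with the `T_ℓ` and is injective), so
  `U = u` on them; extension of scalars `𝒪 → K` maps `M'[x']` injectively into `EBU(K, u)`.
-/

set_option autoImplicit false
set_option linter.unusedSectionVars false
set_option linter.unusedVariables false

open Polynomial CuspForm CongruenceSubgroup IsLocalRing ModularFormClass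
open scoped MatrixGroups

noncomputable section

namespace Fermat.Agent.S59.NonMin.Geom.Rank.H55

open Fermat.Agent.Betti Fermat.Agent.S59 Fermat.Agent.S59.Asm Fermat.Agent.S41
open Fermat.Agent.S59.NonMin Fermat.Agent.S59.NonMin.Geom
open ModularCurve.Period

/-! ## 1. Generic linear algebra -/

section Gen

theorem finrank_le_of_injective {R K X Y : Type*} [CommRing R] [IsDomain R] [Field K]
    [Algebra R K] [IsFractionRing R K] [AddCommGroup X] [Module R X] [Module.Free R X]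
    [Module.Finite R X] [AddCommGroup Y] [Module K Y] [Module R Y] [IsScalarTower R K Y]
    [FiniteDimensional K Y] (f : X →ₗ[R] Y) (hf : Function.Injective f) :
    Module.finrank R X ≤ Module.finrank K Y := by
  classical
  let b := Module.Free.chooseBasis R X
  have h1 : LinearIndependent R (fun i => f (b i)) :=
    b.linearIndependent.map' f (LinearMap.ker_eq_bot.mpr hf)
  have h2 : LinearIndependent K (fun i => f (b i)) :=
    LinearIndependent.localization (S := nonZeroDivisors R) K h1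
  have h3 := h2.fintype_card_le_finrank
  rwa [← Module.finrank_eq_card_chooseBasisIndex] at h3

/-- The same for an additive map which is semilinear for `algebraMap R K`. -/
theorem finrank_le_of_injective_semi {R K X Y : Type*} [CommRing R] [IsDomain R] [Field K]
    [Algebra R K] [IsFractionRing R K] [AddCommGroup X] [Module R X] [Module.Free R X]
    [Module.Finite R X] [AddCommGroup Y] [Module K Y] [FiniteDimensional K Y] (f : X →+ Y)
    (hsmul : ∀ (r : R) (x : X), f (r • x) = algebraMap R K r • f x)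
    (hf : Function.Injective f) : Module.finrank R X ≤ Module.finrank K Y := by
  let _ : Module R Y := Module.compHom Y (algebraMap R K)
  have : IsScalarTower R K Y := IsScalarTower.of_algebraMap_smul fun r y => rfl
  let g : X →ₗ[R] Y :=
    { toFun := f
      map_add' := f.map_add
      map_smul' := fun r x => hsmul r x }
  exact finrank_le_of_injective g hf

end Gen

/-! ## 2. Finite dimensionality of `Hom(Γ₀(N), K)` -/

theorem finiteDimensional_hom (N : ℕ) [NeZero N] (K : Type) [Field K] :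
    FiniteDimensional K (Additive (Gamma0 N) →+ K) := by
  obtain ⟨S, hS⟩ := (fg_Gamma0 N).out
  let Ψ : (Additive (Gamma0 N) →+ K) →ₗ[K] ((↥S : Type) → K) :=
    { toFun := fun φ s => φ (Additive.ofMul s.1)
      map_add' := fun φ ψ => rfl
      map_smul' := fun c φ => rfl }
  have hΨ : Function.Injective Ψ := by
    rw [injective_iff_map_eq_zero]
    intro φ hφ
    have key : ∀ g : Gamma0 N, g ∈ Subgroup.closure (↑S : Set (Gamma0 N)) →
        φ (Additive.ofMul g) = 0 := by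
      intro g hg
      induction hg using Subgroup.closure_induction with
      | mem x hx => exact congrFun hφ ⟨x, hx⟩
      | one => exact map_zero φ
      | mul x y _ _ hx hy => rw [ofMul_mul, map_add, hx, hy, add_zero]
      | inv x _ hx => rw [ofMul_inv, map_neg, hx, neg_zero]
    refine AddMonoidHom.ext fun γ => ?_
    have hmem : Additive.toMul γ ∈ Subgroup.closure (↑S : Set (Gamma0 N)) := by
      rw [hS]; exact Subgroup.mem_top _
    exact key _ hmem
  exact FiniteDimensional.of_injective Ψ hΨ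

/-! ## 3. The operators on `Hom(Γ₀(M), 𝒪)` -/

section Ops

variable {𝒪 : Type} [CommRing 𝒪] {M : ℕ} [NeZero M]

theorem UB_smul_ring {p : ℕ} (hp : p ∣ M) (c : 𝒪) (φ : Additive (Gamma0 M) →+ 𝒪) :
    UB M 𝒪 hp (c • φ) = c • UB M 𝒪 hp φ := by
  have : NeZero p := neZero_of_dvd hp
  exact ((isHeckeFamily_U M hp).heckeOpLin (incl_injective M) 𝒪).map_smul c φ

theorem TB_smul_ring {ℓ : ℕ} (hℓ : ℓ.Prime) (hℓM : ¬ ℓ ∣ M) (c : 𝒪)
    (φ : Additive (Gamma0 M) →+ 𝒪) :
    TB M 𝒪 hℓ hℓM (c • φ) = c • TB M 𝒪 hℓ hℓM φ := by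
  have : Fact ℓ.Prime := ⟨hℓ⟩
  exact ((isHeckeFamily_T M hℓM).heckeOpLin (incl_injective M) 𝒪).map_smul c φ

theorem UB_iter_par {p : ℕ} (hp : p ∣ M) (n : ℕ) (φ : Additive (Gamma0 M) →+ 𝒪)
    (hφ : IsParabolicHom (Gamma0 M) φ) :
    IsParabolicHom (Gamma0 M) ((UB M 𝒪 hp)^[n] φ) := by
  induction n with
  | zero => exact hφ
  | succ n ih =>
    rw [Function.iterate_succ_apply']
    exact H53.UB_par 𝒪 hp _ ih

theorem UB_iter_zero {p : ℕ} (hp : p ∣ M) (n : ℕ) :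
    (UB M 𝒪 hp)^[n] (0 : Additive (Gamma0 M) →+ 𝒪) = 0 := by
  induction n with
  | zero => rfl
  | succ n ih => rw [Function.iterate_succ_apply', ih, map_zero]

theorem UB_iter_sub {p : ℕ} (hp : p ∣ M) (n : ℕ) (φ ψ : Additive (Gamma0 M) →+ 𝒪) :
    (UB M 𝒪 hp)^[n] (φ - ψ) = (UB M 𝒪 hp)^[n] φ - (UB M 𝒪 hp)^[n] ψ := by
  induction n with
  | zero => rfl
  | succ n ih => rw [Function.iterate_succ_apply', Function.iterate_succ_apply',
      Function.iterate_succ_apply', ih, map_sub]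

theorem UB_iter_smul {p : ℕ} (hp : p ∣ M) (n : ℕ) (c : 𝒪) (φ : Additive (Gamma0 M) →+ 𝒪) :
    (UB M 𝒪 hp)^[n] (c • φ) = c • (UB M 𝒪 hp)^[n] φ := by
  induction n with
  | zero => rfl
  | succ n ih => rw [Function.iterate_succ_apply', Function.iterate_succ_apply', ih,
      UB_smul_ring]

theorem UB_iter_TB [IsAddTorsionFree 𝒪] {p ℓ : ℕ} (hpp : p.Prime) (hp : p ∣ M) (hℓ : ℓ.Prime)
    (hℓM : ¬ ℓ ∣ M) (n : ℕ) (φ : Additive (Gamma0 M) →+ 𝒪)
    (hφ : IsParabolicHom (Gamma0 M) φ) :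
    (UB M 𝒪 hp)^[n] (TB M 𝒪 hℓ hℓM φ) = TB M 𝒪 hℓ hℓM ((UB M 𝒪 hp)^[n] φ) := by
  induction n with
  | zero => rfl
  | succ n ih =>
    rw [Function.iterate_succ_apply', Function.iterate_succ_apply', ih]
    exact H53.UB_TB_comm 𝒪 hpp hp hℓ hℓM _ (UB_iter_par hp n φ hφ)

end Ops

/-! ## 4. Extension of scalars to the fraction field -/

section Ext

variable {𝒪 : Type} [CommRing 𝒪] [IsDomain 𝒪] {M : ℕ} [NeZero M]

/-- extension of scalars `𝒪 → Frac 𝒪` -/
def extK (φ : Additive (Gamma0 M) →+ 𝒪) : Additive (Gamma0 M) →+ FractionRing 𝒪 :=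
  (algebraMap 𝒪 (FractionRing 𝒪)).toAddMonoidHom.comp φ

theorem extK_apply (φ : Additive (Gamma0 M) →+ 𝒪) (γ : Additive (Gamma0 M)) :
    extK φ γ = algebraMap 𝒪 (FractionRing 𝒪) (φ γ) := rfl

theorem extK_zero : extK (0 : Additive (Gamma0 M) →+ 𝒪) = 0 := by
  refine AddMonoidHom.ext fun γ => ?_
  rw [extK_apply, AddMonoidHom.zero_apply, map_zero, AddMonoidHom.zero_apply]

theorem extK_add (φ ψ : Additive (Gamma0 M) →+ 𝒪) : extK (φ + ψ) = extK φ + extK ψ := by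
  refine AddMonoidHom.ext fun γ => ?_
  rw [extK_apply, AddMonoidHom.add_apply, map_add, AddMonoidHom.add_apply, extK_apply,
    extK_apply]

theorem extK_smul (c : 𝒪) (φ : Additive (Gamma0 M) →+ 𝒪) :
    extK (c • φ) = algebraMap 𝒪 (FractionRing 𝒪) c • extK φ := by
  refine AddMonoidHom.ext fun γ => ?_
  rw [extK_apply, AddMonoidHom.smul_apply, AddMonoidHom.smul_apply, extK_apply, smul_eq_mul,
    smul_eq_mul, map_mul]

theorem extK_injective : Function.Injective (extK : (Additive (Gamma0 M) →+ 𝒪) → _) := by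
  intro φ ψ h
  refine AddMonoidHom.ext fun γ => ?_
  have h1 := DFunLike.congr_fun h γ
  rw [extK_apply, extK_apply] at h1
  exact IsFractionRing.injective 𝒪 (FractionRing 𝒪) h1

theorem extK_par {φ : Additive (Gamma0 M) →+ 𝒪} (hφ : IsParabolicHom (Gamma0 M) φ) :
    IsParabolicHom (Gamma0 M) (extK φ) := by
  intro γ hγ
  have h := hφ γ hγ
  show algebraMap 𝒪 (FractionRing 𝒪) (φ _) = 0
  rw [h, map_zero]

theorem TB_extK {ℓ : ℕ} (hℓ : ℓ.Prime) (hℓM : ¬ ℓ ∣ M) (φ : Additive (Gamma0 M) →+ 𝒪) :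
    TB M (FractionRing 𝒪) hℓ hℓM (extK φ) = extK (TB M 𝒪 hℓ hℓM φ) := by
  have : Fact ℓ.Prime := ⟨hℓ⟩
  exact (isHeckeFamily_T M hℓM).heckeOp_comp (incl_injective M)
    (algebraMap 𝒪 (FractionRing 𝒪)).toAddMonoidHom φ

theorem UB_extK {p : ℕ} (hp : p ∣ M) (φ : Additive (Gamma0 M) →+ 𝒪) :
    UB M (FractionRing 𝒪) hp (extK φ) = extK (UB M 𝒪 hp φ) := by
  have : NeZero p := neZero_of_dvd hp
  exact (isHeckeFamily_U M hp).heckeOp_comp (incl_injective M)
    (algebraMap 𝒪 (FractionRing 𝒪)).toAddMonoidHom φ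

end Ext

/-! ## 5. The witnesses of divisibility are eigenvectors -/

section Core

variable {𝒪 : Type} [CommRing 𝒪] [IsDomain 𝒪] [CharZero 𝒪]

theorem UB_iter_injective (hU : Stmt_UINJ) {N p : ℕ} [NeZero N] [NeZero (N * p)]
    (hp : p.Prime) (hpN : ¬ p ∣ N) (hd : p ∣ N * p) (n : ℕ)
    (φ : Additive (Gamma0 (N * p)) →+ 𝒪) (h : (UB (N * p) 𝒪 hd)^[n] φ = 0) : φ = 0 := by
  have hA : ∀ a : 𝒪, p • a = 0 → a = 0 := by
    intro a ha
    rw [nsmul_eq_mul] at ha
    rcases mul_eq_zero.mp ha with h0 | h0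
    · exact absurd (Nat.cast_eq_zero.mp h0) hp.ne_zero
    · exact h0
  induction n generalizing φ with
  | zero => exact h
  | succ n ih =>
    rw [Function.iterate_succ_apply] at h
    exact hU N p hp hpN hd 𝒪 hA φ (ih _ h)

theorem isEB_of_iter (hU : Stmt_UINJ) {N p : ℕ} [NeZero N] [NeZero (N * p)]
    (hp : p.Prime) (hpN : ¬ p ∣ N) (hd : p ∣ N * p) (S : Set ℕ) (Sig : Finset ℕ)
    (x' : CuspForm.heckeAlgebra (N * p) 2 S →+* 𝒪) (n : ℕ)
    {ψ ψ' : Additive (Gamma0 (N * p)) →+ 𝒪} (hpar : IsParabolicHom (Gamma0 (N * p)) ψ')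
    (hSig : ∀ r ∈ Sig, ∀ hr : r ∣ N * p, UB (N * p) 𝒪 hr ψ' = 0)
    (hiter : (UB (N * p) 𝒪 hd)^[n] ψ' = ψ)
    (hψ : ∀ (ℓ : ℕ) (hℓ : ℓ.Prime) (hℓN : ¬ ℓ ∣ N * p) (hℓS : ℓ ∉ S),
      TB (N * p) 𝒪 hℓ hℓN ψ = x' (CuspForm.heckeAlgebra.T hℓ hℓN hℓS) • ψ) :
    IsEB (N * p) S Sig 𝒪 x' ψ' := by
  refine ⟨hpar, fun ℓ hℓ hℓN hℓS => ?_, hSig⟩
  have h0 : (UB (N * p) 𝒪 hd)^[n]
      (TB (N * p) 𝒪 hℓ hℓN ψ' - x' (CuspForm.heckeAlgebra.T hℓ hℓN hℓS) • ψ') = 0 := by
    rw [UB_iter_sub, UB_iter_smul, UB_iter_TB hp hd hℓ hℓN n ψ' hpar, hiter,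
      hψ ℓ hℓ hℓN hℓS, sub_self]
  exact sub_eq_zero.mp (UB_iter_injective hU hp hpN hd n _ h0)

end Core

/-! ## 6. The leaf -/

/-- **P-LAT**. -/
theorem stmt_PLAT : Stmt_PLAT := by
  intro hU 𝒪 _ _ _ _ N p _ _ hp hpN hd S hS θ' M' Sig ι' hι hrange hT x' hx' u Hu
  have hfd : FiniteDimensional (FractionRing 𝒪)
      (Additive (Gamma0 (N * p)) →+ FractionRing 𝒪) :=
    finiteDimensional_hom (N * p) (FractionRing 𝒪)
  -- the elements of the eigenspace go to `EBU`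
  have hmem : ∀ w : M'.V, w ∈ NMState.eigen (⟨N * p, S, θ', M'⟩ : NMState 𝒪) x' →
      extK (ι' w) ∈ EBU (N * p) (↑S : Set ℕ) Sig (FractionRing 𝒪)
        ((algebraMap 𝒪 (FractionRing 𝒪)).comp x') hd (algebraMap 𝒪 (FractionRing 𝒪) u) := by
    intro w hw
    have hw' : ∀ t : CuspForm.heckeAlgebra (N * p) 2 (↑S : Set ℕ), M'.η t w = x' t • w :=
      (NMState.mem_eigen (⟨N * p, S, θ', M'⟩ : NMState 𝒪) x' w).mp hw
    obtain ⟨hIn, hdiv⟩ := (hrange (ι' w)).mp ⟨w, rfl⟩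
    have hTψ : ∀ (ℓ : ℕ) (hℓ : ℓ.Prime) (hℓN : ¬ ℓ ∣ N * p) (hℓS : ℓ ∉ (↑S : Set ℕ)),
        TB (N * p) 𝒪 hℓ hℓN (ι' w) = x' (CuspForm.heckeAlgebra.T hℓ hℓN hℓS) • ι' w := by
      intro ℓ hℓ hℓN hℓS
      rw [← hT ℓ hℓ hℓN hℓS w, hw', map_smul]
    have hEB : IsEB (N * p) (↑S : Set ℕ) Sig 𝒪 x' (ι' w) := ⟨hIn.1, hTψ, hIn.2.1⟩
    have hdiv' : ∀ n : ℕ, ∃ ψ', IsEB (N * p) (↑S : Set ℕ) Sig 𝒪 x' ψ' ∧
        (UB (N * p) 𝒪 hd)^[n] ψ' = ι' w := by
      intro n
      obtain ⟨ψ', h1, h2⟩ := hdiv n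
      exact ⟨ψ', isEB_of_iter hU hp hpN hd (↑S : Set ℕ) Sig x' n h1.1 h1.2.1 h2 hTψ, h2⟩
    have hUψ := Hu (ι' w) hEB hdiv'
    refine ⟨⟨extK_par hIn.1, fun ℓ hℓ hℓN hℓS => ?_, fun r hr hrN => ?_⟩, ?_⟩
    · rw [TB_extK, hTψ ℓ hℓ hℓN hℓS, extK_smul]
      rfl
    · rw [UB_extK, hIn.2.1 r hr hrN, extK_zero]
    · rw [UB_extK, hUψ, extK_smul]
  let Φ : ↥(NMState.eigen (⟨N * p, S, θ', M'⟩ : NMState 𝒪) x') →+
      ↥(EBU (N * p) (↑S : Set ℕ) Sig (FractionRing 𝒪)
        ((algebraMap 𝒪 (FractionRing 𝒪)).comp x') hd (algebraMap 𝒪 (FractionRing 𝒪) u)) :=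
    { toFun := fun w => ⟨extK (ι' w.1), hmem w.1 w.2⟩
      map_zero' := by
        apply Subtype.ext
        show extK (ι' (0 : M'.V)) = 0
        rw [map_zero, extK_zero]
      map_add' := by
        intro a b
        apply Subtype.ext
        show extK (ι' (a.1 + b.1)) = extK (ι' a.1) + extK (ι' b.1)
        rw [map_add, extK_add] }
  refine finrank_le_of_injective_semi Φ ?_ ?_
  · intro r w
    apply Subtype.ext
    show extK (ι' (r • w.1)) = algebraMap 𝒪 (FractionRing 𝒪) r • extK (ι' w.1)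
    rw [map_smul, extK_smul]
  · intro a b hab
    apply Subtype.ext
    have h1 : extK (ι' a.1) = extK (ι' b.1) := congrArg Subtype.val hab
    exact hι (extK_injective h1)

end Fermat.Agent.S59.NonMin.Geom.Rank.H55
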