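import Fermat.Agent.S59.NonMin.Geom.Rank.Defs
import Fermat.Agent.Betti.Basis

/-!
# S59 / RT-NONMIN / NMGEOM / RANK, leaf LAT (helper75, in parallel with helper21)

`stmt_LAT : Stmt_LAT`: the rank of the eigenspace `M[x]` of a Betti state is the dimension of
the Betti eigenspace `EB` over `K = Frac 𝒪`.

* `LB N S Sig R χ` : the `R`-module `{φ : Γ₀(N) → R | IsEB N S Sig R χ φ}` (any commutative ring);
* `extMap` : `LB(R) → EB(K)`, `φ ↦ algebraMap ∘ φ`, is the localisation at the nonzero elements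
  (`Γ₀(N)` is finitely generated: finitely many denominators), so the ranks agree;
* `eigenEquiv` : `ι` of `IsBetti` identifies `M[x]` with `LB(𝒪)` (an eigenvector of the `T_ℓ` is
  `θ`-local, and an eigenvector of the generators is an eigenvector of the whole Hecke algebra:
  all the primes of `N` are in `S`, so there is no `U` among the generators).

No matrices, no basis, no hypothesis on the characteristic.
-/

set_option autoImplicit false
set_option linter.unusedSectionVars false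

open Polynomial CuspForm CongruenceSubgroup IsLocalRing ModularFormClass Module
open scoped MatrixGroups

namespace Fermat.Agent.S59.NonMin.Geom.Rank.H75L

open Fermat.Agent.Betti Fermat.Agent.S59 Fermat.Agent.S59.Asm Fermat.Agent.S59.NonMin
open Fermat.Agent.S59.NonMin.Geom Fermat.Agent.S59.NonMin.Geom.Rank
open ModularCurve.Period

/-! ## 1. Linearity of the Betti operators over any ring of coefficients -/

section Lin

variable {N : ℕ} {R : Type} [CommRing R]

theorem TB_smul_ring {p : ℕ} (hp : p.Prime) (hpN : ¬ p ∣ N) (c : R)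
    (φ : Additive (Gamma0 N) →+ R) : TB N R hp hpN (c • φ) = c • TB N R hp hpN φ := by
  have : Fact p.Prime := ⟨hp⟩
  exact ((isHeckeFamily_T N hpN).heckeOpLin (incl_injective N) R).map_smul c φ

theorem UB_smul_ring [NeZero N] {p : ℕ} (hpN : p ∣ N) (c : R)
    (φ : Additive (Gamma0 N) →+ R) : UB N R hpN (c • φ) = c • UB N R hpN φ := by
  have : NeZero p := neZero_of_dvd hpN
  exact ((isHeckeFamily_U N hpN).heckeOpLin (incl_injective N) R).map_smul c φ

end Lin

/-! ## 2. The lattice `LB` and the extension of scalars -/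

section Lattice

variable (N : ℕ) [NeZero N] (S : Set ℕ) (Sig : Finset ℕ)

/-- The module `{φ : IsEB … R χ φ}` over any commutative ring `R`. -/
def LB (R : Type) [CommRing R] (χ : CuspForm.heckeAlgebra N 2 S →+* R) :
    Submodule R (Additive (Gamma0 N) →+ R) where
  carrier := {φ | IsEB N S Sig R χ φ}
  zero_mem' := by
    refine ⟨fun _ _ => rfl, fun ℓ hℓ hℓN hℓS => ?_, fun r _ hr => ?_⟩
    · rw [map_zero, smul_zero]
    · rw [map_zero]
  add_mem' := by
    rintro φ ψ ⟨h1, h2, h3⟩ ⟨k1, k2, k3⟩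
    refine ⟨(parabolicHoms R (Gamma0 N) R).add_mem h1 k1, fun ℓ hℓ hℓN hℓS => ?_,
      fun r hr hrN => ?_⟩
    · rw [map_add, h2, k2, smul_add]
    · rw [map_add, h3 r hr hrN, k3 r hr hrN, add_zero]
  smul_mem' := by
    rintro c φ ⟨h1, h2, h3⟩
    refine ⟨(parabolicHoms R (Gamma0 N) R).smul_mem c h1, fun ℓ hℓ hℓN hℓS => ?_,
      fun r hr hrN => ?_⟩
    · rw [TB_smul_ring, h2, smul_comm]
    · rw [UB_smul_ring, h3 r hr hrN, smul_zero]

variable {N S Sig} in
theorem mem_LB {R : Type} [CommRing R] {χ : CuspForm.heckeAlgebra N 2 S →+* R}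
    {φ : Additive (Gamma0 N) →+ R} : φ ∈ LB N S Sig R χ ↔ IsEB N S Sig R χ φ := Iff.rfl

variable (R K : Type) [CommRing R] [Field K] [Algebra R K]

/-- Extension of scalars `φ ↦ algebraMap ∘ φ`. -/
def extHom : (Additive (Gamma0 N) →+ R) →ₗ[R] (Additive (Gamma0 N) →+ K) where
  toFun φ := (algebraMap R K).toAddMonoidHom.comp φ
  map_add' φ ψ := by
    refine AddMonoidHom.ext fun γ => ?_
    simp
  map_smul' c φ := by
    refine AddMonoidHom.ext fun γ => ?_
    simp [Algebra.smul_def]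

variable {R K}

@[simp] theorem extHom_apply (φ : Additive (Gamma0 N) →+ R) (γ : Additive (Gamma0 N)) :
    extHom N R K φ γ = algebraMap R K (φ γ) := rfl

theorem TB_extHom {p : ℕ} (hp : p.Prime) (hpN : ¬ p ∣ N) (φ : Additive (Gamma0 N) →+ R) :
    TB N K hp hpN (extHom N R K φ) = extHom N R K (TB N R hp hpN φ) := by
  have : Fact p.Prime := ⟨hp⟩
  exact (isHeckeFamily_T N hpN).heckeOp_comp (incl_injective N)
    (algebraMap R K).toAddMonoidHom φ

theorem UB_extHom {p : ℕ} (hpN : p ∣ N) (φ : Additive (Gamma0 N) →+ R) :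
    UB N K hpN (extHom N R K φ) = extHom N R K (UB N R hpN φ) := by
  have : NeZero p := neZero_of_dvd hpN
  exact (isHeckeFamily_U N hpN).heckeOp_comp (incl_injective N)
    (algebraMap R K).toAddMonoidHom φ

theorem extHom_smul_algebraMap (c : R) (φ : Additive (Gamma0 N) →+ R) :
    algebraMap R K c • extHom N R K φ = extHom N R K (c • φ) := by
  refine AddMonoidHom.ext fun γ => ?_
  simp

variable [IsFractionRing R K]

theorem extHom_injective : Function.Injective (extHom N R K) := by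
  intro φ ψ h
  refine AddMonoidHom.ext fun γ => ?_
  have := DFunLike.congr_fun h γ
  rw [extHom_apply, extHom_apply] at this
  exact IsFractionRing.injective R K this

theorem isEB_extHom_iff (χ : CuspForm.heckeAlgebra N 2 S →+* R)
    (φ : Additive (Gamma0 N) →+ R) :
    IsEB N S Sig K ((algebraMap R K).comp χ) (extHom N R K φ) ↔ IsEB N S Sig R χ φ := by
  have hinj := extHom_injective (R := R) (K := K) N
  constructor
  · rintro ⟨h1, h2, h3⟩
    refine ⟨fun γ hγ => ?_, fun ℓ hℓ hℓN hℓS => ?_, fun r hr hrN => ?_⟩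
    · have := h1 γ hγ
      rw [extHom_apply] at this
      exact (IsFractionRing.injective R K) (by rw [this, map_zero])
    · apply hinj
      rw [← TB_extHom, h2 ℓ hℓ hℓN hℓS, RingHom.comp_apply, extHom_smul_algebraMap]
    · apply hinj
      rw [← UB_extHom, h3 r hr hrN, map_zero]
  · rintro ⟨h1, h2, h3⟩
    refine ⟨fun γ hγ => ?_, fun ℓ hℓ hℓN hℓS => ?_, fun r hr hrN => ?_⟩
    · rw [extHom_apply, h1 γ hγ, map_zero]
    · rw [TB_extHom, h2 ℓ hℓ hℓN hℓS, RingHom.comp_apply, extHom_smul_algebraMap]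
    · rw [UB_extHom, h3 r hr hrN, map_zero]

/-- The map `LB(R) → EB(K)`. -/
def extMap (χ : CuspForm.heckeAlgebra N 2 S →+* R) :
    LB N S Sig R χ →ₗ[R] EB N S Sig K ((algebraMap R K).comp χ) where
  toFun φ := ⟨extHom N R K φ.1, (isEB_extHom_iff N S Sig χ φ.1).mpr φ.2⟩
  map_add' φ ψ := Subtype.ext (map_add (extHom N R K) φ.1 ψ.1)
  map_smul' c φ := Subtype.ext (map_smul (extHom N R K) c φ.1)

theorem extMap_coe (χ : CuspForm.heckeAlgebra N 2 S →+* R) (φ : LB N S Sig R χ) :
    ((extMap (K := K) N S Sig χ φ : EB N S Sig K ((algebraMap R K).comp χ)) :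
      Additive (Gamma0 N) →+ K) = extHom N R K φ.1 := rfl

theorem extMap_injective (χ : CuspForm.heckeAlgebra N 2 S →+* R) :
    Function.Injective (extMap (K := K) N S Sig χ) := by
  intro φ ψ h
  exact Subtype.ext (extHom_injective (R := R) (K := K) N (congrArg Subtype.val h))

/-- Every homomorphism `Γ₀(N) → K` has a nonzero multiple with values in `R`. -/
theorem exists_smul_eq_extHom (y : Additive (Gamma0 N) →+ K) :
    ∃ (d : nonZeroDivisors R) (φ : Additive (Gamma0 N) →+ R),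
      (d : R) • y = extHom N R K φ := by
  have hfg : Group.FG (Gamma0 N) := Fermat.Agent.Betti.fg_Gamma0 N
  obtain ⟨T, hT, hTfin⟩ := Group.fg_iff.mp hfg
  have : Finite ↥T := hTfin
  obtain ⟨d, hd⟩ := IsLocalization.exist_integer_multiples_of_finite (nonZeroDivisors R)
    (fun g : ↥T => y (Additive.ofMul (g : Gamma0 N)))
  have hall : ∀ g : Gamma0 N, ∃ a : R, algebraMap R K a = (d : R) • y (Additive.ofMul g) := by
    intro g
    have hg : g ∈ Subgroup.closure T := by
      rw [hT]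
      exact Subgroup.mem_top g
    induction hg using Subgroup.closure_induction with
    | mem x hx =>
      obtain ⟨a, ha⟩ := hd ⟨x, hx⟩
      exact ⟨a, ha⟩
    | one =>
      refine ⟨0, ?_⟩
      rw [map_zero, ofMul_one, map_zero, smul_zero]
    | mul x z _ _ hx hz =>
      obtain ⟨a, ha⟩ := hx
      obtain ⟨b, hb⟩ := hz
      refine ⟨a + b, ?_⟩
      rw [map_add, ha, hb, ofMul_mul, map_add, smul_add]
    | inv x _ hx =>
      obtain ⟨a, ha⟩ := hx
      refine ⟨-a, ?_⟩
      rw [map_neg, ha, ofMul_inv, map_neg, smul_neg]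
  choose v hv using hall
  have hw : ∀ γ : Additive (Gamma0 N),
      algebraMap R K (v (Additive.toMul γ)) = (d : R) • y γ := fun γ => hv (Additive.toMul γ)
  have hadd : ∀ a b : Additive (Gamma0 N),
      v (Additive.toMul (a + b)) = v (Additive.toMul a) + v (Additive.toMul b) := by
    intro a b
    apply IsFractionRing.injective R K
    rw [hw (a + b), (algebraMap R K).map_add, hw a, hw b, y.map_add, smul_add]
  refine ⟨d, AddMonoidHom.mk' (fun γ => v (Additive.toMul γ)) hadd, ?_⟩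
  refine AddMonoidHom.ext fun γ => ?_
  rw [extHom_apply]
  exact (hw γ).symm

theorem exists_smul_eq_extMap (χ : CuspForm.heckeAlgebra N 2 S →+* R)
    (y : EB N S Sig K ((algebraMap R K).comp χ)) :
    ∃ (d : nonZeroDivisors R) (φ : LB N S Sig R χ), d • y = extMap (K := K) N S Sig χ φ := by
  obtain ⟨d, φ, hφ⟩ := exists_smul_eq_extHom (R := R) N (y : Additive (Gamma0 N) →+ K)
  have hmem : φ ∈ LB N S Sig R χ := by
    rw [mem_LB, ← isEB_extHom_iff (K := K) N S Sig χ φ, ← hφ]
    exact Submodule.smul_of_tower_mem _ _ y.2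
  refine ⟨d, ⟨φ, hmem⟩, Subtype.ext ?_⟩
  rw [extMap_coe, ← hφ]
  rfl

variable [IsDomain R]

instance extMap_isLocalizedModule (χ : CuspForm.heckeAlgebra N 2 S →+* R) :
    IsLocalizedModule (nonZeroDivisors R) (extMap (K := K) N S Sig χ) where
  map_units d := by
    rw [Module.End.isUnit_iff]
    have hd : algebraMap R K d ≠ 0 :=
      IsFractionRing.to_map_ne_zero_of_mem_nonZeroDivisors d.2
    constructor
    · intro y z h
      simp only [Module.algebraMap_end_apply] at h
      have h' : (algebraMap R K d) • y = (algebraMap R K d) • z := by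
        rwa [algebraMap_smul, algebraMap_smul]
      exact smul_right_injective _ hd h'
    · intro y
      refine ⟨(algebraMap R K d)⁻¹ • y, ?_⟩
      simp only [Module.algebraMap_end_apply]
      rw [← algebraMap_smul K (d : R), smul_smul, mul_inv_cancel₀ hd, one_smul]
  surj y := by
    obtain ⟨d, v, h⟩ := exists_smul_eq_extMap N S Sig χ y
    exact ⟨(v, d), h⟩
  exists_of_eq {v w} h := ⟨1, by rw [extMap_injective N S Sig χ h]⟩

/-- The rank of the lattice is the dimension of the eigenspace over the fraction field. -/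
theorem finrank_EB_eq_finrank_LB (χ : CuspForm.heckeAlgebra N 2 S →+* R) :
    finrank K ↥(EB N S Sig K ((algebraMap R K).comp χ)) = finrank R ↥(LB N S Sig R χ) := by
  have h1 := IsFractionRing.finrank_right_eq R K ↥(EB N S Sig K ((algebraMap R K).comp χ))
  have h2 := IsLocalizedModule.finrank_eq (M := ↥(LB N S Sig R χ))
    (N := ↥(EB N S Sig K ((algebraMap R K).comp χ))) (nonZeroDivisors R)
    (extMap (K := K) N S Sig χ) le_rfl
  exact h1.trans h2

end Lattice

/-! ## 3. The eigenspace of a Betti state is the lattice `LB` -/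

section State

variable {𝒪 : Type} [CommRing 𝒪] [IsLocalRing 𝒪]

/-- An eigenvector of the `T_ℓ` with eigenvalues lifting `θ` is `θ`-local. -/
theorem inBetti_of_isEB (N : ℕ) [NeZero N] (S : Set ℕ) (Sig : Finset ℕ)
    (θ : CuspForm.heckeAlgebra N 2 S →+* ResidueField 𝒪)
    (x : CuspForm.heckeAlgebra N 2 S →+* 𝒪) (hx : ∀ t, residue 𝒪 (x t) = θ t)
    (φ : Additive (Gamma0 N) →+ 𝒪) (hφ : IsEB N S Sig 𝒪 x φ) :
    InBetti 𝒪 N S θ Sig φ := by
  obtain ⟨h1, h2, h3⟩ := hφ
  refine ⟨h1, h3, fun ℓ hℓ hℓN hℓS a ha m => ⟨m, fun γ => ?_⟩⟩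
  set c : 𝒪 := x (CuspForm.heckeAlgebra.T hℓ hℓN hℓS) - a with hc
  have hcm : c ∈ maximalIdeal 𝒪 := by
    rw [← residue_eq_zero_iff, hc, map_sub, hx, ha, sub_self]
  have hiter : ∀ n : ℕ,
      ((fun χ : Additive (Gamma0 N) →+ 𝒪 => TB N 𝒪 hℓ hℓN χ - a • χ)^[n] φ) = c ^ n • φ := by
    intro n
    induction n with
    | zero => simp
    | succ n ih =>
      rw [Function.iterate_succ_apply', ih, TB_smul_ring, h2 ℓ hℓ hℓN hℓS, pow_succ, hc,
        smul_smul, smul_smul, ← sub_smul]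
      congr 1
      ring
  rw [hiter m]
  show c ^ m • φ γ ∈ maximalIdeal 𝒪 ^ m
  rw [smul_eq_mul]
  exact Ideal.mul_mem_right _ _ (Ideal.pow_mem_pow hcm m)

/-- An eigenvector of the generators `T_ℓ` is an eigenvector of the whole Hecke algebra, when
all the primes of the level are in `S`. -/
theorem eigen_of_generators (N : ℕ) [NeZero N] (S : Set ℕ)
    (hS : ∀ r : ℕ, r.Prime → r ∣ N → r ∈ S)
    {V : Type} [AddCommGroup V] [Module 𝒪 V]
    (η : CuspForm.heckeAlgebra N 2 S →+* Module.End 𝒪 V)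
    (x : CuspForm.heckeAlgebra N 2 S →+* 𝒪) (v : V)
    (hv : ∀ (ℓ : ℕ) (hℓ : ℓ.Prime) (hℓN : ¬ ℓ ∣ N) (hℓS : ℓ ∉ S),
      η (CuspForm.heckeAlgebra.T hℓ hℓN hℓS) v = x (CuspForm.heckeAlgebra.T hℓ hℓN hℓS) • v)
    (t : CuspForm.heckeAlgebra N 2 S) : η t v = x t • v := by
  obtain ⟨t', ht'⟩ := t
  induction ht' using Algebra.adjoin_induction with
  | mem u hu =>
    rcases hu with ⟨ℓ, hℓ, hℓN, hℓS, rfl⟩ | ⟨q, hqN, hq, hqS, rfl⟩
    · exact hv ℓ hℓ hℓN hℓS
    · exact absurd (hS q hq hqN) hqS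
  | algebraMap r =>
    have e : (⟨algebraMap ℤ _ r, Subalgebra.algebraMap_mem _ r⟩ :
        CuspForm.heckeAlgebra N 2 S) = (r : CuspForm.heckeAlgebra N 2 S) := by
      apply Subtype.ext
      simp
    rw [e, map_intCast, map_intCast]
    exact (Int.cast_smul_eq_zsmul 𝒪 r v).symm
  | add a b ha hb iha ihb =>
    have e : (⟨a + b, Subalgebra.add_mem _ ha hb⟩ : CuspForm.heckeAlgebra N 2 S) =
        ⟨a, ha⟩ + ⟨b, hb⟩ := rfl
    rw [e, map_add, map_add, LinearMap.add_apply, iha, ihb, add_smul]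
  | mul a b ha hb iha ihb =>
    have e : (⟨a * b, Subalgebra.mul_mem _ ha hb⟩ : CuspForm.heckeAlgebra N 2 S) =
        ⟨a, ha⟩ * ⟨b, hb⟩ := rfl
    rw [e, map_mul, map_mul, Module.End.mul_apply, ihb, map_smul, iha, smul_smul, mul_comm]

variable [IsDomain 𝒪]

/-- `ι` identifies the eigenspace `M[x]` with the lattice `LB`. -/
theorem finrank_eigen_eq_finrank_LB (s : NMState 𝒪) (Sig : Finset ℕ)
    (hS : ∀ r : ℕ, r.Prime → r ∣ s.N → r ∈ s.S) (hB : IsBetti s Sig)
    (x : CuspForm.heckeAlgebra s.N 2 (↑s.S : Set ℕ) →+* 𝒪)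
    (hx : ∀ t, residue 𝒪 (x t) = s.θ t) :
    finrank 𝒪 ↥(s.eigen x) = finrank 𝒪 ↥(LB s.N (↑s.S : Set ℕ) Sig 𝒪 x) := by
  obtain ⟨ι, hinj, hrange, hT⟩ := hB
  have hmem : ∀ v : s.M.V, v ∈ s.eigen x → ι v ∈ LB s.N (↑s.S : Set ℕ) Sig 𝒪 x := by
    intro v hv
    rw [NMState.mem_eigen] at hv
    obtain ⟨h1, h2, -⟩ := (hrange (ι v)).mp ⟨v, rfl⟩
    refine ⟨h1, fun ℓ hℓ hℓN hℓS => ?_, h2⟩
    rw [← hT ℓ hℓ hℓN hℓS v, hv, map_smul]
  let e : ↥(s.eigen x) →ₗ[𝒪] ↥(LB s.N (↑s.S : Set ℕ) Sig 𝒪 x) :=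
    { toFun := fun v => ⟨ι v.1, hmem v.1 v.2⟩
      map_add' := fun v w => Subtype.ext (map_add ι v.1 w.1)
      map_smul' := fun c v => Subtype.ext (map_smul ι c v.1) }
  have hbij : Function.Bijective e := by
    constructor
    · intro v w h
      exact Subtype.ext (hinj (congrArg Subtype.val h))
    · rintro ⟨φ, hφ⟩
      obtain ⟨v, rfl⟩ := (hrange φ).mpr
        (inBetti_of_isEB s.N (↑s.S : Set ℕ) Sig s.θ x hx φ hφ)
      have hv : v ∈ s.eigen x := by
        rw [NMState.mem_eigen]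
        refine eigen_of_generators s.N (↑s.S : Set ℕ)
          (fun r hr hrN => Finset.mem_coe.mpr (hS r hr hrN)) s.M.η x v ?_
        intro ℓ hℓ hℓN hℓS
        apply hinj
        rw [hT ℓ hℓ hℓN hℓS v, hφ.2.1 ℓ hℓ hℓN hℓS, map_smul]
      exact ⟨⟨v, hv⟩, rfl⟩
  exact (LinearEquiv.ofBijective e hbij).finrank_eq

end State

/-- **LAT**: the rank of the eigenspace of a Betti state is the dimension of the Betti
eigenspace over `Frac 𝒪`. -/
theorem stmt_LAT : Stmt_LAT := by
  intro 𝒪 _ _ _ s Sig hS hB x hx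
  rw [finrank_eigen_eq_finrank_LB s Sig hS hB x hx]
  exact (finrank_EB_eq_finrank_LB (K := FractionRing 𝒪) s.N (↑s.S : Set ℕ) Sig x).symm

end Fermat.Agent.S59.NonMin.Geom.Rank.H75L
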