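import Fermat.Agent.S59.NonMin.Geom.Rank.H2_Final
import Fermat.Agent.S59.NonMin.Geom.Rank.H75_Lat
import Fermat.Agent.S59.NonMin.Geom.Rank.H21_Field
import Fermat.Agent.S59.NonMin.Geom.Rank.H34_ES
import Fermat.Agent.S59.NonMin.Geom.Rank.H25_FieldU
import Fermat.Agent.S59.NonMin.Geom.Rank.H55_PLat

/-!
# S59 / NMGEOM: RANK and P-RANK, unconditional (plan helper27, file helper2)

* `stmt_RANK : NonMin.Geom.Stmt_RANK`;
* `stmt_PRANK : CaseC.Geom.Stmt_PRANK`.

Leaves: LAT (helper75), FIELD (helper21), ES / ESU (helper34), FIELDU (helper25), PLAT (helper55),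
EMBED / EMBEDA (helper13), RELTR (helper26), UINJ (helper11), MAIN / MAINb / PQUAD / PMULT1U
(helper56), DEPL (helper25), CLAIM / COEF / PSTRUCT (helper38), MULT1 (helper78, helper80),
NONVAN (helper75), NOLOW / PORDALGR (helper2), assemblies RANKASM / PRANKASM (helper27).
-/

set_option autoImplicit false

namespace Fermat.Agent.S59.NonMin.Geom.Rank.H2F

open Fermat.Agent.S59.NonMin.Geom.Rank

/-- **RANK**, unconditional. -/
theorem stmt_RANK : Fermat.Agent.S59.NonMin.Geom.Stmt_RANK :=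
  rank_of_betti H75L.stmt_LAT H21.stmt_FIELD H34.stmt_ES

/-- **P-RANK**, unconditional. -/
theorem stmt_PRANK : Fermat.Agent.S59.CaseC.Geom.Stmt_PRANK :=
  prank_of_rest H75L.stmt_LAT H21.stmt_FIELD H34.stmt_ES H25F.stmt_FIELDU H55.stmt_PLAT

end Fermat.Agent.S59.NonMin.Geom.Rank.H2F
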