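import Fermat.Agent.S59.NonMin.Geom.Rank.DefsP
import Fermat.Agent.S59.CaseC.Geom.H92_PRel
import Fermat.Agent.S41.H39_AL

/-!
# S59 / NMGEOM / RANK, stage 2 (P-RANK), leaf U-INJ (helper11)

`U_p` of level `N p` (`p ∤ N`) is injective on `Hom(Γ₀(N p), A)` for every abelian group `A`
without `p`-torsion.

Proof: if `U φ = 0` then `p • c₂ φ = c₁ (U φ) = 0`, so `c₂ φ = 0`, and
`c₁ φ = T (c₂ φ) - c₂ (U φ) = 0` (the two relations of `CaseC.Geom.Stmt_PREL` for `ψ`); a class
killed by both trace maps satisfies `U (U φ) = φ` (`S41.H39.al_main`), hence `φ = U 0 = 0`.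

* `uinj_of   : Stmt_UINJ_of` (from `Stmt_PREL`);
* `stmt_UINJ : Stmt_UINJ` (unconditional, with helper92's `stmt_PREL`).
-/

set_option autoImplicit false

open CongruenceSubgroup

namespace Fermat.Agent.S59.NonMin.Geom.Rank.H11

open Fermat.Agent.Betti Fermat.Agent.S41 Fermat.Agent.S59.NonMin.Geom.Rank

/-- The trace maps kill `0`. -/
theorem cor1_zero_h11 (N q : ℕ) (A : Type*) [AddCommGroup A] :
    cor1 N q A (0 : Additive (Gamma0 (N * q)) →+ A) = 0 := by
  have h := Fermat.Agent.S41.H19.corAlong_add (A := A) (inclG N q) 0 0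
  rw [add_zero] at h
  exact left_eq_add.mp h

/-- The trace maps kill `0`. -/
theorem cor2_zero_h11 (N q : ℕ) (A : Type*) [AddCommGroup A] :
    cor2 N q A (0 : Additive (Gamma0 (N * q)) →+ A) = 0 := by
  have h := Fermat.Agent.S41.H19.corAlong_add (A := A) (conjG N q) 0 0
  rw [add_zero] at h
  exact left_eq_add.mp h

/-- **U-INJ** from the relations P-REL. -/
theorem uinj_of : Stmt_UINJ_of := by
  intro hPREL N p _ _ hp hpN hd A _ hA φ hU
  obtain ⟨-, hψ⟩ := hPREL N p hp hpN hd A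
  obtain ⟨h1, h2⟩ := hψ φ
  have hN : 0 < N := Nat.pos_of_ne_zero (NeZero.ne N)
  rw [hU, cor1_zero_h11] at h1
  rw [hU, cor2_zero_h11] at h2
  -- `c₂ φ = 0`
  have hc2 : cor2 N p A φ = 0 := by
    refine AddMonoidHom.ext fun x => hA _ ?_
    have h := DFunLike.congr_fun h1 x
    exact h.symm
  -- `c₁ φ = 0`
  have hc1 : cor1 N p A φ = 0 := by
    rw [hc2, map_zero, zero_sub] at h2
    exact neg_eq_zero.mp h2.symm
  have h := Fermat.Agent.S41.H39.al_main hN hp hpN hd φ hc1 hc2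
  rw [hU, map_zero] at h
  exact h.symm

/-- **U-INJ**, unconditional. -/
theorem stmt_UINJ : Stmt_UINJ :=
  uinj_of Fermat.Agent.S59.CaseC.Geom.H92.stmt_PREL

end Fermat.Agent.S59.NonMin.Geom.Rank.H11
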