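import Mathlib
import Fermat.Agent.S59.NonMin.Geom.Rank.Defs
import Fermat.Agent.S22

/-!
# S59 / NMGEOM / RANK, leaf EMBED (helper13)

Every character of the Hecke algebra with values in a domain `𝒪` of characteristic zero is
conjugate to a complex one: its values are integral over `ℤ` (`S22`: the Hecke algebra is a
finite `ℤ`-module), so it factors through the algebraic closure `F` of `ℚ` in `Frac 𝒪`, and `F`
embeds in `ℂ` (`IsAlgClosed.lift`).
-/

set_option autoImplicit false

namespace Fermat.Agent.S59.NonMin.Geom.Rank.H13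

open Fermat.Agent.S59.NonMin.Geom.Rank

/-- A ring hom from a commutative ring which is a finite `ℤ`-module to a field `K` of
characteristic zero factors through a subfield of `K` which embeds in `ℂ`. -/
theorem factor_of_finite {K : Type} [Field K] [CharZero K] {H : Type} [CommRing H]
    [Module.Finite ℤ H] (y : H →+* K) :
    ∃ (F : Type) (_ : Field F) (x₀ : H →+* F) (jK : F →+* K) (_ : F →+* ℂ),
      jK.comp x₀ = y := by
  classical
  let F : IntermediateField ℚ K := algebraicClosure ℚ K
  have hmem : ∀ t : H, y t ∈ F := by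
    intro t
    have hint : IsIntegral ℤ t := Algebra.IsIntegral.isIntegral t
    have h2 : IsIntegral ℤ (y t) := hint.map y.toIntAlgHom
    have h3 : IsIntegral ℚ (y t) := h2.tower_top
    exact (mem_algebraicClosure_iff (F := ℚ) (E := K)).2 h3.isAlgebraic
  let x₀ : H →+* F := y.codRestrict F.toSubfield.toSubring hmem
  have halg : Algebra.IsAlgebraic ℚ F := algebraicClosure.isAlgebraic ℚ K
  let jC : F →ₐ[ℚ] ℂ := IsAlgClosed.lift
  refine ⟨F, inferInstance, x₀, (F.val : F →+* K), (jC : F →+* ℂ), ?_⟩
  ext t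
  rfl

/-- Abstract form of EMBED. -/
theorem conj_of_finite {𝒪 : Type} [CommRing 𝒪] [IsDomain 𝒪] [CharZero 𝒪] {H : Type} [CommRing H]
    [Module.Finite ℤ H] (x : H →+* 𝒪) : ∃ χ : H →+* ℂ, Conj x χ := by
  have hchar : CharZero (FractionRing 𝒪) :=
    charZero_of_injective_algebraMap (IsFractionRing.injective 𝒪 (FractionRing 𝒪))
  obtain ⟨F, hF, x₀, jK, jC, h⟩ :=
    factor_of_finite ((algebraMap 𝒪 (FractionRing 𝒪)).comp x)
  exact ⟨jC.comp x₀, F, hF, x₀, jK, jC, h, rfl⟩

theorem stmt_EMBED : Stmt_EMBED := by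
  intro 𝒪 _ _ _ N _ S x
  have hfin : Module.Finite ℤ (CuspForm.heckeAlgebra N 2 S) := Fermat.Agent.S22.result N 2 S
  exact conj_of_finite x

end Fermat.Agent.S59.NonMin.Geom.Rank.H13
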