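import Mathlib
import Fermat.Agent.S59.NonMin.Geom.Rank.DefsP
import Fermat.Agent.S22

/-!
# S59 / NMGEOM / P-RANK, leaf EMBED-A (helper13)

`Stmt_EMBED` with `F` = the algebraic closure of `ℚ` in `Frac 𝒪`: every element of `Frac 𝒪`
which is integral over `ℤ` lies in the image of `F`.
-/

set_option autoImplicit false

namespace Fermat.Agent.S59.NonMin.Geom.Rank.H13

open Fermat.Agent.S59.NonMin.Geom.Rank

/-- A ring hom from a commutative ring which is a finite `ℤ`-module to a field `K` of
characteristic zero factors through a subfield `F` of `K` which embeds in `ℂ` and contains all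
the elements of `K` which are algebraic over `ℚ`. -/
theorem factor_of_finite_alg {K : Type} [Field K] [CharZero K] {H : Type} [CommRing H]
    [Module.Finite ℤ H] (y : H →+* K) :
    ∃ (F : Type) (_ : Field F) (x₀ : H →+* F) (jK : F →+* K) (_ : F →+* ℂ),
      jK.comp x₀ = y ∧ ∀ z : K, IsAlgebraic ℚ z → z ∈ Set.range jK := by
  classical
  let F : IntermediateField ℚ K := algebraicClosure ℚ K
  have hmem : ∀ t : H, y t ∈ F := by
    intro t
    have hint : IsIntegral ℤ t := Algebra.IsIntegral.isIntegral t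
    have h2 : IsIntegral ℤ (y t) := hint.map y.toIntAlgHom
    have h3 : IsIntegral ℚ (y t) := h2.tower_top
    exact (mem_algebraicClosure_iff (F := ℚ) (E := K)).2 h3.isAlgebraic
  let x₀ : H →+* F := y.codRestrict F.toSubfield.toSubring hmem
  have halg : Algebra.IsAlgebraic ℚ F := algebraicClosure.isAlgebraic ℚ K
  let jC : F →ₐ[ℚ] ℂ := IsAlgClosed.lift
  refine ⟨F, inferInstance, x₀, (F.val : F →+* K), (jC : F →+* ℂ), ?_, ?_⟩
  · ext t
    rfl
  · intro z hz
    exact ⟨⟨z, (mem_algebraicClosure_iff (F := ℚ) (E := K)).2 hz⟩, rfl⟩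

/-- an element of a field of characteristic zero which is integral over `ℤ` (for any
`ℤ`-algebra structure) is algebraic over `ℚ` -/
theorem isAlgebraic_of_isIntegral_int {K : Type} [Field K] [CharZero K] (I : Algebra ℤ K)
    {z : K} (hz : @IsIntegral ℤ K _ _ I z) : IsAlgebraic ℚ z := by
  have hI : I = Ring.toIntAlgebra K := Subsingleton.elim _ _
  subst hI
  have h3 : IsIntegral ℚ z := hz.tower_top
  exact h3.isAlgebraic

/-- Abstract form of EMBED-A. -/
theorem conjA_of_finite {𝒪 : Type} [CommRing 𝒪] [IsDomain 𝒪] [CharZero 𝒪] {H : Type}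
    [CommRing H] [Module.Finite ℤ H] (x : H →+* 𝒪) : ∃ χ : H →+* ℂ, ConjA x χ := by
  have hchar : CharZero (FractionRing 𝒪) :=
    charZero_of_injective_algebraMap (IsFractionRing.injective 𝒪 (FractionRing 𝒪))
  obtain ⟨F, hF, x₀, jK, jC, h, hall⟩ :=
    factor_of_finite_alg ((algebraMap 𝒪 (FractionRing 𝒪)).comp x)
  exact ⟨jC.comp x₀, F, hF, x₀, jK, jC, h, rfl,
    fun z hz => hall z (isAlgebraic_of_isIntegral_int _ hz)⟩

theorem stmt_EMBEDA : Stmt_EMBEDA := by
  intro 𝒪 _ _ _ N _ S x
  have hfin : Module.Finite ℤ (CuspForm.heckeAlgebra N 2 S) := Fermat.Agent.S22.result N 2 S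
  exact conjA_of_finite x

end Fermat.Agent.S59.NonMin.Geom.Rank.H13
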