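import Mathlib
import Fermat.Agent.S59.NonMin.Geom.Rank.H21_SubExt

/-!
# S59 / NMGEOM / RANK, leaf LAT, abstract part (helper21)

* `finrank_sub_fraction` : `R` a domain with fraction field `K`, `UR ⊆ R^n`, `UK ⊆ K^n` with
  `v ∈ UR ↔ (algebraMap ∘ v) ∈ UK`; then `dim_K UK = rank_R UR`.
* `finrank_hom_fraction` : the same for `Hom(G, R)`, `Hom(G, K)`, `G` a finitely generated group.

Mathlib only.
-/

set_option autoImplicit false

open Module

namespace Fermat.Agent.S59.NonMin.Geom.Rank.H21

section Fraction

variable {R K : Type*} [CommRing R] [Field K] [Algebra R K] [IsFractionRing R K] {n : ℕ}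

/-- the map from `UR` to `UK` -/
def subMap (UR : Submodule R (Fin n → R)) (UK : Submodule K (Fin n → K))
    (h : ∀ v, extR R K n v ∈ UK ↔ v ∈ UR) : UR →ₗ[R] UK where
  toFun v := ⟨extR R K n v.1, (h v.1).mpr v.2⟩
  map_add' v w := Subtype.ext (map_add (extR R K n) v.1 w.1)
  map_smul' c v := Subtype.ext (map_smul (extR R K n) c v.1)

omit [IsFractionRing R K] in
theorem subMap_coe (UR : Submodule R (Fin n → R)) (UK : Submodule K (Fin n → K))
    (h : ∀ v, extR R K n v ∈ UK ↔ v ∈ UR) (v : UR) :
    ((subMap UR UK h v : UK) : Fin n → K) = extR R K n v.1 := rfl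

theorem subMap_injective (UR : Submodule R (Fin n → R)) (UK : Submodule K (Fin n → K))
    (h : ∀ v, extR R K n v ∈ UK ↔ v ∈ UR) : Function.Injective (subMap UR UK h) := by
  intro v w hvw
  exact Subtype.ext (extR_injective (R := R) (K := K) (congrArg Subtype.val hvw))

theorem exists_smul_eq_subMap (UR : Submodule R (Fin n → R)) (UK : Submodule K (Fin n → K))
    (h : ∀ v, extR R K n v ∈ UK ↔ v ∈ UR) (y : UK) :
    ∃ (d : nonZeroDivisors R) (v : UR), d • y = subMap UR UK h v := by
  obtain ⟨d, hd⟩ := IsLocalization.exist_integer_multiples_of_finite (nonZeroDivisors R)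
    (fun k : Fin n => (y : Fin n → K) k)
  choose v hv using hd
  have hext : extR R K n v = (d : R) • (y : Fin n → K) := by
    funext k
    rw [extR_apply, hv k, Pi.smul_apply]
  have hmem : v ∈ UR := by
    rw [← h, hext]
    exact Submodule.smul_of_tower_mem _ _ y.2
  refine ⟨d, ⟨v, hmem⟩, Subtype.ext ?_⟩
  rw [subMap_coe, hext]
  rfl

variable [IsDomain R]

theorem subMap_isLocalizedModule (UR : Submodule R (Fin n → R)) (UK : Submodule K (Fin n → K))
    (h : ∀ v, extR R K n v ∈ UK ↔ v ∈ UR) :
    IsLocalizedModule (nonZeroDivisors R) (subMap UR UK h) where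
  map_units d := by
    rw [Module.End.isUnit_iff]
    have hd : algebraMap R K d ≠ 0 :=
      IsFractionRing.to_map_ne_zero_of_mem_nonZeroDivisors d.2
    constructor
    · intro y z hyz
      simp only [Module.algebraMap_end_apply] at hyz
      have h' : (algebraMap R K d) • y = (algebraMap R K d) • z := by
        rwa [algebraMap_smul, algebraMap_smul]
      exact smul_right_injective _ hd h'
    · intro y
      refine ⟨(algebraMap R K d)⁻¹ • y, ?_⟩
      simp only [Module.algebraMap_end_apply]
      rw [← algebraMap_smul K (d : R), smul_smul, mul_inv_cancel₀ hd, one_smul]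
  surj y := by
    obtain ⟨d, v, hdv⟩ := exists_smul_eq_subMap UR UK h y
    exact ⟨(v, d), hdv⟩
  exists_of_eq {v w} hvw := ⟨1, by rw [subMap_injective UR UK h hvw]⟩

/-- **Fraction field** for subspaces of `R^n`, `K^n`. -/
theorem finrank_sub_fraction (UR : Submodule R (Fin n → R)) (UK : Submodule K (Fin n → K))
    (h : ∀ v, extR R K n v ∈ UK ↔ v ∈ UR) : finrank K UK = finrank R UR := by
  haveI := subMap_isLocalizedModule UR UK h
  rw [IsFractionRing.finrank_right_eq R K]
  exact IsLocalizedModule.finrank_eq (nonZeroDivisors R) (subMap UR UK h) le_rfl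

end Fraction

section Hom

variable {G : Type*} [AddGroup G] {R K : Type*} [CommRing R] [Field K] [Algebra R K]
  [IsFractionRing R K]

/-- a homomorphism to `K` whose values on a generating family are in `R` comes from `R` -/
theorem exists_lift_hom {m : ℕ} {g : Fin m → G} (hg : AddSubgroup.closure (Set.range g) = ⊤)
    (ψ : G →+ K) (v : Fin m → R) (hv : ∀ i, ψ (g i) = algebraMap R K (v i)) :
    ∃ φ : G →+ R, (algebraMap R K).toAddMonoidHom.comp φ = ψ := by
  have hinj : Function.Injective (algebraMap R K).toAddMonoidHom := IsFractionRing.injective R K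
  have hmem : ∀ x, ψ x ∈ (algebraMap R K).toAddMonoidHom.range := by
    intro x
    have hx : x ∈ AddSubgroup.closure (Set.range g) := by rw [hg]; exact AddSubgroup.mem_top x
    induction hx using AddSubgroup.closure_induction with
    | mem y hy =>
      obtain ⟨i, rfl⟩ := hy
      exact ⟨v i, (hv i).symm⟩
    | zero => rw [map_zero]; exact AddSubgroup.zero_mem _
    | add y z _ _ hy hz => rw [map_add]; exact AddSubgroup.add_mem _ hy hz
    | neg y _ hy => rw [map_neg]; exact AddSubgroup.neg_mem _ hy
  refine ⟨(AddMonoidHom.ofInjective hinj).symm.toAddMonoidHom.comp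
    (ψ.codRestrict (algebraMap R K).toAddMonoidHom.range hmem), ?_⟩
  refine AddMonoidHom.ext fun x => ?_
  exact AddMonoidHom.apply_ofInjective_symm hinj ⟨ψ x, hmem x⟩

variable [IsDomain R]

/-- **Fraction field** for subspaces of `Hom(G, R)`, `Hom(G, K)`. -/
theorem finrank_hom_fraction (hG : AddGroup.FG G) (WR : Submodule R (G →+ R))
    (WK : Submodule K (G →+ K))
    (h : ∀ φ : G →+ R, (algebraMap R K).toAddMonoidHom.comp φ ∈ WK ↔ φ ∈ WR) :
    finrank K WK = finrank R WR := by
  obtain ⟨m, g, hg⟩ := exists_gen hG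
  have e1 : finrank K WK = finrank K (WK.map (evG g K)) :=
    (Submodule.equivMapOfInjective (evG g K) (evG_injective hg K) WK).finrank_eq
  have e2 : finrank R WR = finrank R (WR.map (evG g R)) :=
    (Submodule.equivMapOfInjective (evG g R) (evG_injective hg R) WR).finrank_eq
  rw [e1, e2]
  refine finrank_sub_fraction _ _ fun v => ?_
  constructor
  · rintro ⟨ψ, hψ, hψv⟩
    obtain ⟨φ, hφ⟩ := exists_lift_hom hg ψ v (fun i => congrFun hψv i)
    refine ⟨φ, (h φ).mp (hφ ▸ hψ), ?_⟩
    funext i
    apply IsFractionRing.injective R K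
    have := congrFun hψv i
    rw [evG_apply, ← hφ] at this
    exact this
  · rintro ⟨φ, hφ, rfl⟩
    exact ⟨_, (h φ).mpr hφ, rfl⟩

end Hom

end Fermat.Agent.S59.NonMin.Geom.Rank.H21
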