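/-
S59 (row 53), RT-NONMIN / NMGEOM, leaf RANK, sub-leaf DEPL (helper25): the core.
Plan: NOTES/plan/S59_NMG_RANK.md.

Depletion at a prime `r` with `r² ∣ L`, inside the level `L`:
for `f ∈ S₂(Γ₀(L))` there is `g ∈ S₂(Γ₀(L))` with `a_n(g) = a_n(f)` for `r ∤ n` and `a_n(g) = 0`
for `r ∣ n`.

Proof.  `D := (U_r f) ∣ diag(r, 1)`, i.e. `D(z) = r (U_r f)(r z) = ∑_{j mod r} f(z + j/r)`.
* `U_r f` is invariant under `Γ₀(L / r)` (level lowering for `U_r`, `r² ∣ L`): the matrix identity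
  of the prelude (`heckeMatrix_mul_of_dvd`: `[1, j; 0, r] g = g' [1, j'; 0, r]`, `g'₁₀ = r g₁₀`).
* `diag(r, 1) g = g' diag(r, 1)` with `g'₁₀ = g₁₀ / r` (`heckeDiagMatrix_mul_of_eq'`); hence `D` is
  invariant under `Γ₀(L)`.
* `D = T_r (U_r f) - U_r (U_r f)` as functions (`heckeT = heckeU + diag`), which gives the
  holomorphy, the vanishing at the cusps and the `q`-expansion of `D` from the prelude:
  `a_n(D) = r a_n(f) [r ∣ n]`.
* `g := f - r⁻¹ D`.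
-/
import Mathlib.NumberTheory.ModularForms.QExpansion
import Mathlib.NumberTheory.ModularForms.CongruenceSubgroups
import Fermat.Prelude.Def_ModularForm_HeckeOperatorForms
import Fermat.Prelude.Def_FLTPrelim_Modularity
import Fermat.Prelude.Thm_ModularFormClass_qCoeff_heckeT
import Fermat.Prelude.Thm_ModularFormClass_qCoeff_heckeU
import Fermat.Prelude.Thm_CongruenceSubgroup_one_mem_strictPeriods_Gamma0

set_option autoImplicit false

noncomputable section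

namespace Fermat.Agent.S59.NonMin.Geom.Rank.H25

open CongruenceSubgroup ModularForm UpperHalfPlane Matrix.SpecialLinearGroup ModularFormClass
open P2MW.S_ModularForm_heckeU_slash_eq_self_of_mem_Gamma0.ModularForm.HeckeSlashInvariance
open scoped MatrixGroups ModularForm

variable {L r : ℕ}

/-! ## Invariance -/

theorem dvd_div_of_sq_dvd (hr2 : r ^ 2 ∣ L) : r ∣ L / r := by
  obtain ⟨m, rfl⟩ := hr2
  rcases Nat.eq_zero_or_pos r with rfl | hr
  · simp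
  refine ⟨m, ?_⟩
  rw [pow_two, mul_assoc, Nat.mul_div_cancel_left _ hr]

theorem dvd_of_sq_dvd (hr2 : r ^ 2 ∣ L) : r ∣ L :=
  (dvd_pow_self r two_ne_zero).trans hr2

/-- **Level lowering for `U_r`**: if `r² ∣ L` and `f` is invariant under `Γ₀(L)`, then `U_r f` is
invariant under `Γ₀(L / r)`. -/
theorem heckeU_slash_lower (k : ℤ) [NeZero r] (hr2 : r ^ 2 ∣ L) (f : ℍ → ℂ)
    (hf : ∀ γ ∈ (Gamma0 L : Subgroup (GL (Fin 2) ℝ)), f ∣[k] γ = f)
    (g : SL(2, ℤ)) (hg : ((L / r : ℕ) : ℤ) ∣ g 1 0) :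
    heckeU k r f ∣[k] (mapGL ℝ g) = heckeU k r f := by
  have hc : (r : ℤ) ∣ g 1 0 := (Int.natCast_dvd_natCast.mpr (dvd_div_of_sq_dvd hr2)).trans hg
  rw [heckeU_eq_sum_zmod k f, SlashAction.sum_slash]
  calc ∑ x : ZMod r, (f ∣[k] heckeMatrix r x.val) ∣[k] mapGL ℝ g
      = ∑ x : ZMod r, f ∣[k] heckeMatrix r
          (affinePerm g ((ZMod.intCast_zmod_eq_zero_iff_dvd _ _).mpr hc) x).val := by
        refine Finset.sum_congr rfl fun x _ ↦ ?_
        obtain ⟨g', hg', hmul⟩ := heckeMatrix_mul_of_dvd g hc x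
        have hg'N : g' ∈ Gamma0 L := by
          rw [Gamma0_mem, hg', ZMod.intCast_zmod_eq_zero_iff_dvd]
          obtain ⟨m, hm⟩ := hg
          refine ⟨m, ?_⟩
          rw [hm, ← mul_assoc]
          congr 1
          have := Nat.mul_div_cancel' (dvd_of_sq_dvd hr2)
          exact_mod_cast this
        rw [← SlashAction.slash_mul, hmul, SlashAction.slash_mul,
          hf _ (Subgroup.mem_map_of_mem (mapGL ℝ) hg'N)]
    _ = ∑ x : ZMod r, f ∣[k] heckeMatrix r x.val :=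
        Equiv.sum_comp (affinePerm g _) (fun x ↦ f ∣[k] heckeMatrix r x.val)

/-- The function `(U_r f) ∣ diag(r, 1)` is invariant under `Γ₀(L)` if `r² ∣ L`. -/
theorem depl_slash (k : ℤ) [NeZero r] (hr2 : r ^ 2 ∣ L) (f : ℍ → ℂ)
    (hf : ∀ γ ∈ (Gamma0 L : Subgroup (GL (Fin 2) ℝ)), f ∣[k] γ = f)
    (g : SL(2, ℤ)) (hg : g ∈ Gamma0 L) :
    (heckeU k r f ∣[k] heckeDiagMatrix r) ∣[k] (mapGL ℝ g)
      = heckeU k r f ∣[k] heckeDiagMatrix r := by
  have hcL : (L : ℤ) ∣ g 1 0 :=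
    (ZMod.intCast_zmod_eq_zero_iff_dvd _ _).mp (Gamma0_mem.mp hg)
  obtain ⟨m, hm⟩ := hcL
  have hL : (L : ℤ) = (r : ℤ) * ((L / r : ℕ) : ℤ) := by
    have := Nat.mul_div_cancel' (dvd_of_sq_dvd hr2)
    exact_mod_cast this.symm
  have he : g 1 0 = (r : ℤ) * (((L / r : ℕ) : ℤ) * m) := by
    rw [hm, hL, mul_assoc]
  obtain ⟨g', hg', hmul⟩ := heckeDiagMatrix_mul_of_eq' (NeZero.ne r) g _ he
  rw [← SlashAction.slash_mul, hmul, SlashAction.slash_mul,
    heckeU_slash_lower k hr2 f hf g' (by rw [hg']; exact dvd_mul_right _ _)]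

/-! ## The cusp form -/

theorem isZeroAt_sub {c : OnePoint ℝ} {k : ℤ} {f f' : ℍ → ℂ} (hf : c.IsZeroAt f k)
    (hf' : c.IsZeroAt f' k) : c.IsZeroAt (f - f') k := by
  intro g hg
  rw [sub_eq_add_neg, SlashAction.add_slash, SlashAction.neg_slash]
  exact (hf g hg).add (hf' g hg).neg

theorem depl_eq_sub (k : ℤ) (f : ℍ → ℂ) :
    heckeU k r f ∣[k] heckeDiagMatrix r
      = heckeT k r (heckeU k r f) - heckeU k r (heckeU k r f) := by
  rw [heckeT_eq_heckeU_add, add_sub_cancel_left]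

theorem depl_mdiff (k : ℤ) {f : ℍ → ℂ}
    (hf : MDifferentiable (modelWithCornersSelf ℂ ℂ) (modelWithCornersSelf ℂ ℂ) f) :
    MDifferentiable (modelWithCornersSelf ℂ ℂ) (modelWithCornersSelf ℂ ℂ)
      (heckeU k r f ∣[k] heckeDiagMatrix r) := by
  rw [depl_eq_sub]
  exact (mdifferentiable_heckeT (mdifferentiable_heckeU hf k r) k r).sub
    (mdifferentiable_heckeU (mdifferentiable_heckeU hf k r) k r)

theorem depl_isZeroAt [NeZero L] (hrL : r ∣ L) (f : CuspForm (Gamma0 L) 2) {c : OnePoint ℝ}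
    (hc : IsCusp c (Gamma0 L : Subgroup (GL (Fin 2) ℝ))) :
    c.IsZeroAt (heckeU 2 r ⇑f ∣[(2 : ℤ)] heckeDiagMatrix r) 2 := by
  rw [depl_eq_sub]
  have h1 := CuspFormClass.isZeroAt_heckeT (CuspForm.heckeULin 2 hrL f) r hc
  have h2 := CuspFormClass.isZeroAt_heckeU (CuspForm.heckeULin 2 hrL f) r hc
  rw [CuspForm.coe_heckeULin_apply] at h1 h2
  exact isZeroAt_sub h1 h2

/-- The cusp form `D = (U_r f) ∣ diag(r, 1)` of level `L` (`r² ∣ L`). -/
def deplForm [NeZero L] [NeZero r] (hr2 : r ^ 2 ∣ L) (f : CuspForm (Gamma0 L) 2) :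
    CuspForm (Gamma0 L) 2 where
  toFun := heckeU 2 r ⇑f ∣[(2 : ℤ)] heckeDiagMatrix r
  slash_action_eq' := fun γ hγ => by
    obtain ⟨g, hg, rfl⟩ := hγ
    exact depl_slash 2 hr2 ⇑f (fun γ hγ => SlashInvariantFormClass.slash_action_eq f γ hγ) g hg
  holo' := depl_mdiff 2 (CuspFormClass.holo f)
  zero_at_cusps' := fun {_} hc => depl_isZeroAt (dvd_of_sq_dvd hr2) f hc

theorem coe_deplForm [NeZero L] [NeZero r] (hr2 : r ^ 2 ∣ L) (f : CuspForm (Gamma0 L) 2) :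
    ⇑(deplForm hr2 f) = heckeU 2 r ⇑f ∣[(2 : ℤ)] heckeDiagMatrix r := rfl

/-! ## Coefficients -/

theorem hper25 (N : ℕ) :
    (1 : ℝ) ∈ (Subgroup.map (Matrix.SpecialLinearGroup.mapGL ℝ) (Gamma0 N)).strictPeriods :=
  CongruenceSubgroup.one_mem_strictPeriods_Gamma0 N

theorem qCoeff_add25 {N : ℕ} {k : ℤ} (f g : CuspForm (Gamma0 N) k) (n : ℕ) :
    qCoeff ⇑(f + g) n = qCoeff ⇑f n + qCoeff ⇑g n := by
  simp only [qCoeff, FunLike.coe_add]
  rw [ModularForm.qExpansion_add one_pos (hper25 N) f g, map_add]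

theorem qCoeff_sub25 {N : ℕ} {k : ℤ} (f g : CuspForm (Gamma0 N) k) (n : ℕ) :
    qCoeff ⇑(f - g) n = qCoeff ⇑f n - qCoeff ⇑g n := by
  simp only [qCoeff, FunLike.coe_sub]
  rw [ModularForm.qExpansion_sub one_pos (hper25 N) f g, map_sub]

theorem qCoeff_smul25 {N : ℕ} {k : ℤ} (c : ℂ) (f : CuspForm (Gamma0 N) k) (n : ℕ) :
    qCoeff ⇑(c • f) n = c * qCoeff ⇑f n := by
  have h1 : ⇑(c • f) = c • ⇑f := by
    ext z
    simp
  simp only [qCoeff, h1]
  rw [ModularForm.qExpansion_smul one_pos (hper25 N) c f]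
  simp

/-- `a_n(D) = r a_n(f)` if `r ∣ n`, and `0` otherwise. -/
theorem qCoeff_deplForm [NeZero L] [NeZero r] (hr2 : r ^ 2 ∣ L) (f : CuspForm (Gamma0 L) 2)
    (n : ℕ) :
    qCoeff ⇑(deplForm hr2 f) n = if r ∣ n then (r : ℂ) * qCoeff ⇑f n else 0 := by
  have hrL := dvd_of_sq_dvd hr2
  have hr0 : r ≠ 0 := NeZero.ne r
  set U := CuspForm.heckeULin 2 hrL f with hU
  -- `T_r (U f) = U (U f) + D` as functions
  have e : heckeT 2 r ⇑U = ⇑(CuspForm.heckeULin 2 hrL U + deplForm hr2 f) := by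
    rw [FunLike.coe_add, CuspForm.coe_heckeULin_apply, coe_deplForm, heckeT_eq_heckeU_add]
    rfl
  have h1 := ModularFormClass.qCoeff_heckeT (k := 2) U (hper25 L) hr0 n
  rw [e, qCoeff_add25, coeffHeckeT_apply] at h1
  have h2 := ModularFormClass.qCoeff_heckeU (k := 2) U (hper25 L) hr0 n
  rw [← CuspForm.coe_heckeULin_apply 2 hrL U, coeffHeckeU_apply] at h2
  rw [h2] at h1
  have h3 : qCoeff ⇑(deplForm hr2 f) n
      = if r ∣ n then (r : ℂ) ^ ((2 : ℤ) - 1) * qCoeff ⇑U (n / r) else 0 :=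
    add_left_cancel h1
  rw [h3]
  split_ifs with hdvd
  · have h4 := ModularFormClass.qCoeff_heckeU (k := 2) f (hper25 L) hr0 (n / r)
    rw [← CuspForm.coe_heckeULin_apply 2 hrL f, coeffHeckeU_apply,
      Nat.div_mul_cancel hdvd] at h4
    rw [h4]
    norm_num
  · rfl

/-- **DEPL**: depletion at `r`, inside the level `L` (`r² ∣ L`). -/
theorem exists_depl (L r : ℕ) [NeZero L] (hr : r.Prime) (hr2 : r ^ 2 ∣ L)
    (f : CuspForm (Gamma0 L) 2) :
    ∃ g : CuspForm (Gamma0 L) 2, ∀ n : ℕ, qCoeff g n = if r ∣ n then 0 else qCoeff f n := by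
  have : NeZero r := ⟨hr.ne_zero⟩
  have hr0 : (r : ℂ) ≠ 0 := by exact_mod_cast hr.ne_zero
  refine ⟨f - (r : ℂ)⁻¹ • deplForm hr2 f, fun n => ?_⟩
  rw [qCoeff_sub25, qCoeff_smul25, qCoeff_deplForm]
  split_ifs with hdvd
  · rw [← mul_assoc, inv_mul_cancel₀ hr0, one_mul, sub_self]
  · rw [mul_zero, sub_zero]

end Fermat.Agent.S59.NonMin.Geom.Rank.H25
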