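/-
S59 (row 53), RT-NONMIN / NMGEOM, leaf RANK, sub-leaf DEPL (helper25).
Plan: NOTES/plan/S59_NMG_RANK.md.

`stmt_DEPL : Rank.Stmt_DEPL` (unconditional): depletion at a prime `r` with `r² ∣ L`, inside the
level `L`.  The proof is `H25.exists_depl` (`Rank/H25_DeplCore.lean`, which imports only the
prelude): `g = f - r⁻¹ (U_r f) ∣ diag(r, 1)`.
-/
import Fermat.Agent.S59.NonMin.Geom.Rank.Defs
import Fermat.Agent.S59.NonMin.Geom.Rank.H25_DeplCore

set_option autoImplicit false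

namespace Fermat.Agent.S59.NonMin.Geom.Rank.H25

/-- **DEPL**. -/
theorem stmt_DEPL : Fermat.Agent.S59.NonMin.Geom.Rank.Stmt_DEPL :=
  fun L r _ hr hr2 f => exists_depl L r hr hr2 f

end Fermat.Agent.S59.NonMin.Geom.Rank.H25
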