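/-
S59 / PGEOM / P-RANK (sub-planner helper27), leaf REL-TR (helper26): `stmt_RELTR : Stmt_RELTR`.

A quadratic relation for `U_p` on the Betti eigenspace `EB` holds over `F` iff it holds over an
extension `L`; its coefficient over `L` comes from `F` if `U_p ≠ 0` on `EB(F)`.

Route (no dimension count; `Stmt_FIELD` is not used): for every `F`-linear functional
`l : L → F` and `ψ ∈ EB(L)` one has `l ∘ ψ ∈ EB(F)` and `l ∘ (UB ψ) = UB (l ∘ ψ)`; the functionals
separate the points of `L`.
-/
import Fermat.Agent.S59.NonMin.Geom.Rank.DefsP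

set_option autoImplicit false

open CuspForm CongruenceSubgroup
open scoped MatrixGroups

namespace Fermat.Agent.S59.NonMin.Geom.Rank.H26

open Fermat.Agent.Betti Fermat.Agent.S59.NonMin.Geom.Rank
open ModularCurve.Period

section Naturality

variable {N : ℕ} {A B : Type*} [AddCommGroup A] [AddCommGroup B]

theorem UB_comp [NeZero N] (f : A →+ B) {p : ℕ} (hp : p ∣ N) (φ : Additive (Gamma0 N) →+ A) :
    UB N B hp (f.comp φ) = f.comp (UB N A hp φ) := by
  have : NeZero p := neZero_of_dvd hp
  exact (isHeckeFamily_U N hp).heckeOp_comp (incl_injective N) f φ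

theorem TB_comp (f : A →+ B) {p : ℕ} (hp : p.Prime) (hpN : ¬ p ∣ N)
    (φ : Additive (Gamma0 N) →+ A) :
    TB N B hp hpN (f.comp φ) = f.comp (TB N A hp hpN φ) := by
  have : Fact p.Prime := ⟨hp⟩
  exact (isHeckeFamily_T N hpN).heckeOp_comp (incl_injective N) f φ

end Naturality

section Transfer

variable {N : ℕ} [NeZero N] {S : Set ℕ} {Sig : Finset ℕ}

/-- `IsEB` is preserved by post-composition with an additive map of the coefficients which is
semilinear for the characters. -/
theorem isEB_comp {R R' : Type} [CommRing R] [CommRing R'] (g : R →+ R')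
    {χ : CuspForm.heckeAlgebra N 2 S →+* R} {χ' : CuspForm.heckeAlgebra N 2 S →+* R'}
    (hg : ∀ t x, g (χ t * x) = χ' t * g x) {φ : Additive (Gamma0 N) →+ R}
    (h : IsEB N S Sig R χ φ) : IsEB N S Sig R' χ' (g.comp φ) := by
  obtain ⟨h1, h2, h3⟩ := h
  refine ⟨fun γ hγ => ?_, fun ℓ hℓ hℓN hℓS => ?_, fun r hr hrN => ?_⟩
  · rw [AddMonoidHom.comp_apply, h1 γ hγ, map_zero]
  · rw [TB_comp, h2 ℓ hℓ hℓN hℓS]
    refine AddMonoidHom.ext fun γ => ?_
    rw [AddMonoidHom.comp_apply, AddMonoidHom.smul_apply, AddMonoidHom.smul_apply,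
      AddMonoidHom.comp_apply, smul_eq_mul, smul_eq_mul, hg]
  · rw [UB_comp, h3 r hr hrN, AddMonoidHom.comp_zero]

/-- The quadratic expression is natural for additive maps of the coefficients which are
semilinear for `a ↦ a'`, `p ↦ p`. -/
theorem quad_comp {R R' : Type} [CommRing R] [CommRing R'] (g : R →+ R') {p : ℕ} (hp : p ∣ N)
    (a : R) (a' : R') (ha : ∀ x, g (a * x) = a' * g x) (hpg : ∀ x, g ((p : R) * x) = (p : R') * g x)
    (φ : Additive (Gamma0 N) →+ R) :
    UB N R' hp (UB N R' hp (g.comp φ)) - a' • UB N R' hp (g.comp φ) + (p : R') • (g.comp φ) =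
      g.comp (UB N R hp (UB N R hp φ) - a • UB N R hp φ + (p : R) • φ) := by
  rw [UB_comp, UB_comp]
  refine AddMonoidHom.ext fun γ => ?_
  simp only [AddMonoidHom.comp_apply, AddMonoidHom.add_apply, AddMonoidHom.sub_apply,
    AddMonoidHom.smul_apply, smul_eq_mul, map_add, map_sub, ha, hpg]

end Transfer

/-- **REL-TR**. -/
theorem stmt_RELTR : Stmt_RELTR := by
  intro _ N _ S Sig F L _ _ _ j χ p hp
  let _ : Algebra F L := j.toAlgebra
  have hsmul : ∀ (c : F) (x : L), c • x = j c * x := fun c x => Algebra.smul_def c x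
  -- the two families of maps of coefficients
  have hjEB : ∀ φ, φ ∈ EB N S Sig F χ → (j.toAddMonoidHom.comp φ) ∈ EB N S Sig L (j.comp χ) :=
    fun φ hφ => isEB_comp (j : F →+* L).toAddMonoidHom (fun t x => by
      show j (χ t * x) = j (χ t) * j x
      rw [map_mul]) hφ
  have hlEB : ∀ (l : L →ₗ[F] F) ψ, ψ ∈ EB N S Sig L (j.comp χ) →
      (l.toAddMonoidHom.comp ψ) ∈ EB N S Sig F χ :=
    fun l ψ hψ => isEB_comp l.toAddMonoidHom (fun t x => by
      show l (j (χ t) * x) = χ t * l x
      rw [← hsmul, map_smul, smul_eq_mul]) hψ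
  have hjp : j (p : F) = (p : L) := map_natCast j p
  refine ⟨fun a => ⟨fun hF ψ hψ => ?_, fun hL φ hφ => ?_⟩, fun a' hL hex => ?_⟩
  · -- descent by functionals
    refine AddMonoidHom.ext fun γ => ?_
    rw [AddMonoidHom.zero_apply]
    refine (Module.forall_dual_apply_eq_zero_iff F _).1 fun l => ?_
    have hq := quad_comp (N := N) l.toAddMonoidHom hp (j a) a
      (fun x => by
        show l (j a * x) = a * l x
        rw [← hsmul, map_smul, smul_eq_mul])
      (fun x => by
        show l ((p : L) * x) = (p : F) * l x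
        rw [← hjp, ← hsmul, map_smul, smul_eq_mul]) ψ
    rw [hF _ (hlEB l ψ hψ)] at hq
    have := congrArg (fun f : Additive (Gamma0 N) →+ F => f γ) hq
    simp only [AddMonoidHom.zero_apply, AddMonoidHom.comp_apply] at this
    exact this.symm
  · -- injectivity of `j`
    have hq := quad_comp (N := N) (j : F →+* L).toAddMonoidHom hp a (j a)
      (fun x => by
        show j (a * x) = j a * j x
        rw [map_mul])
      (fun x => by
        show j ((p : F) * x) = (p : L) * j x
        rw [map_mul, hjp]) φ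
    rw [hL _ (hjEB φ hφ)] at hq
    refine AddMonoidHom.ext fun γ => ?_
    have := congrArg (fun f : Additive (Gamma0 N) →+ L => f γ) hq
    simp only [AddMonoidHom.zero_apply, AddMonoidHom.comp_apply] at this
    exact j.injective (by rw [AddMonoidHom.zero_apply, map_zero]; exact this.symm)
  · -- descent of the coefficient
    obtain ⟨φ, hφ, hne⟩ := hex
    obtain ⟨γ, hγ⟩ : ∃ γ, UB N F hp φ γ ≠ 0 := by
      by_contra hcon
      exact hne (AddMonoidHom.ext fun γ => by
        by_contra h
        exact hcon ⟨γ, h⟩)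
    have h := hL _ (hjEB φ hφ)
    rw [UB_comp, UB_comp] at h
    have h' := congrArg (fun f : Additive (Gamma0 N) →+ L => f γ) h
    simp only [AddMonoidHom.zero_apply, AddMonoidHom.comp_apply, AddMonoidHom.add_apply,
      AddMonoidHom.sub_apply, AddMonoidHom.smul_apply, smul_eq_mul] at h'
    have hjγ : j (UB N F hp φ γ) ≠ 0 := fun h0 => hγ (j.injective (by rw [h0, map_zero]))
    refine ⟨(UB N F hp (UB N F hp φ) γ + (p : F) * φ γ) / UB N F hp φ γ, ?_⟩
    rw [map_div₀, map_add, map_mul, hjp, div_eq_iff hjγ]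
    have h'' : j (UB N F hp (UB N F hp φ) γ) - a' * j (UB N F hp φ γ) + (p : L) * j (φ γ) = 0 :=
      h'
    linear_combination h''

end Fermat.Agent.S59.NonMin.Geom.Rank.H26
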