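import Mathlib
import Fermat.Agent.S59.NonMin.Geom.Rank.Defs
import Fermat.Agent.R.H99_Newform

/-!
# S59 / NMGEOM / RANK: the assembly (helper27)

`stmt_RANKASM : Stmt_RANKASM`, i.e.
`Stmt_LAT → Stmt_FIELD → Stmt_EMBED → Stmt_ES → Stmt_MULT1 → Stmt_NONVAN → Geom.Stmt_RANK`.
-/

set_option autoImplicit false

open Polynomial CuspForm CongruenceSubgroup IsLocalRing ModularFormClass
open scoped MatrixGroups

namespace Fermat.Agent.S59.NonMin.Geom.Rank.H27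

open Fermat.Agent.Betti Fermat.Agent.S59 Fermat.Agent.S59.Asm
open ModularCurve.Period Fermat.Agent.S59.NonMin.Geom.Rank

/-- `GeomHyp` at the level `N q²`. -/
theorem geomHyp_step {p : ℕ} {Smin : Finset ℕ} {N₀ : ℕ} {Sig : Finset ℕ} {N : ℕ} {S : Finset ℕ}
    (hG : GeomHyp p Smin N₀ Sig N S) {q : ℕ} (hq : q.Prime) (hqp : q ≠ p) (hqS : q ∉ S) :
    GeomHyp p Smin N₀ (insert q Sig) (N * q ^ 2) (insert q S) := by
  have hqSmin : q ∉ Smin := fun h => hqS (by rw [hG.hS]; exact Finset.mem_union_left _ h)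
  have hqSig : q ∉ Sig := fun h => hqS (by rw [hG.hS]; exact Finset.mem_union_right _ h)
  refine ⟨?_, ?_, ?_, hG.hN₀, hG.hN₀S⟩
  · rw [Finset.prod_insert hqSig, hG.hN]; ring
  · rw [hG.hS, Finset.union_insert]
  · intro r hr
    rcases Finset.mem_insert.mp hr with rfl | hr
    · exact ⟨hq, hqp, hqSmin⟩
    · exact hG.hSig r hr

/-- all primes of the level of a state of the class `G` lie in `S`. -/
theorem primes_mem {p : ℕ} {Smin : Finset ℕ} {N₀ : ℕ} {Sig : Finset ℕ} {N : ℕ} {S : Finset ℕ}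
    (hG : GeomHyp p Smin N₀ Sig N S) : ∀ r : ℕ, r.Prime → r ∣ N → r ∈ S := by
  intro r hr hrN
  rw [hG.hN] at hrN
  rw [hG.hS]
  rcases (Nat.Prime.dvd_mul hr).mp hrN with h | h
  · exact Finset.mem_union_left _ (hG.hN₀S r hr h)
  · obtain ⟨s, hs, hrs⟩ := (Prime.dvd_finsetProd_iff hr.prime _).mp h
    have hrs' : r ∣ s := hr.dvd_of_dvd_pow hrs
    have : r = s := (Nat.prime_dvd_prime_iff_eq hr (hG.hSig s hs).1).mp hrs'
    exact Finset.mem_union_right _ (this ▸ hs)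

/-- the chain `rank M[x] = 2 dim EC`. -/
theorem rank_eq (hLAT : Stmt_LAT) (hFIELD : Stmt_FIELD) (hES : Stmt_ES)
    (𝒪 : Type) [CommRing 𝒪] [IsDomain 𝒪] [IsDiscreteValuationRing 𝒪]
    (s : NMState 𝒪) (Sig : Finset ℕ) (hS : ∀ r : ℕ, r.Prime → r ∣ s.N → r ∈ s.S)
    (hSig : ∀ r ∈ Sig, r.Prime) (hB : IsBetti s Sig)
    (x : CuspForm.heckeAlgebra s.N 2 (↑s.S : Set ℕ) →+* 𝒪)
    (hx : ∀ t, residue 𝒪 (x t) = s.θ t)
    (F : Type) [Field F] (x₀ : CuspForm.heckeAlgebra s.N 2 (↑s.S : Set ℕ) →+* F)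
    (jK : F →+* FractionRing 𝒪) (jC : F →+* ℂ)
    (hK : jK.comp x₀ = (algebraMap 𝒪 (FractionRing 𝒪)).comp x) :
    Module.finrank 𝒪 ↥(s.eigen x) =
      2 * Module.finrank ℂ ↥(EC s.N (↑s.S : Set ℕ) Sig (jC.comp x₀)) := by
  have : CharZero F := RingHom.charZero jC
  rw [hLAT 𝒪 s Sig hS hB x hx, ← hK, hFIELD s.N (↑s.S : Set ℕ) Sig F (FractionRing 𝒪) jK x₀,
    ← hFIELD s.N (↑s.S : Set ℕ) Sig F ℂ jC x₀, hES s.N (↑s.S : Set ℕ) Sig (jC.comp x₀) hSig]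

theorem stmt_RANKASM : Stmt_RANKASM := by
  intro hLAT hFIELD hEMBED hES hMULT1 hNONVAN 𝒪 _ _ _ _ _ _ p _ hp2 hp𝒪 ρbar Smin hRes N₀ hflat
    Sig s hG hFrob hB q hq hqp hqN hqS _ rest hrest M' hB' x hx
  obtain ⟨χ, F, _, x₀, jK, jC, hK, hC⟩ := hEMBED 𝒪 s.N (↑s.S : Set ℕ) x
  have hG' := geomHyp_step hG hq hqp (fun h => hqS (Finset.mem_coe.mpr h))
  have hSigP : ∀ r ∈ Sig, r.Prime := fun r hr => (hG.hSig r hr).1
  have hSigP' : ∀ r ∈ insert q Sig, r.Prime := fun r hr => (hG'.hSig r hr).1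
  -- the level `N`
  have h1 := rank_eq hLAT hFIELD hES 𝒪 s Sig (primes_mem hG) hSigP hB x hx F x₀ jK jC hK
  -- the level `N q²`
  have hx' : ∀ t, residue 𝒪 ((x.comp rest) t) = (s.θ.comp rest) t := fun t => hx (rest t)
  have hK' : jK.comp (x₀.comp rest) = (algebraMap 𝒪 (FractionRing 𝒪)).comp (x.comp rest) := by
    rw [← RingHom.comp_assoc, hK, RingHom.comp_assoc]
  have h2 := rank_eq hLAT hFIELD hES 𝒪
    (⟨s.N * q ^ 2, insert q s.S, s.θ.comp rest, M'⟩ : NMState 𝒪) (insert q Sig)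
    (primes_mem hG') hSigP' hB' (x.comp rest) hx' F (x₀.comp rest) jK jC hK'
  -- multiplicity one at the level `N q²`
  have hFrob' : Fermat.Agent.S59.Datum.FrobHyp ρbar (s.N * q ^ 2) (insert q s.S)
      (s.θ.comp rest) := by
    intro ℓ hℓ hℓN' hℓS' A hA σ hσ
    have hℓN : ¬ ℓ ∣ s.N := fun h => hℓN' (Dvd.dvd.mul_right h _)
    have hℓS : ℓ ∉ (↑s.S : Set ℕ) := fun h => hℓS' (by
      rw [Finset.coe_insert]; exact Set.mem_insert_of_mem _ h)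
    rw [hFrob ℓ hℓ hℓN hℓS A hA σ hσ, RingHom.comp_apply, hrest ℓ hℓ hℓN' hℓS' hℓN hℓS]
  have hConj' : Conj (x.comp rest) ((jC.comp x₀).comp rest) :=
    ⟨F, inferInstance, x₀.comp rest, jK, jC, hK', by rw [RingHom.comp_assoc]⟩
  have h3 := hMULT1 𝒪 p hp2 hp𝒪 ρbar Smin hRes N₀ hflat (insert q Sig) (s.N * q ^ 2)
    (insert q s.S) hG' (s.θ.comp rest) hFrob' (x.comp rest) hx' ((jC.comp x₀).comp rest) hConj'
  rw [RingHom.comp_assoc] at h3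
  -- non vanishing at the level `N`
  have h4 : EC s.N (↑s.S : Set ℕ) Sig (jC.comp x₀) ≠ ⊥ :=
    hNONVAN s.N (↑s.S : Set ℕ) Sig (jC.comp x₀) (fun r hr => ⟨(hG.hSig r hr).1, by
      rw [hG.hN]
      exact Dvd.dvd.mul_left (Finset.dvd_prod_of_mem (fun r => r ^ 2) hr) _⟩)
  have : FiniteDimensional ℂ (CuspForm (Gamma0 s.N) 2) :=
    Fermat.Agent.R.H99.finiteDimensional_cuspForm s.N
  have h5 : 1 ≤ Module.finrank ℂ ↥(EC s.N (↑s.S : Set ℕ) Sig (jC.comp x₀)) := by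
    rw [Nat.one_le_iff_ne_zero]
    intro h0
    exact h4 (Submodule.finrank_eq_zero.mp h0)
  rw [h1]
  calc Module.finrank 𝒪 ↥(NMState.eigen
        (⟨s.N * q ^ 2, insert q s.S, s.θ.comp rest, M'⟩ : NMState 𝒪) (x.comp rest))
      = 2 * Module.finrank ℂ ↥(EC (s.N * q ^ 2) (↑(insert q s.S) : Set ℕ) (insert q Sig)
          (jC.comp (x₀.comp rest))) := h2
    _ ≤ 2 * 1 := Nat.mul_le_mul_left 2 h3
    _ ≤ 2 * Module.finrank ℂ ↥(EC s.N (↑s.S : Set ℕ) Sig (jC.comp x₀)) :=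
        Nat.mul_le_mul_left 2 h5

end Fermat.Agent.S59.NonMin.Geom.Rank.H27
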