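import Mathlib
import Fermat.Agent.S59.NonMin.Geom.Rank.DefsP
import Fermat.Agent.S59.NonMin.Geom.Rank.H27_Asm

/-!
# S59 / PGEOM / P-RANK: the assembly (helper27)

`stmt_PRANKASM : Stmt_PRANKASM`, i.e. the leaves of `Rank/DefsP.lean` imply
`CaseC.Geom.Stmt_PRANK`.
-/

set_option autoImplicit false

open Polynomial CuspForm CongruenceSubgroup IsLocalRing ModularFormClass
open scoped MatrixGroups

namespace Fermat.Agent.S59.NonMin.Geom.Rank.H27

open Fermat.Agent.Betti Fermat.Agent.S59 Fermat.Agent.S59.Asm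
open ModularCurve.Period Fermat.Agent.S59.NonMin.Geom.Rank

/-! ### Change of coefficients -/

section Coeff

variable {N : ℕ} {A B : Type} [AddCommGroup A] [AddCommGroup B]

theorem TB_compHom (u : A →+ B) {p : ℕ} (hp : p.Prime) (hpN : ¬ p ∣ N)
    (φ : Additive (Gamma0 N) →+ A) :
    TB N B hp hpN (u.comp φ) = u.comp (TB N A hp hpN φ) := by
  have : Fact p.Prime := ⟨hp⟩
  exact (isHeckeFamily_T N hpN).heckeOp_comp (incl_injective N) u φ

theorem UB_compHom [NeZero N] (u : A →+ B) {p : ℕ} (hpN : p ∣ N)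
    (φ : Additive (Gamma0 N) →+ A) :
    UB N B hpN (u.comp φ) = u.comp (UB N A hpN φ) := by
  have : NeZero p := neZero_of_dvd hpN
  exact (isHeckeFamily_U N hpN).heckeOp_comp (incl_injective N) u φ

end Coeff

/-- `IsEB` is preserved by a change of coefficients. -/
theorem isEB_comp {N : ℕ} [NeZero N] {S : Set ℕ} {Sig : Finset ℕ} {R R' : Type} [CommRing R]
    [CommRing R'] (j : R →+* R') {χ : CuspForm.heckeAlgebra N 2 S →+* R}
    {φ : Additive (Gamma0 N) →+ R} (h : IsEB N S Sig R χ φ) :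
    IsEB N S Sig R' (j.comp χ) (j.toAddMonoidHom.comp φ) := by
  obtain ⟨h1, h2, h3⟩ := h
  refine ⟨fun γ hγ => ?_, fun ℓ hℓ hℓN hℓS => ?_, fun r hr hrN => ?_⟩
  · show j (φ (Additive.ofMul γ)) = 0
    rw [h1 γ hγ, map_zero]
  · rw [TB_compHom, h2 ℓ hℓ hℓN hℓS]
    refine AddMonoidHom.ext fun γ => ?_
    show j (χ (CuspForm.heckeAlgebra.T hℓ hℓN hℓS) • φ γ) = _
    rw [smul_eq_mul, map_mul]
    rfl
  · rw [UB_compHom, h3 r hr hrN, AddMonoidHom.comp_zero]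

/-- `U_p` as an `R`-linear endomorphism. -/
noncomputable def UBlin (N : ℕ) [NeZero N] (R : Type) [CommRing R] {p : ℕ} (hp : p ∣ N) :
    Module.End R (Additive (Gamma0 N) →+ R) :=
  haveI : NeZero p := neZero_of_dvd hp
  (isHeckeFamily_U N hp).heckeOpLin (incl_injective N) R

theorem UBlin_apply (N : ℕ) [NeZero N] (R : Type) [CommRing R] {p : ℕ} (hp : p ∣ N)
    (φ : Additive (Gamma0 N) →+ R) : UBlin N R hp φ = UB N R hp φ := rfl

theorem UBlin_pow_apply (N : ℕ) [NeZero N] (R : Type) [CommRing R] {p : ℕ} (hp : p ∣ N) (n : ℕ)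
    (φ : Additive (Gamma0 N) →+ R) : (UBlin N R hp ^ n) φ = (UB N R hp)^[n] φ := by
  induction n generalizing φ with
  | zero => rfl
  | succ n ih =>
    rw [pow_succ, Module.End.mul_apply, ih, Function.iterate_succ_apply, UBlin_apply]

/-- The values of an element of `I • ⊤` lie in `I`. -/
theorem apply_mem_of_mem_smul_top {Γ R : Type} [AddGroup Γ] [CommRing R] {I : Ideal R}
    {ψ : Γ →+ R} (h : ψ ∈ (I • ⊤ : Submodule R (Γ →+ R))) (γ : Γ) : ψ γ ∈ I := by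
  refine Submodule.smul_induction_on (p := fun ψ => ψ γ ∈ I) h (fun c hc φ _ => ?_)
    (fun φ₁ φ₂ h₁ h₂ => ?_)
  · exact I.mul_mem_right _ hc
  · exact I.add_mem h₁ h₂

/-- `Hom(Γ, 𝒪)` is separated. -/
theorem separated_hom {Γ 𝒪 : Type} [AddGroup Γ] [CommRing 𝒪] [IsDomain 𝒪]
    [IsDiscreteValuationRing 𝒪] (ψ : Γ →+ 𝒪)
    (h : ∀ n : ℕ, ψ ∈ (maximalIdeal 𝒪 ^ n • ⊤ : Submodule 𝒪 (Γ →+ 𝒪))) : ψ = 0 := by
  refine AddMonoidHom.ext fun γ => ?_
  have h1 : ψ γ ∈ ⨅ n : ℕ, maximalIdeal 𝒪 ^ n :=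
    (Ideal.mem_iInf).mpr fun n => apply_mem_of_mem_smul_top (h n) γ
  rw [Ideal.iInf_pow_eq_bot_of_isLocalRing _ (Ideal.IsPrime.ne_top inferInstance)] at h1
  exact h1

/-- Integrality over `ℤ` in terms of polynomials (independent of the `ℤ`-algebra instance). -/
theorem isIntegral_int_iff {R : Type} [CommRing R] {i : Algebra ℤ R} (y : R) :
    @IsIntegral ℤ R _ _ i y ↔ ∃ P : ℤ[X], P.Monic ∧ P.eval₂ (Int.castRingHom R) y = 0 := by
  have h : @algebraMap ℤ R _ _ i = Int.castRingHom R := RingHom.ext_int _ _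
  constructor
  · rintro ⟨P, hP, h0⟩
    exact ⟨P, hP, by rw [← h]; exact h0⟩
  · rintro ⟨P, hP, h0⟩
    exact ⟨P, hP, by rw [h]; exact h0⟩

theorem eval₂_int_map {A B : Type} [CommRing A] [CommRing B] (j : A →+* B) (P : ℤ[X]) (y : A) :
    P.eval₂ (Int.castRingHom B) (j y) = j (P.eval₂ (Int.castRingHom A) y) := by
  rw [Polynomial.hom_eval₂]
  congr 1
  exact RingHom.ext_int _ _

theorem isIntegral_int_map {A B : Type} [CommRing A] [CommRing B] {iA : Algebra ℤ A}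
    {iB : Algebra ℤ B} (j : A →+* B) {y : A} (h : @IsIntegral ℤ A _ _ iA y) :
    @IsIntegral ℤ B _ _ iB (j y) := by
  obtain ⟨P, hP, h0⟩ := (isIntegral_int_iff y).mp h
  exact (isIntegral_int_iff (j y)).mpr ⟨P, hP, by rw [eval₂_int_map, h0, map_zero]⟩

theorem isIntegral_int_of_map {A B : Type} [CommRing A] [CommRing B] {iA : Algebra ℤ A}
    {iB : Algebra ℤ B} (j : A →+* B) (hj : Function.Injective j) {y : A}
    (h : @IsIntegral ℤ B _ _ iB (j y)) : @IsIntegral ℤ A _ _ iA y := by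
  obtain ⟨P, hP, h0⟩ := (isIntegral_int_iff (j y)).mp h
  refine (isIntegral_int_iff y).mpr ⟨P, hP, hj ?_⟩
  rw [← eval₂_int_map, h0, map_zero]

/-- An element of the fraction field of an integrally closed domain which is integral over `ℤ`
lies in the domain. -/
theorem exists_of_isIntegral_int {𝒪 K : Type} [CommRing 𝒪] [IsDomain 𝒪] [Field K] [Algebra 𝒪 K]
    [IsFractionRing 𝒪 K] [IsIntegrallyClosed 𝒪] {iK : Algebra ℤ K} {y : K}
    (h : @IsIntegral ℤ K _ _ iK y) : ∃ b : 𝒪, algebraMap 𝒪 K b = y := by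
  obtain ⟨P, hP, h0⟩ := (isIntegral_int_iff y).mp h
  refine IsIntegrallyClosed.isIntegral_iff.mp ⟨P.map (Int.castRingHom 𝒪), hP.map _, ?_⟩
  rw [Polynomial.eval₂_map]
  have : (algebraMap 𝒪 K).comp (Int.castRingHom 𝒪) = Int.castRingHom K := RingHom.ext_int _ _
  rw [this, h0]

theorem stmt_PRANKASM : Stmt_PRANKASM := by
  intro hLAT hFIELD hES hNONVAN hEMBEDA hPQUAD hPMULT1U hESU hFIELDU hRELTR hUINJ hPORD hPLAT
    𝒪 _ _ _ _ _ _ p _ hp2 hp𝒪 ρbar Smin hRes N₀ Sig s hG hFrob hB hpN _ hd rest hrest M' ι' hι'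
    hrange hequiv x hx
  have hp : p.Prime := Fact.out
  obtain ⟨χ, F, _, x₀, jK, jC, hK, hC, hint⟩ := hEMBEDA 𝒪 s.N (↑s.S : Set ℕ) x
  subst hC
  have : CharZero F := RingHom.charZero jC
  set K := FractionRing 𝒪 with hKdef
  set ιK : 𝒪 →+* K := algebraMap 𝒪 K with hιK
  have hιinj : Function.Injective ιK := IsFractionRing.injective 𝒪 K
  have hSigP : ∀ r ∈ Sig, r.Prime := fun r hr => (hG.hSig r hr).1
  have hprimes := primes_mem hG
  -- the level `N`: `rank M[x] = 2 dim EC ≥ 2`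
  have h1 := rank_eq hLAT hFIELD hES 𝒪 s Sig hprimes hSigP hB x hx F x₀ jK jC hK
  have h4 : EC s.N (↑s.S : Set ℕ) Sig (jC.comp x₀) ≠ ⊥ :=
    hNONVAN s.N (↑s.S : Set ℕ) Sig (jC.comp x₀) (fun r hr => ⟨(hG.hSig r hr).1, by
      rw [hG.hN]
      exact Dvd.dvd.mul_left (Finset.dvd_prod_of_mem (fun r => r ^ 2) hr) _⟩)
  have hfd : FiniteDimensional ℂ (CuspForm (Gamma0 s.N) 2) :=
    Fermat.Agent.R.H99.finiteDimensional_cuspForm s.N
  have h5 : 1 ≤ Module.finrank ℂ ↥(EC s.N (↑s.S : Set ℕ) Sig (jC.comp x₀)) := by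
    rw [Nat.one_le_iff_ne_zero]
    intro h0
    exact h4 (Submodule.finrank_eq_zero.mp h0)
  -- the characters at the level `N p`
  set x₀' : CuspForm.heckeAlgebra (s.N * p) 2 (↑s.S : Set ℕ) →+* F := x₀.comp rest with hx₀'
  have hK' : jK.comp x₀' = ιK.comp (x.comp rest) := by
    rw [hx₀', ← RingHom.comp_assoc, hK, RingHom.comp_assoc]
  have hC' : (jC.comp x₀).comp rest = jC.comp x₀' := by rw [hx₀', RingHom.comp_assoc]
  have hPH : PHyp p ρbar Smin N₀ Sig s.N s.S s.θ x (jC.comp x₀) rest :=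
    ⟨hp2, hp𝒪, hRes, hG, hpN, hFrob, hx, ⟨F, inferInstance, x₀, jK, jC, hK, rfl⟩, hrest⟩
  -- the quadratic relation over `ℂ`
  obtain ⟨a, ha_int, hrelC⟩ := hPQUAD 𝒪 p ρbar Smin N₀ Sig s.N s.S s.θ x (jC.comp x₀) rest hPH hd
  obtain ⟨hdimU, hrelB⟩ := hESU (s.N * p) (↑s.S : Set ℕ) Sig ((jC.comp x₀).comp rest) p hd hp
    hSigP
  have hrelB' := hrelB a hrelC
  rw [hC'] at hrelB' hdimU
  -- a nonzero element of `EB(F)` at the level `N p`
  have hSig2 : ∀ r ∈ Sig, r.Prime ∧ r ^ 2 ∣ s.N * p := fun r hr => ⟨(hG.hSig r hr).1, by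
    rw [hG.hN]
    exact Dvd.dvd.mul_right (Dvd.dvd.mul_left (Finset.dvd_prod_of_mem (fun r => r ^ 2) hr) _) _⟩
  have h6 : EC (s.N * p) (↑s.S : Set ℕ) Sig (jC.comp x₀') ≠ ⊥ :=
    hNONVAN (s.N * p) (↑s.S : Set ℕ) Sig (jC.comp x₀') hSig2
  have hfd' : FiniteDimensional ℂ (CuspForm (Gamma0 (s.N * p)) 2) :=
    Fermat.Agent.R.H99.finiteDimensional_cuspForm (s.N * p)
  have h7 : 0 < Module.finrank F ↥(EB (s.N * p) (↑s.S : Set ℕ) Sig F x₀') := by
    rw [← hFIELD (s.N * p) (↑s.S : Set ℕ) Sig F ℂ jC x₀',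
      hES (s.N * p) (↑s.S : Set ℕ) Sig (jC.comp x₀') hSigP]
    have : Module.finrank ℂ ↥(EC (s.N * p) (↑s.S : Set ℕ) Sig (jC.comp x₀')) ≠ 0 :=
      fun h0 => h6 (Submodule.finrank_eq_zero.mp h0)
    omega
  have hnt : Nontrivial ↥(EB (s.N * p) (↑s.S : Set ℕ) Sig F x₀') :=
    Module.nontrivial_of_finrank_pos h7
  obtain ⟨⟨φF, hφF⟩, hφF0⟩ := exists_ne (0 : ↥(EB (s.N * p) (↑s.S : Set ℕ) Sig F x₀'))
  have hφF0' : φF ≠ 0 := fun h => hφF0 (Subtype.ext h)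
  have hpF : ∀ c : F, p • c = 0 → c = 0 := by
    intro c hc
    rw [nsmul_eq_mul] at hc
    rcases mul_eq_zero.mp hc with h | h
    · exact absurd (Nat.cast_eq_zero.mp h) hp.ne_zero
    · exact h
  have hUφF : UB (s.N * p) F hd φF ≠ 0 := fun h =>
    hφF0' (hUINJ s.N p hp hpN hd F hpF φF h)
  -- descent of `a` to `F`, the relation over `F` and over `K`
  obtain ⟨hiffC, hdescC⟩ := hRELTR hFIELD (s.N * p) (↑s.S : Set ℕ) Sig F ℂ jC x₀' p hd
  obtain ⟨aF, haF⟩ := hdescC a hrelB' ⟨φF, hφF, hUφF⟩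
  have hrelF := (hiffC aF).mpr (by rw [haF]; exact hrelB')
  obtain ⟨hiffK, -⟩ := hRELTR hFIELD (s.N * p) (↑s.S : Set ℕ) Sig F K jK x₀' p hd
  have hrelK := (hiffK aF).mp hrelF
  -- integrality
  have haF_int : IsIntegral ℤ aF := by
    have := ha_int
    rw [← haF] at this
    exact isIntegral_int_of_map jC jC.injective this
  have haK_int : IsIntegral ℤ (jK aF) := isIntegral_int_map jK haF_int
  obtain ⟨a𝒪, ha𝒪⟩ : ∃ a𝒪 : 𝒪, ιK a𝒪 = jK aF := exists_of_isIntegral_int haK_int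
  have ha𝒪_int : IsIntegral ℤ a𝒪 := by
    have h := haK_int
    rw [← ha𝒪] at h
    exact isIntegral_int_of_map ιK hιinj h
  -- the relation on the lattice
  have hrel𝒪 : ∀ ψ : Additive (Gamma0 (s.N * p)) →+ 𝒪,
      IsEB (s.N * p) (↑s.S : Set ℕ) Sig 𝒪 (x.comp rest) ψ →
      UBlin (s.N * p) 𝒪 hd (UBlin (s.N * p) 𝒪 hd ψ) - a𝒪 • UBlin (s.N * p) 𝒪 hd ψ
        + (p : 𝒪) • ψ = 0 := by
    intro ψ hψ
    have hψK : ιK.toAddMonoidHom.comp ψ ∈ EB (s.N * p) (↑s.S : Set ℕ) Sig K (jK.comp x₀') := by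
      rw [hK']
      exact isEB_comp ιK hψ
    have h := hrelK _ hψK
    rw [UB_compHom, UB_compHom, ← ha𝒪] at h
    refine AddMonoidHom.ext fun γ => hιinj ?_
    have h' := DFunLike.congr_fun h γ
    simp only [AddMonoidHom.add_apply, AddMonoidHom.sub_apply, AddMonoidHom.smul_apply,
      AddMonoidHom.comp_apply, AddMonoidHom.zero_apply, RingHom.toAddMonoidHom_eq_coe,
      AddMonoidHom.coe_coe, smul_eq_mul, UBlin_apply] at h' ⊢
    rw [map_zero, map_add, map_sub, map_mul, map_mul, map_natCast]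
    exact h'
  -- the algebra
  obtain ⟨u, hu_int, hu⟩ := hPORD 𝒪 p hp𝒪 (Additive (Gamma0 (s.N * p)) →+ 𝒪)
    (fun ψ h => separated_hom ψ h) (UBlin (s.N * p) 𝒪 hd)
    (IsEB (s.N * p) (↑s.S : Set ℕ) Sig 𝒪 (x.comp rest)) a𝒪 hrel𝒪
  obtain ⟨uF, huF⟩ := hint (ιK u) (isIntegral_int_map ιK (hu_int ha𝒪_int))
  -- the lattice
  have hprimes' : ∀ r : ℕ, r.Prime → r ∣ s.N * p → r ∈ s.S := by
    intro r hr hrN
    rcases (Nat.Prime.dvd_mul hr).mp hrN with h | h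
    · exact hprimes r hr h
    · have : r = p := (Nat.prime_dvd_prime_iff_eq hr hp).mp h
      rw [this, hG.hS]
      exact Finset.mem_union_left _ hRes.hpSmin
  have hx' : ∀ t, residue 𝒪 ((x.comp rest) t) = (s.θ.comp rest) t := fun t => hx (rest t)
  have h8 := hPLAT hUINJ 𝒪 s.N p hp hpN hd s.S hprimes' (s.θ.comp rest) M' Sig ι' hι' hrange
    hequiv (x.comp rest) hx' u (by
      intro ψ _ hdiv
      have := hu ψ (fun n => by
        obtain ⟨ψ', hψ', h⟩ := hdiv n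
        exact ⟨ψ', hψ', by rw [UBlin_pow_apply]; exact h⟩)
      rw [UBlin_apply] at this
      exact this)
  -- the chain
  have h9 : Module.finrank K ↥(EBU (s.N * p) (↑s.S : Set ℕ) Sig K (ιK.comp (x.comp rest)) hd
      (ιK u)) ≤ 2 := by
    rw [← hK', ← huF, hFIELDU (s.N * p) (↑s.S : Set ℕ) Sig F K jK x₀' p hd uF,
      ← hFIELDU (s.N * p) (↑s.S : Set ℕ) Sig F ℂ jC x₀' p hd uF, hdimU (jC uF)]
    have h10 := hPMULT1U 𝒪 p ρbar Smin N₀ Sig s.N s.S s.θ x (jC.comp x₀) rest hPH hd (jC uF)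
    rw [hC'] at h10
    omega
  calc Module.finrank 𝒪 ↥(NMState.eigen
        (⟨s.N * p, s.S, s.θ.comp rest, M'⟩ : NMState 𝒪) (x.comp rest))
      ≤ Module.finrank K ↥(EBU (s.N * p) (↑s.S : Set ℕ) Sig K (ιK.comp (x.comp rest)) hd
          (ιK u)) := h8
    _ ≤ 2 := h9
    _ ≤ Module.finrank 𝒪 ↥(s.eigen x) := by rw [h1]; omega

end Fermat.Agent.S59.NonMin.Geom.Rank.H27
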