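import Fermat.Agent.S59.NonMin.Geom.Rank.H2_NoLow
import Fermat.Agent.R.H33_TatePiece
import Fermat.Agent.S32.H86_Bridge
import Fermat.Agent.S19
import Fermat.Agent.S59.Datum.H57_ResIrr
import Fermat.Agent.S59.Datum.H78_FlatDesc

/-!
# S59 / NMGEOM / RANK, leaf NOLOW (helper2): final form

`stmt_NOLOW : Stmt_NOLOW`, unconditional (`R.H33.stmt_S30`, S32 at the points from the frozen S19,
`Datum.H57.stmt_ResIrr`, `Datum.H78.stmt_FlatDesc`).
-/

set_option autoImplicit false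

namespace Fermat.Agent.S59.NonMin.Geom.Rank.H2

/-- **NOLOW**. -/
theorem stmt_NOLOW : Fermat.Agent.S59.NonMin.Geom.Rank.Stmt_NOLOW :=
  nolow_of Fermat.Agent.R.H33.stmt_S30
    (Fermat.Agent.S32.H86.stmt_FlatPoint_of_S19
      (fun N _ ℓ _ hℓN k => Fermat.Agent.S19.result N ℓ hℓN k))
    Fermat.Agent.S59.Datum.H57.stmt_ResIrr Fermat.Agent.S59.Datum.H78.stmt_FlatDesc

end Fermat.Agent.S59.NonMin.Geom.Rank.H2
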