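import Mathlib

/-!
# S59 / NMGEOM / RANK, stage 2 (P-RANK): the algebra of the unit root (helper2)

Let `𝒪` be a complete discrete valuation ring, `Λ` a free `𝒪`-module of finite rank,
`U ∈ End Λ` with `U² - a U + π = 0` (`π ∈ 𝔪`, `π ≠ 0`) and `det U = unit · π ^ d`.  If `Λ₁ ⊆ Λ` is
a submodule with `U Λ₁ = Λ₁`, then `rank Λ₁ + d ≤ rank Λ` (`finrank_add_le_of_unitRoot`).

[`a ∈ 𝔪`: `Λ₁ ⊆ ⋂ 𝔪^j Λ = 0`.  `a` a unit: Hensel, `X² - a X + π = (X - u)(X - u')`, `u` a unit,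
`u' ∈ 𝔪`; `Λ₁ ⊆ ker (U - u)`, and `det U = u ^ r u' ^ (n - r)`, `r = rank ker (U - u)`.]
-/

set_option autoImplicit false
set_option linter.style.haveILetI false
set_option linter.unusedSectionVars false
set_option linter.unusedVariables false
set_option linter.unusedSimpArgs false
set_option maxHeartbeats 1000000

open IsLocalRing Polynomial Module

namespace Fermat.Agent.S59.NonMin.Geom.Rank.H2

section POrd

variable {𝒪 : Type} [CommRing 𝒪] [IsDomain 𝒪] [IsDiscreteValuationRing 𝒪]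
variable {Λ : Type} [AddCommGroup Λ] [Module 𝒪 Λ] [Module.Free 𝒪 Λ] [Module.Finite 𝒪 Λ]

/-- Krull: an element lying in `𝔪^j Λ` for all `j` is zero. -/
theorem eq_zero_of_forall_mem_pow_smul (v : Λ)
    (h : ∀ j : ℕ, v ∈ (maximalIdeal 𝒪 ^ j) • (⊤ : Submodule 𝒪 Λ)) : v = 0 := by
  have h1 : (⨅ i : ℕ, maximalIdeal 𝒪 ^ i • ⊤ : Submodule 𝒪 Λ) = ⊥ :=
    Ideal.iInf_pow_smul_eq_bot_of_isLocalRing (maximalIdeal 𝒪)
      (Ideal.IsPrime.ne_top inferInstance)
  have h2 : v ∈ (⨅ i : ℕ, maximalIdeal 𝒪 ^ i • ⊤ : Submodule 𝒪 Λ) := by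
    rw [Submodule.mem_iInf]
    exact h
  rw [h1] at h2
  exact (Submodule.mem_bot 𝒪).mp h2

theorem smul_mem_pow_succ_smul {c : 𝒪} (hc : c ∈ maximalIdeal 𝒪) {j : ℕ} {v : Λ}
    (hv : v ∈ (maximalIdeal 𝒪 ^ j) • (⊤ : Submodule 𝒪 Λ)) :
    c • v ∈ (maximalIdeal 𝒪 ^ (j + 1)) • (⊤ : Submodule 𝒪 Λ) := by
  rw [pow_succ', Submodule.mul_smul]
  exact Submodule.smul_mem_smul hc hv

/-- An operator `Z` commuting with `U` and with `U Z = c Z`, `c ∈ 𝔪`, kills every submodule on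
which `U` is onto. -/
theorem apply_eq_zero_of_contracting (U Z : Module.End 𝒪 Λ) (c : 𝒪) (hc : c ∈ maximalIdeal 𝒪)
    (hcomm : ∀ x, Z (U x) = U (Z x)) (hUZ : ∀ x, U (Z x) = c • Z x)
    (Λ₁ : Submodule 𝒪 Λ) (hsurj : ∀ v ∈ Λ₁, ∃ w ∈ Λ₁, U w = v) :
    ∀ v ∈ Λ₁, Z v = 0 := by
  have key : ∀ j : ℕ, ∀ v ∈ Λ₁, Z v ∈ (maximalIdeal 𝒪 ^ j) • (⊤ : Submodule 𝒪 Λ) := by
    intro j
    induction j with
    | zero =>
      intro v _
      rw [pow_zero, Ideal.one_eq_top, Submodule.top_smul]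
      exact Submodule.mem_top
    | succ j ih =>
      intro v hv
      obtain ⟨w, hw, rfl⟩ := hsurj v hv
      rw [hcomm, hUZ]
      exact smul_mem_pow_succ_smul hc (ih w hw)
  intro v hv
  exact eq_zero_of_forall_mem_pow_smul _ (fun j => key j v hv)

/-- If `U² = a U - π` with `a, π ∈ 𝔪`, every submodule on which `U` is onto is zero. -/
theorem eq_zero_of_nilpotent_type (U : Module.End 𝒪 Λ) (a π : 𝒪) (ha : a ∈ maximalIdeal 𝒪)
    (hπ : π ∈ maximalIdeal 𝒪) (hU : ∀ x, U (U x) = a • U x - π • x)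
    (Λ₁ : Submodule 𝒪 Λ) (hsurj : ∀ v ∈ Λ₁, ∃ w ∈ Λ₁, U w = v) :
    ∀ v ∈ Λ₁, v = 0 := by
  have key : ∀ j : ℕ, ∀ v ∈ Λ₁, v ∈ (maximalIdeal 𝒪 ^ j) • (⊤ : Submodule 𝒪 Λ) := by
    intro j
    induction j with
    | zero =>
      intro v _
      rw [pow_zero, Ideal.one_eq_top, Submodule.top_smul]
      exact Submodule.mem_top
    | succ j ih =>
      intro v hv
      obtain ⟨w₁, hw₁, rfl⟩ := hsurj v hv
      obtain ⟨w₂, hw₂, rfl⟩ := hsurj w₁ hw₁
      rw [hU]
      exact Submodule.sub_mem _ (smul_mem_pow_succ_smul ha (ih _ hw₁))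
        (smul_mem_pow_succ_smul hπ (ih _ hw₂))
  intro v hv
  exact eq_zero_of_forall_mem_pow_smul _ (fun j => key j v hv)

/-- `unit · π ^ d = unit · π ^ q` forces `d ≤ q` (indeed `d = q`). -/
theorem le_of_unit_mul_pow_eq {π : 𝒪} (hπ : π ∈ maximalIdeal 𝒪) (hπ0 : π ≠ 0) {d q : ℕ}
    {c c' : 𝒪} (hc : IsUnit c) (hc' : IsUnit c') (h : c * π ^ d = c' * π ^ q) : d ≤ q := by
  by_contra hlt
  have hlt' : q < d := Nat.lt_of_not_le hlt
  obtain ⟨e, rfl⟩ : ∃ e, d = q + (e + 1) := ⟨d - q - 1, by omega⟩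
  have h1 : π ^ q * (c * π ^ (e + 1)) = π ^ q * c' := by
    rw [mul_comm (π ^ q) c', ← h, pow_add]
    ring
  have h2 : c * π ^ (e + 1) = c' := mul_left_cancel₀ (pow_ne_zero q hπ0) h1
  have h3 : IsUnit (π ^ (e + 1)) := by
    have : IsUnit (c * π ^ (e + 1)) := h2 ▸ hc'
    exact (IsUnit.mul_iff.mp this).2
  have h4 : IsUnit π := (isUnit_pow_iff (Nat.succ_ne_zero e)).mp h3
  exact ((mem_maximalIdeal π).mp hπ) h4

/-- `det U` divides `π ^ n` if `U (a - U) = π`. -/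
theorem le_finrank_of_det (U : Module.End 𝒪 Λ) (a π : 𝒪)
    (hπ : π ∈ maximalIdeal 𝒪) (hπ0 : π ≠ 0) (hU : ∀ x, U (U x) = a • U x - π • x)
    (d : ℕ) (u₀ : 𝒪) (hu₀ : IsUnit u₀) (hdet : LinearMap.det U = u₀ * π ^ d) :
    d ≤ finrank 𝒪 Λ := by
  have h1 : U * (a • (1 : Module.End 𝒪 Λ) - U) = π • (1 : Module.End 𝒪 Λ) := by
    refine LinearMap.ext fun x => ?_
    rw [Module.End.mul_apply, LinearMap.sub_apply, LinearMap.smul_apply, Module.End.one_apply,
      map_sub, map_smul, hU, LinearMap.smul_apply, Module.End.one_apply]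
    abel
  have h2 := congrArg LinearMap.det h1
  rw [map_mul, LinearMap.det_smul, map_one, mul_one, hdet] at h2
  -- `u₀ π^d det(a - U) = π^n`
  by_contra hlt
  have hlt' : finrank 𝒪 Λ < d := Nat.lt_of_not_le hlt
  obtain ⟨e, he⟩ : ∃ e, d = finrank 𝒪 Λ + (e + 1) := ⟨d - finrank 𝒪 Λ - 1, by omega⟩
  rw [he, pow_add] at h2
  have h3 : π ^ finrank 𝒪 Λ * (u₀ * π ^ (e + 1) *
      LinearMap.det (a • (1 : Module.End 𝒪 Λ) - U)) = π ^ finrank 𝒪 Λ * 1 := by
    calc π ^ finrank 𝒪 Λ * (u₀ * π ^ (e + 1) *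
          LinearMap.det (a • (1 : Module.End 𝒪 Λ) - U))
        = u₀ * (π ^ finrank 𝒪 Λ * π ^ (e + 1)) *
          LinearMap.det (a • (1 : Module.End 𝒪 Λ) - U) := by ring
      _ = π ^ finrank 𝒪 Λ := h2
      _ = π ^ finrank 𝒪 Λ * 1 := (mul_one _).symm
  have h4 := mul_left_cancel₀ (pow_ne_zero _ hπ0) h3
  have h5 : IsUnit (π ^ (e + 1)) := by
    have h6 : IsUnit (u₀ * π ^ (e + 1) * LinearMap.det (a • (1 : Module.End 𝒪 Λ) - U)) := by
      rw [h4]
      exact isUnit_one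
    exact (IsUnit.mul_iff.mp (IsUnit.mul_iff.mp h6).1).2
  exact ((mem_maximalIdeal π).mp hπ) ((isUnit_pow_iff (Nat.succ_ne_zero e)).mp h5)

/-- The determinant of an operator with `(U - u)(U - u') = 0`: `det U = u ^ r u' ^ q`,
`r = rank ker (U - u)`, `r + q = rank Λ`. -/
theorem det_of_split (U : Module.End 𝒪 Λ) (u u' : 𝒪)
    (hU : ∀ x, U (U x) = (u + u') • U x - (u * u') • x) :
    ∃ q : ℕ, finrank 𝒪 (LinearMap.ker (U - u • (1 : Module.End 𝒪 Λ))) + q = finrank 𝒪 Λ ∧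
      LinearMap.det U =
        u ^ finrank 𝒪 (LinearMap.ker (U - u • (1 : Module.End 𝒪 Λ))) * u' ^ q := by
  set Z : Module.End 𝒪 Λ := U - u • (1 : Module.End 𝒪 Λ) with hZ
  set W : Submodule 𝒪 Λ := LinearMap.ker Z with hW
  have hZx : ∀ x, Z x = U x - u • x := fun x => by
    rw [hZ, LinearMap.sub_apply, LinearMap.smul_apply, Module.End.one_apply]
  have hmemW : ∀ x, x ∈ W ↔ U x = u • x := fun x => by
    rw [hW, LinearMap.mem_ker, hZx, sub_eq_zero]
  haveI : Module.Free 𝒪 (Λ ⧸ W) :=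
    Module.Free.of_equiv (LinearMap.quotKerEquivRange Z).symm
  have he : W ≤ W.comap U := by
    intro x hx
    rw [Submodule.mem_comap, hmemW]
    rw [hmemW] at hx
    rw [hx, map_smul, hx]
  have h1 := LinearMap.det_eq_det_mul_det W U he
  have h2 : U.restrict he = u • (LinearMap.id : W →ₗ[𝒪] W) := by
    refine LinearMap.ext fun x => Subtype.ext ?_
    rw [LinearMap.coe_restrict_apply, LinearMap.smul_apply, LinearMap.id_apply,
      Submodule.coe_smul]
    exact (hmemW x).mp x.2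
  have h3 : W.mapQ W U he = u' • (LinearMap.id : (Λ ⧸ W) →ₗ[𝒪] (Λ ⧸ W)) := by
    refine LinearMap.ext fun y => ?_
    obtain ⟨x, rfl⟩ := Submodule.Quotient.mk_surjective W y
    rw [Submodule.mapQ_apply, LinearMap.smul_apply, LinearMap.id_apply,
      ← Submodule.Quotient.mk_smul, Submodule.Quotient.eq, hmemW, map_sub, map_smul, hU]
    simp only [smul_sub, smul_smul, add_smul]
    abel
  rw [h2, h3, LinearMap.det_smul, LinearMap.det_smul] at h1
  simp only [LinearMap.det_id, mul_one] at h1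
  refine ⟨finrank 𝒪 (Λ ⧸ W), ?_, h1⟩
  rw [add_comm]
  exact Submodule.finrank_quotient_add_finrank W

variable [IsAdicComplete (maximalIdeal 𝒪) 𝒪]

/-- Hensel: the unit root of `X² - a X + π`, `a` a unit, `π ∈ 𝔪`. -/
theorem exists_unit_root (a π : 𝒪) (ha : IsUnit a) (hπ : π ∈ maximalIdeal 𝒪) :
    ∃ u u' : 𝒪, IsUnit u ∧ u' ∈ maximalIdeal 𝒪 ∧ u + u' = a ∧ u * u' = π := by
  have hmonic : (X ^ 2 - C a * X + C π : 𝒪[X]).Monic := by
    have h1 : (X ^ 2 - C a * X + C π : 𝒪[X]) = X ^ 2 + (- C a * X + C π) := by ring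
    rw [h1]
    apply Polynomial.monic_X_pow_add
    refine lt_of_le_of_lt (Polynomial.degree_add_le _ _) ?_
    refine max_lt ?_ ?_
    · rw [neg_mul, Polynomial.degree_neg]
      refine lt_of_le_of_lt (Polynomial.degree_C_mul_X_le a) ?_
      norm_num
    · refine lt_of_le_of_lt Polynomial.degree_C_le ?_
      norm_num
  have heval : (X ^ 2 - C a * X + C π : 𝒪[X]).eval a ∈ maximalIdeal 𝒪 := by
    simp only [eval_add, eval_sub, eval_pow, eval_X, eval_mul, eval_C]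
    have : a ^ 2 - a * a + π = π := by ring
    rw [this]
    exact hπ
  have hder : IsUnit (Ideal.Quotient.mk (maximalIdeal 𝒪)
      ((X ^ 2 - C a * X + C π : 𝒪[X]).derivative.eval a)) := by
    have h1 : (X ^ 2 - C a * X + C π : 𝒪[X]).derivative.eval a = a := by
      simp only [derivative_add, derivative_sub, derivative_X_pow, derivative_mul, derivative_C,
        derivative_X, eval_add, eval_sub, eval_mul, eval_C, eval_X, eval_pow, zero_mul,
        mul_one, zero_add, add_zero, eval_zero, Nat.cast_ofNat, eval_ofNat]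
      ring
    rw [h1]
    exact ha.map _
  obtain ⟨u, hu, hua⟩ := HenselianRing.is_henselian
    (X ^ 2 - C a * X + C π : 𝒪[X]) hmonic a heval hder
  have hu' : u ^ 2 - a * u + π = 0 := by
    have := hu
    rw [Polynomial.IsRoot.def] at this
    simpa only [eval_add, eval_sub, eval_pow, eval_X, eval_mul, eval_C] using this
  have huu : IsUnit u := by
    by_contra hnu
    have h1 : u ∈ maximalIdeal 𝒪 := (mem_maximalIdeal u).mpr hnu
    have h2 : a ∈ maximalIdeal 𝒪 := by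
      have : a = u - (u - a) := by ring
      rw [this]
      exact Ideal.sub_mem _ h1 hua
    exact ((mem_maximalIdeal a).mp h2) ha
  refine ⟨u, a - u, huu, ?_, by ring, ?_⟩
  · have : a - u = -(u - a) := by ring
    rw [this]
    exact neg_mem hua
  · have : u * (a - u) = π - (u ^ 2 - a * u + π) := by ring
    rw [this, hu', sub_zero]

/-- **P-ORD, algebra**: the rank of a submodule on which `U` is onto is at most the multiplicity
of the unit root. -/
theorem finrank_add_le_of_unitRoot (U : Module.End 𝒪 Λ) (a π : 𝒪)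
    (hπ : π ∈ maximalIdeal 𝒪) (hπ0 : π ≠ 0) (hU : ∀ x, U (U x) = a • U x - π • x)
    (d : ℕ) (u₀ : 𝒪) (hu₀ : IsUnit u₀) (hdet : LinearMap.det U = u₀ * π ^ d)
    (Λ₁ : Submodule 𝒪 Λ) (hsurj : ∀ v ∈ Λ₁, ∃ w ∈ Λ₁, U w = v) :
    finrank 𝒪 Λ₁ + d ≤ finrank 𝒪 Λ := by
  by_cases ha : IsUnit a
  · obtain ⟨u, u', hu, hu', hsum, hprod⟩ := exists_unit_root a π ha hπ
    have hU' : ∀ x, U (U x) = (u + u') • U x - (u * u') • x := by
      intro x
      rw [hsum, hprod]
      exact hU x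
    obtain ⟨q, hq, hdet'⟩ := det_of_split U u u' hU'
    -- `Λ₁ ⊆ ker (U - u)`
    have hle : Λ₁ ≤ LinearMap.ker (U - u • (1 : Module.End 𝒪 Λ)) := by
      intro v hv
      rw [LinearMap.mem_ker]
      refine apply_eq_zero_of_contracting U (U - u • (1 : Module.End 𝒪 Λ)) u' hu' ?_ ?_ Λ₁ hsurj
        v hv
      · intro x
        simp only [LinearMap.sub_apply, LinearMap.smul_apply, Module.End.one_apply, map_sub,
          map_smul]
      · intro x
        simp only [LinearMap.sub_apply, LinearMap.smul_apply, Module.End.one_apply, map_sub,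
          map_smul, hU' x, smul_sub, smul_smul, add_smul, mul_comm]
        abel
    have h1 : finrank 𝒪 Λ₁ ≤ finrank 𝒪 (LinearMap.ker (U - u • (1 : Module.End 𝒪 Λ))) :=
      Submodule.finrank_mono hle
    -- `d ≤ q`
    have h2 : d ≤ q := by
      set r := finrank 𝒪 (LinearMap.ker (U - u • (1 : Module.End 𝒪 Λ))) with hr
      have h3 : (u₀ * u ^ q) * π ^ d = u ^ r * π ^ q := by
        have h4 : u₀ * π ^ d = u ^ r * u' ^ q := by rw [← hdet, hdet']
        calc (u₀ * u ^ q) * π ^ d = (u₀ * π ^ d) * u ^ q := by ring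
          _ = u ^ r * u' ^ q * u ^ q := by rw [h4]
          _ = u ^ r * (u * u') ^ q := by ring
          _ = u ^ r * π ^ q := by rw [hprod]
      exact le_of_unit_mul_pow_eq hπ hπ0 (hu₀.mul (hu.pow q)) (hu.pow r) h3
    omega
  · have ha' : a ∈ maximalIdeal 𝒪 := (mem_maximalIdeal a).mpr ha
    have h0 := eq_zero_of_nilpotent_type U a π ha' hπ hU Λ₁ hsurj
    have hbot : Λ₁ = ⊥ := by
      rw [eq_bot_iff]
      intro v hv
      rw [Submodule.mem_bot]
      exact h0 v hv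
    rw [hbot, finrank_bot, zero_add]
    exact le_finrank_of_det U a π hπ hπ0 hU d u₀ hu₀ hdet

end POrd

end Fermat.Agent.S59.NonMin.Geom.Rank.H2
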