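import Mathlib
import Fermat.Agent.S59.NonMin.Geom.Rank.H2_POrd

/-!
# S59 / NMGEOM / RANK, stage 2 (P-RANK), leaf P-ORDALG-R: the algebra (helper2)

`𝒪` a complete discrete valuation ring, `p ∈ 𝔪`, `X` a separated `𝒪`-module, `U ∈ End X`, `P` a
predicate on `X` with `U² ψ - a U ψ + p ψ = 0` for all `ψ` with `P ψ`.  Then there is `u ∈ 𝒪`
(integral over `ℤ` if `a` is) such that every `ψ` which is `Uⁿ ψ'` with `P ψ'` for every `n`
satisfies `U ψ = u ψ`  (`pordalgr_core`).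

[`a ∈ 𝔪`: `u = 0`; `U^(2n) ψ' = α ψ' + β U ψ'` with `α, β ∈ 𝔪ⁿ`, so `ψ ∈ ⋂ 𝔪ⁿ X = 0`.
`a` a unit: Hensel (`exists_unit_root`) gives `u`, `v = a - u ∈ 𝔪`, `u v = p`;
`w := U ψ' - u ψ'` has `U w = v w`, so `U ψ - u ψ = Uⁿ w = vⁿ w ∈ 𝔪ⁿ X`.]
-/

set_option autoImplicit false
set_option linter.style.haveILetI false
set_option linter.unusedSectionVars false
set_option linter.unusedVariables false
set_option linter.unusedSimpArgs false
set_option maxHeartbeats 1000000

open IsLocalRing Polynomial Module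

namespace Fermat.Agent.S59.NonMin.Geom.Rank.H2

section POrdAlg

variable {𝒪 : Type} [CommRing 𝒪]
variable {X : Type} [AddCommGroup X] [Module 𝒪 X]

/-- If `U² x = a U x - π x` with `a, π ∈ I`, then `U^(2n) x = α x + β U x` with `α, β ∈ Iⁿ`. -/
theorem pow_two_mul_apply_of_rel (I : Ideal 𝒪) (U : Module.End 𝒪 X) (a π : 𝒪) (ha : a ∈ I)
    (hπ : π ∈ I) (x : X) (hx : U (U x) - a • U x + π • x = 0) (n : ℕ) :
    ∃ α β : 𝒪, α ∈ I ^ n ∧ β ∈ I ^ n ∧ (U ^ (2 * n)) x = α • x + β • U x := by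
  have hUU : U (U x) = a • U x - π • x := by
    have h := hx
    rw [sub_add, sub_eq_zero] at h
    exact h
  induction n with
  | zero =>
    refine ⟨1, 0, ?_, ?_, ?_⟩
    · simp
    · simp
    · simp
  | succ n ih =>
    obtain ⟨α, β, hα, hβ, h⟩ := ih
    refine ⟨-(α * π) - β * (a * π), α * a + β * (a * a - π), ?_, ?_, ?_⟩
    · rw [pow_succ]
      refine sub_mem (neg_mem (Ideal.mul_mem_mul hα hπ)) (Ideal.mul_mem_mul hβ (I.mul_mem_left a hπ))
    · rw [pow_succ]
      refine add_mem (Ideal.mul_mem_mul hα ha) (Ideal.mul_mem_mul hβ ?_)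
      exact sub_mem (I.mul_mem_left a ha) hπ
    · have e : 2 * (n + 1) = 2 + 2 * n := by ring
      rw [e, pow_add, Module.End.mul_apply, h, pow_two, Module.End.mul_apply, map_add, map_add,
        map_smul, map_smul, map_smul, map_smul, hUU, map_sub, map_smul, map_smul, hUU]
      module

/-- Elements of `Iⁿ • x + Iⁿ • y` lie in `Iⁿ X`. -/
theorem smul_add_smul_mem_pow_smul_top (I : Ideal 𝒪) (n : ℕ) {α β : 𝒪} (hα : α ∈ I ^ n)
    (hβ : β ∈ I ^ n) (x y : X) : α • x + β • y ∈ (I ^ n • ⊤ : Submodule 𝒪 X) :=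
  add_mem (Submodule.smul_mem_smul hα Submodule.mem_top)
    (Submodule.smul_mem_smul hβ Submodule.mem_top)

/-- If `U w = v w` then `Uⁿ w = vⁿ w`. -/
theorem pow_apply_of_eigen (U : Module.End 𝒪 X) (v : 𝒪) (w : X) (hw : U w = v • w) (n : ℕ) :
    (U ^ n) w = v ^ n • w := by
  induction n with
  | zero => simp
  | succ n ih =>
    rw [pow_succ, Module.End.mul_apply, hw, map_smul, ih, smul_smul, pow_succ, mul_comm]

/-- A root of `X² - a X + π` with `a` integral over `ℤ` (and `π` an integer) is integral. -/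
theorem isIntegral_of_quadratic (u a : 𝒪) (p : ℕ) (hu : u * u - a * u + (p : 𝒪) = 0)
    (ha : IsIntegral ℤ a) : IsIntegral ℤ u := by
  let A := integralClosure ℤ 𝒪
  have hp : IsIntegral ℤ (p : 𝒪) := isIntegral_algebraMap (R := ℤ) (x := (p : ℤ)) |> fun h => by
    simpa using h
  let a' : A := ⟨a, ha⟩
  let p' : A := ⟨(p : 𝒪), hp⟩
  have hmonic : (Polynomial.X ^ 2 + (Polynomial.C (-a') * Polynomial.X + Polynomial.C p') :
      A[X]).Monic := by
    apply Polynomial.monic_X_pow_add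
    refine lt_of_le_of_lt (Polynomial.degree_add_le _ _) ?_
    refine max_lt ?_ ?_
    · refine lt_of_le_of_lt (Polynomial.degree_C_mul_X_le (-a')) ?_
      norm_num
    · refine lt_of_le_of_lt Polynomial.degree_C_le ?_
      norm_num
  have hint : IsIntegral A u := by
    refine ⟨_, hmonic, ?_⟩
    rw [← Polynomial.aeval_def]
    simp only [map_add, map_sub, map_mul, map_pow, map_neg, Polynomial.aeval_X,
      Polynomial.aeval_C]
    have e1 : algebraMap A 𝒪 a' = a := rfl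
    have e2 : algebraMap A 𝒪 p' = (p : 𝒪) := rfl
    rw [e1, e2, pow_two]
    rw [← hu]
    ring
  exact isIntegral_trans (R := ℤ) (A := A) u hint

end POrdAlg

section Core

variable (𝒪 : Type) [CommRing 𝒪] [IsDomain 𝒪] [IsDiscreteValuationRing 𝒪]
  [IsAdicComplete (maximalIdeal 𝒪) 𝒪]

/-- **P-ORDALG-R**, the algebra. -/
theorem pordalgr_core (p : ℕ) (hp : (p : 𝒪) ∈ maximalIdeal 𝒪)
    (X : Type) [AddCommGroup X] [Module 𝒪 X]
    (hsep : ∀ ψ : X, (∀ n : ℕ, ψ ∈ (maximalIdeal 𝒪 ^ n • ⊤ : Submodule 𝒪 X)) → ψ = 0)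
    (U : Module.End 𝒪 X) (P : X → Prop) (a : 𝒪)
    (hrel : ∀ ψ : X, P ψ → U (U ψ) - a • U ψ + (p : 𝒪) • ψ = 0) :
    ∃ u : 𝒪, (IsIntegral ℤ a → IsIntegral ℤ u) ∧
      ∀ ψ : X, (∀ n : ℕ, ∃ ψ' : X, P ψ' ∧ (U ^ n) ψ' = ψ) → U ψ = u • ψ := by
  by_cases ha : a ∈ maximalIdeal 𝒪
  · refine ⟨0, fun _ => isIntegral_zero, ?_⟩
    intro ψ hψ
    have h0 : ψ = 0 := by
      apply hsep
      intro n
      obtain ⟨ψ', hP, hψ'⟩ := hψ (2 * n)
      obtain ⟨α, β, hα, hβ, h⟩ :=
        pow_two_mul_apply_of_rel (maximalIdeal 𝒪) U a (p : 𝒪) ha hp ψ' (hrel ψ' hP) n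
      rw [← hψ', h]
      exact smul_add_smul_mem_pow_smul_top _ n hα hβ _ _
    rw [h0, map_zero, smul_zero]
  · have hau : IsUnit a := by
      by_contra h
      exact ha ((IsLocalRing.mem_maximalIdeal a).2 h)
    obtain ⟨u, v, huu, hv, huv, hmul⟩ := exists_unit_root a (p : 𝒪) hau hp
    refine ⟨u, ?_, ?_⟩
    · intro hint
      refine isIntegral_of_quadratic u a p ?_ hint
      rw [← huv, ← hmul]
      ring
    · intro ψ hψ
      have h0 : U ψ - u • ψ = 0 := by
        apply hsep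
        intro n
        obtain ⟨ψ', hP, hψ'⟩ := hψ n
        have hUU : U (U ψ') = a • U ψ' - (p : 𝒪) • ψ' := by
          have h := hrel ψ' hP
          rw [sub_add, sub_eq_zero] at h
          exact h
        have hw : U (U ψ' - u • ψ') = v • (U ψ' - u • ψ') := by
          rw [map_sub, map_smul, hUU, ← huv, ← hmul]
          module
        have hpow := pow_apply_of_eigen U v (U ψ' - u • ψ') hw n
        have e : U ψ - u • ψ = (U ^ n) (U ψ' - u • ψ') := by
          rw [map_sub, map_smul, hψ', ← Module.End.mul_apply, ← pow_succ, pow_succ',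
            Module.End.mul_apply, hψ']
        rw [e, hpow]
        exact Submodule.smul_mem_smul (Ideal.pow_mem_pow hv n) Submodule.mem_top
      exact sub_eq_zero.1 h0

end Core

end Fermat.Agent.S59.NonMin.Geom.Rank.H2
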