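import Fermat.Agent.S59.NonMin.Geom.Rank.DefsP
import Fermat.Agent.S59.NonMin.Geom.Rank.H2_POrdAlgCore

/-!
# S59 / NMGEOM / RANK, stage 2 (P-RANK), leaves P-ORDALG-R and P-ORDALG (helper2)

`stmt_PORDALGR : Stmt_PORDALGR`, `stmt_PORDALG : Stmt_PORDALG`; the algebra is in
`H2_POrdAlgCore.lean` (`pordalgr_core`).
-/

set_option autoImplicit false
set_option linter.style.haveILetI false
set_option linter.unusedSectionVars false
set_option linter.unusedVariables false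

namespace Fermat.Agent.S59.NonMin.Geom.Rank.H2

/-- **P-ORDALG-R**. -/
theorem stmt_PORDALGR : Fermat.Agent.S59.NonMin.Geom.Rank.Stmt_PORDALGR := by
  intro 𝒪 _ _ _ _ p hp X _ _ hsep U P a hrel
  exact pordalgr_core 𝒪 p hp X hsep U P a hrel

/-- **P-ORDALG**. -/
theorem stmt_PORDALG : Fermat.Agent.S59.NonMin.Geom.Rank.Stmt_PORDALG := by
  intro 𝒪 _ _ _ _ p hp Λ _ _ hsep U a hrel
  obtain ⟨u, hu, h⟩ :=
    pordalgr_core 𝒪 p hp Λ hsep U (fun _ => True) a (fun ψ _ => hrel ψ)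
  refine ⟨u, hu, fun ψ hψ => h ψ (fun n => ?_)⟩
  obtain ⟨ψ', h'⟩ := hψ n
  exact ⟨ψ', trivial, h'⟩

end Fermat.Agent.S59.NonMin.Geom.Rank.H2
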