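import Fermat.Agent.S59.NonMin.Geom.Rank.Defs
import Fermat.Agent.S59.H61_Stab
import Fermat.Agent.S49.QCoeff

/-!
# S59 / NMGEOM / RANK, leaf CLAIM (helper38)

`claim_of : Stmt_CLAIM_of` (`= Stmt_DEPL → Stmt_MAIN → Stmt_MAINb → Stmt_CLAIM`): an eigenvector of
the `T_ℓ` (`ℓ ∉ S`) whose coefficients `a_n` vanish for all `n` prime to the primes of `P` is zero,
if every `r ∈ P` divides the level at most once and, when it does, `NoLow S a r` holds.

Induction on `P`.  For `r ∈ P`: the depletion of `f` at `r` (at the level `L r²`) is again an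
eigenvector, it vanishes by induction, so `f` is supported on the multiples of `r`; then
`Stmt_MAINb` (`r ∤ L`) resp. `Stmt_MAIN` and `NoLow` (`r ∣ L`).
-/

set_option autoImplicit false

open CuspForm CongruenceSubgroup ModularFormClass

namespace Fermat.Agent.S59.NonMin.Geom.Rank.H38

open Fermat.Agent.S59.H61

/-- The coefficient identity of an eigenvector of `T_ℓ`. -/
theorem anemic_coeff {L : ℕ} {S : Set ℕ} {a : ℕ → ℂ} {f : CuspForm (Gamma0 L) 2}
    (hf : IsAnemic L S a f) {ℓ : ℕ} (hℓ : ℓ.Prime) (hℓL : ¬ ℓ ∣ L) (hℓS : ℓ ∉ S) (n : ℕ) :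
    qCoeff ⇑f (n * ℓ) + (if ℓ ∣ n then (ℓ : ℂ) * qCoeff ⇑f (n / ℓ) else 0) =
      a ℓ * qCoeff ⇑f n := by
  have h : qCoeff ⇑(CuspForm.heckeTLin 2 hℓ hℓL f) n = qCoeff ⇑(a ℓ • f) n := by
    rw [hf ℓ hℓ hℓL hℓS]
  rw [Fermat.Agent.S49.qCoeff_heckeTLin, Fermat.Agent.S49.qCoeff_smul] at h
  have h2 : ((ℓ : ℂ)) ^ ((2 : ℤ) - 1) = (ℓ : ℂ) := by norm_num
  rw [h2] at h
  exact h

/-- A cusp form whose coefficients satisfy the identities of the `T_ℓ` is an eigenvector. -/
theorem isAnemic_of_coeff {L : ℕ} {S : Set ℕ} {a : ℕ → ℂ} {g : CuspForm (Gamma0 L) 2}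
    (h : ∀ ℓ : ℕ, ℓ.Prime → ¬ ℓ ∣ L → ℓ ∉ S → ∀ n : ℕ,
      qCoeff ⇑g (n * ℓ) + (if ℓ ∣ n then (ℓ : ℂ) * qCoeff ⇑g (n / ℓ) else 0) =
        a ℓ * qCoeff ⇑g n) :
    IsAnemic L S a g := by
  intro ℓ hℓ hℓL hℓS
  apply Fermat.Agent.S49.cuspForm_ext_qCoeff
  intro n
  rw [Fermat.Agent.S49.qCoeff_heckeTLin, Fermat.Agent.S49.qCoeff_smul]
  have h2 : ((ℓ : ℂ)) ^ ((2 : ℤ) - 1) = (ℓ : ℂ) := by norm_num
  rw [h2]
  exact h ℓ hℓ hℓL hℓS n

/-- **CLAIM** from DEPL, MAIN, MAINb. -/
theorem claim_of : Stmt_CLAIM_of := by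
  intro hDEPL hMAIN hMAINb S a P
  induction P using Finset.induction_on with
  | empty =>
    intro _ L _ _ _ _ f _ hcoef
    exact Fermat.Agent.S49.cuspForm_eq_zero_of_qCoeff
      (fun n => hcoef n (fun r hr => absurd hr (Finset.notMem_empty r)))
  | insert r P' hrP' ih =>
    intro hP L _ hLS hsq hNoLow f hf hcoef
    obtain ⟨hr, hrS⟩ := hP r (Finset.mem_insert_self r P')
    have hP' : ∀ r' ∈ P', r'.Prime ∧ r' ∈ S :=
      fun r' hr' => hP r' (Finset.mem_insert_of_mem hr')
    have hne : ∀ r' ∈ P', r' ≠ r := by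
      rintro r' hr' rfl
      exact hrP' hr'
    -- a prime `r' ≠ r` dividing `L r²` divides `L`
    have hdvdL : ∀ r' : ℕ, r'.Prime → r' ≠ r → ∀ m : ℕ, r' ^ m ∣ L * r ^ 2 → r' ^ m ∣ L := by
      intro r' hr' hr'r m hm
      have hcop : Nat.Coprime (r' ^ m) (r ^ 2) :=
        Nat.Coprime.pow m 2 ((Nat.coprime_primes hr' hr).2 hr'r)
      exact hcop.dvd_of_dvd_mul_right hm
    have : NeZero (L * r ^ 2) := ⟨mul_ne_zero (NeZero.ne L) (pow_ne_zero 2 hr.ne_zero)⟩
    -- the depletion of `f` at `r`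
    obtain ⟨g, hg⟩ := hDEPL (L * r ^ 2) r hr (dvd_mul_left (r ^ 2) L)
      (restrictCusp (Gamma0_mul_le_GL L (r ^ 2)) f)
    rw [coe_restrictCusp] at hg
    have hgan : IsAnemic (L * r ^ 2) S a g := by
      apply isAnemic_of_coeff
      intro ℓ hℓ hℓL hℓS n
      have hℓL' : ¬ ℓ ∣ L := fun h => hℓL (dvd_mul_of_dvd_left h _)
      have hℓr : ℓ ≠ r := by
        rintro rfl
        exact hℓS hrS
      have hstar := anemic_coeff hf hℓ hℓL' hℓS n
      have hrℓ : ¬ r ∣ ℓ := fun h => hℓr ((Nat.prime_dvd_prime_iff_eq hr hℓ).1 h).symm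
      have h1 : r ∣ n * ℓ ↔ r ∣ n := by
        constructor
        · intro h
          exact (hr.dvd_mul.1 h).resolve_right hrℓ
        · intro h
          exact dvd_mul_of_dvd_left h ℓ
      by_cases hrn : r ∣ n
      · rw [hg, hg n, if_pos (h1.2 hrn), if_pos hrn, mul_zero, zero_add]
        split_ifs with hℓn
        · have h2 : r ∣ n / ℓ := by
            obtain ⟨k, hk⟩ := hℓn
            rw [hk, Nat.mul_div_cancel_left k hℓ.pos]
            rw [hk] at hrn
            exact (hr.dvd_mul.1 hrn).resolve_left hrℓ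
          rw [hg, if_pos h2, mul_zero]
        · rfl
      · rw [hg, hg n, if_neg (fun h => hrn (h1.1 h)), if_neg hrn, ← hstar]
        congr 1
        split_ifs with hℓn
        · have h2 : ¬ r ∣ n / ℓ := fun h => hrn (h.trans (Nat.div_dvd_of_dvd hℓn))
          rw [hg, if_neg h2]
        · rfl
    have hg0 : g = 0 := by
      refine ih hP' (L * r ^ 2) ?_ ?_ ?_ g hgan ?_
      · intro s hs hsL
        rcases (hs.dvd_mul.1 hsL) with h | h
        · exact hLS s hs h
        · have := (Nat.prime_dvd_prime_iff_eq hs hr).1 (hs.dvd_of_dvd_pow h)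
          rw [this]
          exact hrS
      · intro r' hr' h
        exact hsq r' (Finset.mem_insert_of_mem hr')
          (hdvdL r' (hP' r' hr').1 (hne r' hr') 2 h)
      · intro r' hr' h
        refine hNoLow r' (Finset.mem_insert_of_mem hr') ?_
        have := hdvdL r' (hP' r' hr').1 (hne r' hr') 1 (by rwa [pow_one])
        rwa [pow_one] at this
      · intro n hn
        rw [hg]
        split_ifs with hrn
        · rfl
        · refine hcoef n fun r' hr' => ?_
          rcases Finset.mem_insert.1 hr' with h | h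
          · rw [h]
            exact hrn
          · exact hn r' h
    -- `f` is supported on the multiples of `r`
    have hsupp : ∀ n : ℕ, ¬ r ∣ n → qCoeff ⇑f n = 0 := by
      intro n hn
      have := hg n
      rw [if_neg hn, hg0, Fermat.Agent.S49.qCoeff_zero_form] at this
      exact this.symm
    by_cases hrL : r ∣ L
    · obtain ⟨G, hG⟩ := hMAIN L r hr f hsupp
      have hgcd : Nat.gcd L r = r := Nat.gcd_eq_right hrL
      have hL' : L / Nat.gcd L r * r = L := by
        rw [hgcd]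
        exact Nat.div_mul_cancel hrL
      have : NeZero (L / Nat.gcd L r) := ⟨fun h0 => NeZero.ne L (by rw [← hL', h0, zero_mul])⟩
      have hrL' : ¬ r ∣ L / Nat.gcd L r := by
        intro h
        apply hsq r (Finset.mem_insert_self r P')
        rw [pow_two, ← hL']
        exact Nat.mul_dvd_mul h (dvd_refl r)
      have hGan : IsAnemic (L / Nat.gcd L r) S a G := by
        apply isAnemic_of_coeff
        intro ℓ hℓ hℓL hℓS n
        have hℓr : ℓ ≠ r := by
          rintro rfl
          exact hℓS hrS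
        have hℓr' : ¬ ℓ ∣ r := fun h => hℓr ((Nat.prime_dvd_prime_iff_eq hℓ hr).1 h)
        have hℓL' : ¬ ℓ ∣ L := by
          intro h
          rw [← hL'] at h
          rcases hℓ.dvd_mul.1 h with h | h
          · exact hℓL h
          · exact hℓr' h
        have hstar := anemic_coeff hf hℓ hℓL' hℓS (r * n)
        rw [hG, hG n, ← hstar, mul_assoc]
        congr 1
        have h1 : ℓ ∣ r * n ↔ ℓ ∣ n := by
          constructor
          · intro h
            exact (hℓ.dvd_mul.1 h).resolve_left hℓr'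
          · intro h
            exact dvd_mul_of_dvd_right h r
        by_cases hℓn : ℓ ∣ n
        · rw [if_pos hℓn, if_pos (h1.2 hℓn), hG, Nat.mul_div_assoc r hℓn]
        · rw [if_neg hℓn, if_neg (fun h => hℓn (h1.1 h))]
      have hG0 : G = 0 := by
        refine hNoLow r (Finset.mem_insert_self r P') hrL (L / Nat.gcd L r) hrL' ?_ G hGan
        intro s hs hsL
        refine hLS s hs ?_
        rw [← hL']
        exact dvd_mul_of_dvd_left hsL r
      apply Fermat.Agent.S49.cuspForm_eq_zero_of_qCoeff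
      intro n
      by_cases hrn : r ∣ n
      · obtain ⟨m, rfl⟩ := hrn
        rw [← hG m, hG0, Fermat.Agent.S49.qCoeff_zero_form]
      · exact hsupp n hrn
    · exact hMAINb L r hr hrL f hsupp

end Fermat.Agent.S59.NonMin.Geom.Rank.H38
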