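import Fermat.Agent.S59.NonMin.Geom.Rank.Defs
import Fermat.Agent.S59.H61_Stab

/-!
# S59 / NMGEOM / RANK, leaf COEF (helper38)

`stmt_COEF : Stmt_COEF`: for `f ∈ EC N S Sig χ` with `a₁(f) = 0`, `a_n(f) = 0` for every `n` all of
whose prime factors in `S` lie in `Sig`.  Strong induction on `n`, with the coefficient formulas of
`T_ℓ` and `U_r`.
-/

set_option autoImplicit false

open CuspForm CongruenceSubgroup ModularFormClass

namespace Fermat.Agent.S59.NonMin.Geom.Rank.H38

open Fermat.Agent.S59.H61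

/-- The coefficients of the zero cusp form vanish. -/
theorem qCoeff_zero_cusp (N : ℕ) (n : ℕ) :
    qCoeff ⇑(0 : CuspForm (Gamma0 N) 2) n = 0 := by
  have h := qCoeff_cusp_smul (0 : ℂ) (0 : CuspForm (Gamma0 N) 2) n
  rw [zero_smul, zero_mul] at h
  exact h

/-- The coefficient formula of `U_r` on a cusp form killed by `U_r`. -/
theorem qCoeff_mul_of_heckeU_eq_zero {N : ℕ} [NeZero N] {r : ℕ} (hr : r.Prime) (hrN : r ∣ N)
    (f : CuspForm (Gamma0 N) 2) (hU : CuspForm.heckeULin 2 hrN f = 0) (m : ℕ) :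
    qCoeff ⇑f (m * r) = 0 := by
  have h := ModularFormClass.qCoeff_heckeU (k := 2) f (hper N) hr.ne_zero m
  rw [ModularForm.coeffHeckeU_apply, ← CuspForm.coe_heckeULin_apply 2 hrN f, hU,
    qCoeff_zero_cusp] at h
  exact h.symm

/-- The coefficient formula of `T_ℓ` on an eigenvector. -/
theorem qCoeff_mul_of_heckeT_eq_smul {N : ℕ} {ℓ : ℕ} (hℓ : ℓ.Prime) (hℓN : ¬ ℓ ∣ N)
    (f : CuspForm (Gamma0 N) 2) (c : ℂ) (hT : CuspForm.heckeTLin 2 hℓ hℓN f = c • f) (m : ℕ) :
    qCoeff ⇑f (m * ℓ) =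
      c * qCoeff ⇑f m - (if ℓ ∣ m then (ℓ : ℂ) * qCoeff ⇑f (m / ℓ) else 0) := by
  have h := ModularFormClass.qCoeff_heckeT (k := 2) f (hper N) hℓ.ne_zero m
  rw [ModularForm.coeffHeckeT_apply, ← CuspForm.coe_heckeTLin_apply 2 hℓ hℓN f, hT,
    qCoeff_cusp_smul] at h
  have h2 : ((ℓ : ℂ)) ^ ((2 : ℤ) - 1) = (ℓ : ℂ) := by norm_num
  rw [h2] at h
  rw [h]
  ring

/-- **COEF**. -/
theorem stmt_COEF : Stmt_COEF := by
  intro N _ S Sig χ hS hSig f hf h1 n
  induction n using Nat.strong_induction_on with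
  | _ n ih =>
    intro hn
    rcases Nat.lt_or_ge n 2 with h2 | h2
    · interval_cases n
      · exact CuspFormClass.qExpansion_coeff_zero f one_pos (hper N)
      · exact h1
    · obtain ⟨s, hs, hsn⟩ := Nat.exists_prime_and_dvd (show n ≠ 1 by omega)
      obtain ⟨m, rfl⟩ := hsn
      have hm0 : m ≠ 0 := by
        rintro rfl
        omega
      have hmlt : m < s * m := by
        have := hs.two_le
        nlinarith [Nat.pos_of_ne_zero hm0]
      have hmcond : ∀ t : ℕ, t.Prime → t ∣ m → t ∈ S → t ∈ Sig :=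
        fun t ht htm => hn t ht (dvd_mul_of_dvd_right htm s)
      have hm := ih m hmlt hmcond
      rw [mul_comm]
      by_cases hsS : s ∈ S
      · have hsSig := hn s hs (dvd_mul_right s m) hsS
        exact qCoeff_mul_of_heckeU_eq_zero hs (hSig s hsSig) f (hf.2 s hsSig (hSig s hsSig)) m
      · have hsN : ¬ s ∣ N := fun h => hsS (hS s hs h)
        rw [qCoeff_mul_of_heckeT_eq_smul hs hsN f _ (hf.1 s hs hsN hsS) m, hm, mul_zero]
        split_ifs with hsm
        · have hlt : m / s < s * m := lt_of_le_of_lt (Nat.div_le_self m s) hmlt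
          have hcond : ∀ t : ℕ, t.Prime → t ∣ m / s → t ∈ S → t ∈ Sig :=
            fun t ht htm => hmcond t ht (htm.trans (Nat.div_dvd_of_dvd hsm))
          rw [ih (m / s) hlt hcond, mul_zero, sub_zero]
        · rw [sub_zero]

end Fermat.Agent.S59.NonMin.Geom.Rank.H38
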