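import Fermat.Agent.S59.NonMin.Geom.Rank.DefsP
import Fermat.Agent.S59.NonMin.Geom.Rank.H38_Claim

/-!
# S59 / case C / P-RANK, leaf P-STRUCT (helper38)

`pstruct_of : Stmt_PSTRUCT_of`
(`= Stmt_CLAIM → Stmt_COEF → Stmt_NOLOW → Stmt_DEPL → Stmt_MAIN → Stmt_PSTRUCT`):
a form `f` of `E' = EC (N p)` with `a₁(f) = 0` is supported on the multiples of `p`, and
`f = V_p G` with `G ∈ EC N`.

Reusable: `isAnemic_depl` (the depletion of an eigenvector is an eigenvector),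
`isAnemic_main` (`G` with `a_n(G) = a_{rn}(f)` is an eigenvector), `geomHyp_*` (bookkeeping).
-/

set_option autoImplicit false

open CuspForm CongruenceSubgroup ModularFormClass IsLocalRing

namespace Fermat.Agent.S59.NonMin.Geom.Rank.H38

open Fermat.Agent.S59 Fermat.Agent.S59.H61 Fermat.Agent.S59.Asm

/-- The depletion at `r ∈ S` of an eigenvector (at any higher level) is an eigenvector. -/
theorem isAnemic_depl {L L2 : ℕ} {S : Set ℕ} {a : ℕ → ℂ} {f : CuspForm (Gamma0 L) 2}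
    (hf : IsAnemic L S a f) (hLL2 : L ∣ L2) {r : ℕ} (hr : r.Prime) (hrS : r ∈ S)
    (g : CuspForm (Gamma0 L2) 2)
    (hg : ∀ n : ℕ, qCoeff ⇑g n = if r ∣ n then 0 else qCoeff ⇑f n) : IsAnemic L2 S a g := by
  apply isAnemic_of_coeff
  intro ℓ hℓ hℓL hℓS n
  have hℓL' : ¬ ℓ ∣ L := fun h => hℓL (h.trans hLL2)
  have hℓr : ℓ ≠ r := by
    rintro rfl
    exact hℓS hrS
  have hstar := anemic_coeff hf hℓ hℓL' hℓS n
  have hrℓ : ¬ r ∣ ℓ := fun h => hℓr ((Nat.prime_dvd_prime_iff_eq hr hℓ).1 h).symm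
  have h1 : r ∣ n * ℓ ↔ r ∣ n := by
    constructor
    · intro h
      exact (hr.dvd_mul.1 h).resolve_right hrℓ
    · intro h
      exact dvd_mul_of_dvd_left h ℓ
  by_cases hrn : r ∣ n
  · rw [hg, hg n, if_pos (h1.2 hrn), if_pos hrn, mul_zero, zero_add]
    split_ifs with hℓn
    · have h2 : r ∣ n / ℓ := by
        obtain ⟨k, hk⟩ := hℓn
        rw [hk, Nat.mul_div_cancel_left k hℓ.pos]
        rw [hk] at hrn
        exact (hr.dvd_mul.1 hrn).resolve_left hrℓ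
      rw [hg, if_pos h2, mul_zero]
    · rfl
  · rw [hg, hg n, if_neg (fun h => hrn (h1.1 h)), if_neg hrn, ← hstar]
    congr 1
    split_ifs with hℓn
    · have h2 : ¬ r ∣ n / ℓ := fun h => hrn (h.trans (Nat.div_dvd_of_dvd hℓn))
      rw [hg, if_neg h2]
    · rfl

/-- A form `G` with `a_n(G) = a_{rn}(f)`, `f` an eigenvector, `r ∈ S`, is an eigenvector. -/
theorem isAnemic_main {L L' : ℕ} {S : Set ℕ} {a : ℕ → ℂ} {f : CuspForm (Gamma0 L) 2}
    (hf : IsAnemic L S a f) {r : ℕ} (hr : r.Prime) (hrS : r ∈ S)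
    (hLL' : ∀ ℓ : ℕ, ℓ.Prime → ℓ ∣ L → ℓ ∣ L' ∨ ℓ = r)
    (G : CuspForm (Gamma0 L') 2) (hG : ∀ n : ℕ, qCoeff ⇑G n = qCoeff ⇑f (r * n)) :
    IsAnemic L' S a G := by
  apply isAnemic_of_coeff
  intro ℓ hℓ hℓL hℓS n
  have hℓr : ℓ ≠ r := by
    rintro rfl
    exact hℓS hrS
  have hℓr' : ¬ ℓ ∣ r := fun h => hℓr ((Nat.prime_dvd_prime_iff_eq hℓ hr).1 h)
  have hℓL' : ¬ ℓ ∣ L := by
    intro h
    rcases hLL' ℓ hℓ h with h | h
    · exact hℓL h
    · exact hℓr h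
  have hstar := anemic_coeff hf hℓ hℓL' hℓS (r * n)
  rw [hG, hG n, ← hstar, mul_assoc]
  congr 1
  have h1 : ℓ ∣ r * n ↔ ℓ ∣ n := by
    constructor
    · intro h
      exact (hℓ.dvd_mul.1 h).resolve_left hℓr'
    · intro h
      exact dvd_mul_of_dvd_right h r
  by_cases hℓn : ℓ ∣ n
  · rw [if_pos hℓn, if_pos (h1.2 hℓn), hG, Nat.mul_div_assoc r hℓn]
  · rw [if_neg hℓn, if_neg (fun h => hℓn (h1.1 h))]

section GeomHyp

variable {p : ℕ} {Smin : Finset ℕ} {N₀ : ℕ} {Sig : Finset ℕ} {N : ℕ} {S : Finset ℕ}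

/-- The primes of `N` lie in `S`. -/
theorem geomHyp_prime_mem (hG : GeomHyp p Smin N₀ Sig N S) {s : ℕ} (hs : s.Prime)
    (hsN : s ∣ N) : s ∈ S := by
  rw [hG.hS, Finset.mem_union]
  rw [hG.hN] at hsN
  rcases hs.dvd_mul.1 hsN with h | h
  · exact Or.inl (hG.hN₀S s hs h)
  · obtain ⟨r, hr, hsr⟩ := (Prime.dvd_finsetProd_iff (Nat.Prime.prime hs) _).1 h
    have := (Nat.prime_dvd_prime_iff_eq hs (hG.hSig r hr).1).1 (hs.dvd_of_dvd_pow hsr)
    rw [this]
    exact Or.inr hr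

/-- The elements of `Sig` divide `N`. -/
theorem geomHyp_sig_dvd (hG : GeomHyp p Smin N₀ Sig N S) {r : ℕ} (hr : r ∈ Sig) : r ∣ N := by
  rw [hG.hN]
  exact dvd_mul_of_dvd_right
    ((dvd_pow_self r two_ne_zero).trans (Finset.dvd_prod_of_mem (fun r => r ^ 2) hr)) _

/-- The primes of `Smin` divide `N` at most once. -/
theorem geomHyp_not_sq_dvd (hG : GeomHyp p Smin N₀ Sig N S) {r : ℕ} (hr : r.Prime)
    (hrS : r ∈ Smin) : ¬ r ^ 2 ∣ N := by
  intro h
  rw [hG.hN] at h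
  have hcop : Nat.Coprime (r ^ 2) (∏ r' ∈ Sig, r' ^ 2) := by
    apply Nat.Coprime.prod_right
    intro r' hr'
    apply Nat.Coprime.pow
    rw [Nat.coprime_primes hr (hG.hSig r' hr').1]
    rintro rfl
    exact (hG.hSig r hr').2.2 hrS
  have h2 : r ^ 2 ∣ N₀ := hcop.dvd_of_dvd_mul_right h
  rw [pow_two] at h2
  exact hr.not_isUnit (hG.hN₀ r h2)

end GeomHyp

/-- **P-STRUCT** from CLAIM, COEF, NOLOW, DEPL, MAIN. -/
theorem pstruct_of : Stmt_PSTRUCT_of := by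
  intro hCLAIM hCOEF hNOLOW hDEPL hMAIN 𝒪 _ _ _ _ _ _ p _ ρbar Smin N₀ Sig N _ _ S θ x χ rest
    hP f hf h1
  have hp : p.Prime := Fact.out
  have hpS : p ∈ S := by
    rw [hP.hG.hS, Finset.mem_union]
    exact Or.inl hP.hRes.hpSmin
  have hSminS : Smin ⊆ S := by
    rw [hP.hG.hS]
    exact Finset.subset_union_left
  have hNS : ∀ s : ℕ, s.Prime → s ∣ N → s ∈ (↑S : Set ℕ) :=
    fun s hs hsN => geomHyp_prime_mem hP.hG hs hsN
  have hNpS : ∀ s : ℕ, s.Prime → s ∣ N * p → s ∈ (↑S : Set ℕ) := by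
    intro s hs hsN
    rcases hs.dvd_mul.1 hsN with h | h
    · exact hNS s hs h
    · rw [(Nat.prime_dvd_prime_iff_eq hs hp).1 h]
      exact hpS
  -- `f` is an eigenvector with the eigenvalues of `χ`
  have hfan : IsAnemic (N * p) (↑S : Set ℕ) (eigVal χ) f := by
    intro ℓ hℓ hℓL hℓS
    have hℓN : ¬ ℓ ∣ N := fun h => hℓL (dvd_mul_of_dvd_left h p)
    rw [hf.1 ℓ hℓ hℓL hℓS, RingHom.comp_apply, hP.hrest ℓ hℓ hℓL hℓS hℓN,
      eigVal_eq χ hℓ hℓN hℓS]
  -- COEF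
  have hcoef := hCOEF (N * p) (↑S : Set ℕ) Sig (χ.comp rest) hNpS
    (fun r hr => dvd_mul_of_dvd_left (geomHyp_sig_dvd hP.hG hr) p) f hf h1
  -- the depletion at `p`, at the level `N p²`
  have : NeZero (N * p * p) := ⟨mul_ne_zero (NeZero.ne (N * p)) hp.ne_zero⟩
  have hpp : p ^ 2 ∣ N * p * p := by
    rw [pow_two, mul_assoc]
    exact dvd_mul_left _ _
  obtain ⟨g, hg⟩ := hDEPL (N * p * p) p hp hpp (restrictCusp (Gamma0_mul_le_GL (N * p) p) f)
  rw [coe_restrictCusp] at hg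
  have hgan : IsAnemic (N * p * p) (↑S : Set ℕ) (eigVal χ) g :=
    isAnemic_depl hfan (dvd_mul_right (N * p) p) hp hpS g hg
  have hg0 : g = 0 := by
    refine hCLAIM (↑S : Set ℕ) (eigVal χ) (Smin.erase p) ?_ (N * p * p) ?_ ?_ ?_ g hgan ?_
    · intro r hr
      have hr' := Finset.mem_of_mem_erase hr
      exact ⟨hP.hRes.hS r hr', hSminS hr'⟩
    · intro s hs hsL
      rcases hs.dvd_mul.1 hsL with h | h
      · exact hNpS s hs h
      · rw [(Nat.prime_dvd_prime_iff_eq hs hp).1 h]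
        exact hpS
    · intro r hr h
      have hr' := Finset.mem_of_mem_erase hr
      have hrp : r ≠ p := Finset.ne_of_mem_erase hr
      have hrpr := hP.hRes.hS r hr'
      have hcop : Nat.Coprime (r ^ 2) (p * p) :=
        Nat.Coprime.mul_right
          (Nat.Coprime.pow_left 2 ((Nat.coprime_primes hrpr hp).2 hrp))
          (Nat.Coprime.pow_left 2 ((Nat.coprime_primes hrpr hp).2 hrp))
      rw [mul_assoc] at h
      exact geomHyp_not_sq_dvd hP.hG hrpr hr' (hcop.dvd_of_dvd_mul_right h)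
    · intro r hr _
      have hr' := Finset.mem_of_mem_erase hr
      have hrp : r ≠ p := Finset.ne_of_mem_erase hr
      exact hNOLOW 𝒪 p hP.hp2 hP.hp𝒪 ρbar Smin hP.hRes N S hSminS hNS θ hP.hFrob x hP.hx χ
        hP.hχ r hr' (fun h => absurd h hrp)
    · intro n hn
      rw [hg]
      split_ifs with hpn
      · rfl
      · apply hcoef n
        intro s hs hsn hsS
        have hsS' : s ∈ S := hsS
        rw [hP.hG.hS, Finset.mem_union] at hsS'
        rcases hsS' with h | h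
        · exfalso
          by_cases hsp : s = p
          · rw [hsp] at hsn
            exact hpn hsn
          · exact hn s (Finset.mem_erase.2 ⟨hsp, h⟩) hsn
        · exact h
  -- `f` is supported on the multiples of `p`
  have hsupp : ∀ n : ℕ, ¬ p ∣ n → qCoeff ⇑f n = 0 := by
    intro n hn
    have := hg n
    rw [if_neg hn, hg0, Fermat.Agent.S49.qCoeff_zero_form] at this
    exact this.symm
  refine ⟨hsupp, ?_⟩
  -- MAIN
  have hN' : N * p / Nat.gcd (N * p) p = N := by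
    rw [Nat.gcd_eq_right (dvd_mul_left p N)]
    exact Nat.mul_div_cancel N hp.pos
  have hex : ∃ G : CuspForm (Gamma0 N) 2, ∀ n : ℕ, qCoeff ⇑G n = qCoeff ⇑f (p * n) := by
    obtain ⟨G, hG⟩ := hMAIN (N * p) p hp f hsupp
    revert G
    rw [hN']
    intro G hG
    exact ⟨G, hG⟩
  obtain ⟨G, hG⟩ := hex
  refine ⟨G, ⟨?_, ?_⟩, hG⟩
  · have hGan : IsAnemic N (↑S : Set ℕ) (eigVal χ) G := by
      refine isAnemic_main hfan hp hpS ?_ G hG
      intro ℓ hℓ hℓL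
      rcases hℓ.dvd_mul.1 hℓL with h | h
      · exact Or.inl h
      · exact Or.inr ((Nat.prime_dvd_prime_iff_eq hℓ hp).1 h)
    intro ℓ hℓ hℓN hℓS
    rw [hGan ℓ hℓ hℓN hℓS, eigVal_eq χ hℓ hℓN hℓS]
  · intro r hr hrN
    apply Fermat.Agent.S49.cuspForm_eq_zero_of_qCoeff
    intro n
    rw [Fermat.Agent.S49.qCoeff_heckeULin (hP.hG.hSig r hr).1.ne_zero hrN G n, hG]
    have hU := hf.2 r hr (dvd_mul_of_dvd_left hrN p)
    have h2 := Fermat.Agent.S49.qCoeff_heckeULin (hP.hG.hSig r hr).1.ne_zero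
      (dvd_mul_of_dvd_left hrN p) f (p * n)
    rw [hU, Fermat.Agent.S49.qCoeff_zero_form] at h2
    rw [← mul_assoc]
    exact h2.symm

end Fermat.Agent.S59.NonMin.Geom.Rank.H38
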