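import Fermat.Agent.S59.NonMin.Geom.Rank.H56_MainCore
import Fermat.Agent.S49.QCoeff
import Fermat.Agent.S23.H77_Assembly

/-!
# RANK leaf MAINb (helper56)

If `r ∤ L` is a prime and `f ∈ S₂(Γ₀(L))` has `q`-expansion supported on the multiples of `r`,
then `f = 0`.

Proof: on the space `W` of such forms, `V g = r⁻¹ (T_r g - U_r g)` (with `U_r g` of level `L` by
MAIN) is an injective endomorphism with `a_{rn}(V g) = a_n(g)`; by finite dimensionality it is
surjective, so every element of `W` lies in the image of every `V ^ k`, hence vanishes.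
-/

set_option autoImplicit false

open UpperHalfPlane ModularForm CongruenceSubgroup ModularFormClass Matrix.SpecialLinearGroup
open scoped MatrixGroups ModularForm

noncomputable section

namespace Fermat.Agent.S59.NonMin.Geom.Rank.H56

open Fermat.Agent.S49 (qCoeff_add qCoeff_smul qCoeff_sub qCoeff_zero_form qCoeff_at_zero
  cuspForm_eq_zero_of_qCoeff cuspForm_ext_qCoeff qCoeff_heckeTLin)

/-- The space of cusp forms whose `q`-expansion is supported on the multiples of `r`. -/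
def suppSub (L r : ℕ) : Submodule ℂ (CuspForm (Gamma0 L) 2) where
  carrier := {g | ∀ n : ℕ, ¬ r ∣ n → qCoeff g n = 0}
  add_mem' := by
    intro a b ha hb n hn
    rw [qCoeff_add, ha n hn, hb n hn, add_zero]
  zero_mem' := fun n _ => qCoeff_zero_form n
  smul_mem' := by
    intro c a ha n hn
    rw [qCoeff_smul, ha n hn, mul_zero]

theorem mem_suppSub {L r : ℕ} (g : CuspForm (Gamma0 L) 2) :
    g ∈ suppSub L r ↔ ∀ n : ℕ, ¬ r ∣ n → qCoeff g n = 0 := Iff.rfl

theorem eq_of_forall_mul {L r : ℕ} {a b : CuspForm (Gamma0 L) 2} (ha : a ∈ suppSub L r)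
    (hb : b ∈ suppSub L r) (h : ∀ n : ℕ, qCoeff a (r * n) = qCoeff b (r * n)) : a = b := by
  apply cuspForm_ext_qCoeff
  intro n
  by_cases hn : r ∣ n
  · obtain ⟨m, rfl⟩ := hn
    exact h m
  · rw [ha n hn, hb n hn]

/-- For `g` supported on the multiples of `r ∤ L`, the form `g(r z)` has level `L` again. -/
theorem exists_raise {L r : ℕ} [NeZero L] (hr : r.Prime) (hrL : ¬ r ∣ L)
    (g : CuspForm (Gamma0 L) 2) (hg : g ∈ suppSub L r) :
    ∃ h ∈ suppSub L r, ∀ n : ℕ, qCoeff h (r * n) = qCoeff g n := by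
  have hL : L ∣ r * L := dvd_mul_left L r
  have hr0 : (r : ℂ) ≠ 0 := by exact_mod_cast hr.ne_zero
  have hg' : ∀ n : ℕ, ¬ r ∣ n → qCoeff g n = 0 := hg
  refine ⟨(r : ℂ)⁻¹ • (CuspForm.heckeTLin 2 hr hrL g - descendCusp g L hr hL hg'), ?_, ?_⟩
  · intro n hn
    rw [qCoeff_smul, qCoeff_sub, qCoeff_heckeTLin, qCoeff_descendCusp, if_neg hn, add_zero,
      mul_comm n r, sub_self, mul_zero]
  · intro n
    rw [qCoeff_smul, qCoeff_sub, qCoeff_heckeTLin, qCoeff_descendCusp,
      if_pos (dvd_mul_right r n), Nat.mul_div_cancel_left n hr.pos, mul_comm (r * n) r,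
      add_sub_cancel_left]
    norm_num
    field_simp

/-- The underlying function of the operator `V : g(z) ↦ g(r z)` on `suppSub L r`. -/
def raiseFun {L r : ℕ} [NeZero L] (hr : r.Prime) (hrL : ¬ r ∣ L) (g : suppSub L r) :
    CuspForm (Gamma0 L) 2 :=
  (exists_raise hr hrL g.1 g.2).choose

theorem raiseFun_mem {L r : ℕ} [NeZero L] (hr : r.Prime) (hrL : ¬ r ∣ L) (g : suppSub L r) :
    raiseFun hr hrL g ∈ suppSub L r :=
  (exists_raise hr hrL g.1 g.2).choose_spec.1

theorem qCoeff_raiseFun {L r : ℕ} [NeZero L] (hr : r.Prime) (hrL : ¬ r ∣ L) (g : suppSub L r)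
    (n : ℕ) : qCoeff (raiseFun hr hrL g) (r * n) = qCoeff g.1 n :=
  (exists_raise hr hrL g.1 g.2).choose_spec.2 n

/-- The operator `V : g(z) ↦ g(r z)` on `suppSub L r`. -/
def raise {L r : ℕ} [NeZero L] (hr : r.Prime) (hrL : ¬ r ∣ L) :
    suppSub L r →ₗ[ℂ] suppSub L r where
  toFun g := ⟨raiseFun hr hrL g, raiseFun_mem hr hrL g⟩
  map_add' a b := by
    apply Subtype.ext
    show raiseFun hr hrL (a + b) = raiseFun hr hrL a + raiseFun hr hrL b
    refine eq_of_forall_mul (raiseFun_mem hr hrL _)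
      ((suppSub L r).add_mem (raiseFun_mem hr hrL a) (raiseFun_mem hr hrL b)) fun n => ?_
    rw [qCoeff_raiseFun, qCoeff_add, qCoeff_raiseFun, qCoeff_raiseFun, Submodule.coe_add,
      qCoeff_add]
  map_smul' c a := by
    apply Subtype.ext
    show raiseFun hr hrL (c • a) = c • raiseFun hr hrL a
    refine eq_of_forall_mul (raiseFun_mem hr hrL _)
      ((suppSub L r).smul_mem c (raiseFun_mem hr hrL a)) fun n => ?_
    rw [qCoeff_raiseFun, qCoeff_smul, qCoeff_raiseFun, Submodule.coe_smul, qCoeff_smul]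

theorem qCoeff_raise {L r : ℕ} [NeZero L] (hr : r.Prime) (hrL : ¬ r ∣ L) (g : suppSub L r)
    (n : ℕ) : qCoeff (raise hr hrL g).1 (r * n) = qCoeff g.1 n :=
  qCoeff_raiseFun hr hrL g n

theorem raise_injective {L r : ℕ} [NeZero L] (hr : r.Prime) (hrL : ¬ r ∣ L) :
    Function.Injective (raise hr hrL) := by
  intro a b hab
  apply Subtype.ext
  apply cuspForm_ext_qCoeff
  intro n
  rw [← qCoeff_raise hr hrL a n, ← qCoeff_raise hr hrL b n, hab]

theorem qCoeff_eq_zero_of_not_pow_dvd {L r : ℕ} [NeZero L] (hr : r.Prime) (hrL : ¬ r ∣ L) :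
    ∀ (k : ℕ) (g : suppSub L r) (n : ℕ), ¬ r ^ k ∣ n → qCoeff g.1 n = 0 := by
  have : FiniteDimensional ℂ (CuspForm (Gamma0 L) 2) :=
    FiniteDimensional.of_injective (Fermat.Agent.S23.H77.truncC L 2)
      (Fermat.Agent.S23.H77.truncC_injective L 2)
  have hsurj : Function.Surjective (raise hr hrL) :=
    LinearMap.surjective_of_injective (raise_injective hr hrL)
  intro k
  induction k with
  | zero =>
    intro g n hn
    exact absurd (by simp) hn
  | succ k ih =>
    intro g n hn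
    by_cases hrn : r ∣ n
    · obtain ⟨m, rfl⟩ := hrn
      obtain ⟨h, rfl⟩ := hsurj g
      rw [qCoeff_raise]
      apply ih
      intro hm
      apply hn
      rw [pow_succ']
      exact Nat.mul_dvd_mul_left r hm
    · exact g.2 n hrn

/-- **MAINb**, unconditional. -/
theorem mainb (L r : ℕ) [NeZero L] (hr : r.Prime) (hrL : ¬ r ∣ L) (f : CuspForm (Gamma0 L) 2)
    (h : ∀ n : ℕ, ¬ r ∣ n → ModularFormClass.qCoeff f n = 0) : f = 0 := by
  apply cuspForm_eq_zero_of_qCoeff
  intro n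
  rcases Nat.eq_zero_or_pos n with rfl | hn
  · exact qCoeff_at_zero f
  · refine qCoeff_eq_zero_of_not_pow_dvd hr hrL n ⟨f, h⟩ n fun hd => ?_
    have h1 : r ^ n ≤ n := Nat.le_of_dvd hn hd
    have h2 : n < r ^ n := Nat.lt_pow_self hr.one_lt
    omega

end Fermat.Agent.S59.NonMin.Geom.Rank.H56

end
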