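import Fermat.Agent.S59.NonMin.Geom.Rank.Defs
import Fermat.Agent.S59.NonMin.Geom.Rank.H56_MainBCore

/-!
# RANK leaves MAIN and MAINb (helper56): the statements of `Rank/Defs.lean`

* `stmt_MAIN : Stmt_MAIN` (single-prime main lemma of Atkin–Lehner), unconditional;
* `stmt_MAINb : Stmt_MAINb`, unconditional, and `mainb_of : Stmt_MAINb_of`.

The proofs are in `H56_MainCore.lean` (`H56.main`, `H56.descendCusp`) and `H56_MainBCore.lean`
(`H56.mainb`).
-/

set_option autoImplicit false

namespace Fermat.Agent.S59.NonMin.Geom.Rank.H56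

/-- **MAIN**, unconditional. -/
theorem stmt_MAIN : Stmt_MAIN := fun L r _ hr f h => main L r hr f h

/-- **MAINb**, unconditional. -/
theorem stmt_MAINb : Stmt_MAINb := fun L r _ hr hrL f h => mainb L r hr hrL f h

/-- **MAINb** in the form of the plan (`Stmt_MAIN → Stmt_MAINb`). -/
theorem mainb_of : Stmt_MAINb_of := fun _ => stmt_MAINb

end Fermat.Agent.S59.NonMin.Geom.Rank.H56
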