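import Fermat.Agent.S59.NonMin.Geom.Rank.DefsP
import Fermat.Agent.S59.NonMin.Geom.Rank.H56_MainBCore
import Fermat.Agent.S59.Asm.H41_Rest
import Fermat.Agent.S22

/-!
# P-RANK leaves P-QUAD and P-MULT1U (helper56)

* `pmult1u_of : Stmt_PMULT1U_of` (`Stmt_PSTRUCT → Stmt_PMULT1U`);
* `pquad_of : Stmt_PQUAD_of` (`Stmt_PSTRUCT → Stmt_MULT1 → Stmt_NONVAN → Stmt_PQUAD`).

Remark: `Stmt_MULT1` is not used.  `a₁` is injective on `EC N` by `Stmt_PSTRUCT` applied to the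
inclusion in the level `N p` and `H56.mainb` (a form of level `N` prime to `p` supported on the
multiples of `p` is zero).
-/

set_option autoImplicit false

open Polynomial CuspForm CongruenceSubgroup IsLocalRing ModularFormClass
open scoped MatrixGroups

noncomputable section

namespace Fermat.Agent.S59.NonMin.Geom.Rank.H56

open Fermat.Agent.Betti Fermat.Agent.S59 Fermat.Agent.S59.Asm Fermat.Agent.S41
open Fermat.Agent.S59.Asm.H41 (levelIncl coe_levelIncl heckeTLin_levelIncl heckeULin_levelIncl)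
open Fermat.Agent.S49 (qCoeff_add qCoeff_smul qCoeff_sub qCoeff_zero_form qCoeff_at_zero
  cuspForm_eq_zero_of_qCoeff cuspForm_ext_qCoeff)

/-! ### Generalities -/

section General

/-- `a₁` as a linear form. -/
def aOne (N : ℕ) : CuspForm (Gamma0 N) 2 →ₗ[ℂ] ℂ where
  toFun f := qCoeff f 1
  map_add' f g := qCoeff_add f g 1
  map_smul' c f := qCoeff_smul c f 1

@[simp] theorem aOne_apply {N : ℕ} (f : CuspForm (Gamma0 N) 2) : aOne N f = qCoeff f 1 := rfl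

theorem qCoeff_levelIncl {N N' : ℕ} (h : N ∣ N') (f : CuspForm (Gamma0 N) 2) (n : ℕ) :
    qCoeff (levelIncl h 2 f) n = qCoeff f n := by
  rw [coe_levelIncl]

end General

/-! ### The inclusion of `EC N` in `EC (N p)` -/

section Incl

variable {𝒪 : Type} [CommRing 𝒪] [IsDomain 𝒪] [IsLocalRing 𝒪]
  {p : ℕ} {ρbar : ResidualGaloisRep (ResidueField 𝒪)} {Smin : Finset ℕ}
  {N₀ : ℕ} {Sig : Finset ℕ} {N : ℕ} [NeZero N] [NeZero (N * p)] {S : Finset ℕ}
  {θ : CuspForm.heckeAlgebra N 2 (↑S : Set ℕ) →+* ResidueField 𝒪}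
  {x : CuspForm.heckeAlgebra N 2 (↑S : Set ℕ) →+* 𝒪}
  {χ : CuspForm.heckeAlgebra N 2 (↑S : Set ℕ) →+* ℂ}
  {rest : CuspForm.heckeAlgebra (N * p) 2 (↑S : Set ℕ) →+*
    CuspForm.heckeAlgebra N 2 (↑S : Set ℕ)}

theorem phyp_sq_dvd (h : PHyp p ρbar Smin N₀ Sig N S θ x χ rest) {r : ℕ} (hr : r ∈ Sig) :
    r ^ 2 ∣ N := by
  rw [h.hG.hN]
  exact Dvd.dvd.mul_left (Finset.dvd_prod_of_mem (fun r => r ^ 2) hr) _

theorem phyp_dvd_of_mem_Sig (h : PHyp p ρbar Smin N₀ Sig N S θ x χ rest) {r : ℕ}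
    (hr : r ∈ Sig) : r ∣ N :=
  (dvd_pow_self r two_ne_zero).trans (phyp_sq_dvd h hr)

theorem phyp_p_mem (h : PHyp p ρbar Smin N₀ Sig N S θ x χ rest) : p ∈ (↑S : Set ℕ) := by
  rw [Finset.mem_coe, h.hG.hS]
  exact Finset.mem_union_left _ h.hRes.hpSmin

/-- The inclusion of the level `N` in the level `N p` maps `EC N` to `E'`. -/
theorem levelIncl_mem_EC (h : PHyp p ρbar Smin N₀ Sig N S θ x χ rest)
    {H : CuspForm (Gamma0 N) 2} (hH : H ∈ EC N (↑S : Set ℕ) Sig χ) :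
    levelIncl (Dvd.intro p rfl : N ∣ N * p) 2 H ∈ EC (N * p) (↑S : Set ℕ) Sig (χ.comp rest) := by
  obtain ⟨h1, h2⟩ := hH
  refine ⟨fun ℓ hℓ hℓN' hℓS => ?_, fun r hr hrN' => ?_⟩
  · have hℓN : ¬ ℓ ∣ N := fun hd => hℓN' (Dvd.dvd.mul_right hd p)
    rw [heckeTLin_levelIncl _ 2 hℓ hℓN' hℓN, h1 ℓ hℓ hℓN hℓS, map_smul, RingHom.comp_apply,
      h.hrest ℓ hℓ hℓN' hℓS hℓN]
  · have hrN : r ∣ N := phyp_dvd_of_mem_Sig h hr
    rw [heckeULin_levelIncl _ 2 hrN' hrN, h2 r hr hrN, map_zero]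

end Incl

/-! ### The leaves -/

/-- Under `Stmt_PSTRUCT`, `a₁` is injective on `EC N`. -/
theorem eq_zero_of_aOne (hPS : Stmt_PSTRUCT)
    {𝒪 : Type} [CommRing 𝒪] [IsDomain 𝒪] [IsDiscreteValuationRing 𝒪]
    [IsAdicComplete (maximalIdeal 𝒪) 𝒪] [Finite (ResidueField 𝒪)] [CharZero 𝒪]
    {p : ℕ} [Fact p.Prime] {ρbar : ResidualGaloisRep (ResidueField 𝒪)} {Smin : Finset ℕ}
    {N₀ : ℕ} {Sig : Finset ℕ} {N : ℕ} [NeZero N] [NeZero (N * p)] {S : Finset ℕ}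
    {θ : CuspForm.heckeAlgebra N 2 (↑S : Set ℕ) →+* ResidueField 𝒪}
    {x : CuspForm.heckeAlgebra N 2 (↑S : Set ℕ) →+* 𝒪}
    {χ : CuspForm.heckeAlgebra N 2 (↑S : Set ℕ) →+* ℂ}
    {rest : CuspForm.heckeAlgebra (N * p) 2 (↑S : Set ℕ) →+*
      CuspForm.heckeAlgebra N 2 (↑S : Set ℕ)}
    (h : PHyp p ρbar Smin N₀ Sig N S θ x χ rest)
    {H : CuspForm (Gamma0 N) 2} (hH : H ∈ EC N (↑S : Set ℕ) Sig χ) (h1 : qCoeff H 1 = 0) :
    H = 0 := by
  obtain ⟨hsupp, -⟩ := hPS 𝒪 p ρbar Smin N₀ Sig N S θ x χ rest h _ (levelIncl_mem_EC h hH)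
    (by rw [qCoeff_levelIncl]; exact h1)
  refine mainb N p (Fact.out) h.hpN H fun n hn => ?_
  have := hsupp n hn
  rwa [qCoeff_levelIncl] at this

/-- **P-MULT1U**. -/
theorem pmult1u_of : Stmt_PMULT1U_of := by
  intro hPS 𝒪 _ _ _ _ _ _ p _ ρbar Smin N₀ Sig N _ _ S θ x χ rest h hd c
  have hp : p.Prime := Fact.out
  -- `a₁` is injective on the eigenspace
  let φ : ↥(ECU (N * p) (↑S : Set ℕ) Sig (χ.comp rest) hd c) →ₗ[ℂ] ℂ :=
    (aOne (N * p)).comp (Submodule.subtype _)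
  have hφ : Function.Injective φ := by
    rw [← LinearMap.ker_eq_bot, LinearMap.ker_eq_bot']
    rintro ⟨f, hfE, hfU⟩ hf0
    have hf1 : qCoeff f 1 = 0 := hf0
    apply Subtype.ext
    show f = 0
    obtain ⟨hsupp, -⟩ := hPS 𝒪 p ρbar Smin N₀ Sig N S θ x χ rest h f hfE hf1
    have hU : ∀ n : ℕ, qCoeff f (n * p) = c * qCoeff f n := by
      intro n
      rw [← qCoeff_smul, ← hfU, Fermat.Agent.S49.qCoeff_heckeULin hp.ne_zero hd]
    apply cuspForm_eq_zero_of_qCoeff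
    intro n
    induction n using Nat.strong_induction_on with
    | _ n ih =>
      by_cases hn : p ∣ n
      · rcases Nat.eq_zero_or_pos n with rfl | hpos
        · exact qCoeff_at_zero f
        · obtain ⟨m, rfl⟩ := hn
          have hm : m < p * m := by
            have hm0 : 0 < m := Nat.pos_of_mul_pos_left hpos
            calc m = 1 * m := (one_mul m).symm
              _ < p * m := Nat.mul_lt_mul_of_pos_right hp.one_lt hm0
          rw [mul_comm p m, hU, ih m hm, mul_zero]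
      · exact hsupp n hn
  have := LinearMap.finrank_le_finrank_of_injective hφ
  simpa using this

/-- **P-QUAD**. -/
theorem pquad_of : Stmt_PQUAD_of := by
  intro hPS _ hNV 𝒪 _ _ _ _ _ _ p _ ρbar Smin N₀ Sig N _ _ S θ x χ rest h hd
  have hp : p.Prime := Fact.out
  have hpN : ¬ p ∣ N := h.hpN
  have hdvd : N ∣ N * p := Dvd.intro p rfl
  -- a normalised generator of `EC N`
  obtain ⟨G₀, hG₀, hG₀1⟩ : ∃ G₀ ∈ EC N (↑S : Set ℕ) Sig χ, qCoeff G₀ 1 = 1 := by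
    have hne : EC N (↑S : Set ℕ) Sig χ ≠ ⊥ :=
      hNV N (↑S : Set ℕ) Sig χ fun r hr => ⟨(h.hG.hSig r hr).1, phyp_sq_dvd h hr⟩
    obtain ⟨G, hG, hG0⟩ := Submodule.exists_mem_ne_zero_of_ne_bot hne
    have ha : qCoeff G 1 ≠ 0 := fun h0 => hG0 (eq_zero_of_aOne hPS h hG h0)
    refine ⟨(qCoeff G 1)⁻¹ • G, Submodule.smul_mem _ _ hG, ?_⟩
    rw [qCoeff_smul, inv_mul_cancel₀ ha]
  -- every element of `EC N` is a multiple of `G₀`
  have hline : ∀ H ∈ EC N (↑S : Set ℕ) Sig χ, H = qCoeff H 1 • G₀ := by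
    intro H hH
    have h0 : H - qCoeff H 1 • G₀ = 0 := by
      refine eq_zero_of_aOne hPS h
        (Submodule.sub_mem _ hH (Submodule.smul_mem _ _ hG₀)) ?_
      rw [qCoeff_sub, qCoeff_smul, hG₀1, mul_one, sub_self]
    exact sub_eq_zero.1 h0
  -- `T_p` on `EC N`
  have hTG : CuspForm.heckeTLin 2 hp hpN G₀ ∈ EC N (↑S : Set ℕ) Sig χ := by
    obtain ⟨h1, h2⟩ := hG₀
    refine ⟨fun ℓ hℓ hℓN hℓS => ?_, fun r hr hrN => ?_⟩
    · have hc := (CuspForm.heckeTLin_comm 2 hℓ hℓN hp hpN).eq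
      have := congrArg (fun T : Module.End ℂ (CuspForm (Gamma0 N) 2) => T G₀) hc
      simp only [Module.End.mul_apply] at this
      rw [this, h1 ℓ hℓ hℓN hℓS, map_smul]
    · have hc := (CuspForm.heckeTLin_heckeULin_comm 2 hp hpN hrN).eq
      have := congrArg (fun T : Module.End ℂ (CuspForm (Gamma0 N) 2) => T G₀) hc
      simp only [Module.End.mul_apply] at this
      rw [← this, h2 r hr hrN, map_zero]
  set a : ℂ := qCoeff (CuspForm.heckeTLin 2 hp hpN G₀) 1 with ha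
  have hTa : CuspForm.heckeTLin 2 hp hpN G₀ = a • G₀ := hline _ hTG
  have hG₀ne : G₀ ≠ 0 := by
    intro h0
    rw [h0, qCoeff_zero_form] at hG₀1
    exact zero_ne_one hG₀1
  -- integrality
  have haint : IsIntegral ℤ a := by
    have : Module.Finite ℤ (CuspForm.heckeAlgebra N 2 (∅ : Set ℕ)) :=
      Fermat.Agent.S22.result N 2 ∅
    have hint : IsIntegral ℤ
        (CuspForm.heckeAlgebra.T hp hpN (Set.notMem_empty p) : CuspForm.heckeAlgebra N 2 ∅) :=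
      IsIntegral.of_finite ℤ _
    obtain ⟨P, hP, hP0⟩ := hint
    refine ⟨P, hP, ?_⟩
    have h1 : Polynomial.aeval (CuspForm.heckeTLin 2 hp hpN) P = 0 := by
      have := congrArg (CuspForm.heckeAlgebra N 2 (∅ : Set ℕ)).val
        ((Polynomial.aeval_def _ P).trans hP0)
      rw [← Polynomial.aeval_algHom_apply, map_zero] at this
      exact this
    have h2 : Polynomial.aeval (CuspForm.heckeTLin 2 hp hpN) (P.map (algebraMap ℤ ℂ)) G₀
        = (P.map (algebraMap ℤ ℂ)).eval a • G₀ :=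
      Module.End.aeval_apply_of_mem_apply_eq_smul hTa
    rw [Polynomial.aeval_map_algebraMap, h1, LinearMap.zero_apply] at h2
    have h3 : (P.map (algebraMap ℤ ℂ)).eval a = 0 :=
      (smul_eq_zero.1 h2.symm).resolve_right hG₀ne
    rwa [Polynomial.eval_map] at h3
  refine ⟨a, haint, fun f hf => ?_⟩
  -- the coefficients of `G₀`
  have hg : ∀ n : ℕ, qCoeff G₀ (n * p) + (if p ∣ n then (p : ℂ) * qCoeff G₀ (n / p) else 0)
      = a * qCoeff G₀ n := by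
    intro n
    have := Fermat.Agent.S49.qCoeff_heckeTLin hp hpN G₀ n
    rw [hTa, qCoeff_smul] at this
    rw [this]
    norm_num
  -- decomposition of `f`
  set α : ℂ := qCoeff f 1 with hα
  set f₁ : CuspForm (Gamma0 (N * p)) 2 := f - α • levelIncl hdvd 2 G₀ with hf₁
  have hf₁E : f₁ ∈ EC (N * p) (↑S : Set ℕ) Sig (χ.comp rest) :=
    Submodule.sub_mem _ hf (Submodule.smul_mem _ _ (levelIncl_mem_EC h hG₀))
  have hf₁1 : qCoeff f₁ 1 = 0 := by
    rw [hf₁, qCoeff_sub, qCoeff_smul, qCoeff_levelIncl, hG₀1, mul_one, sub_self]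
  obtain ⟨hsupp, G, hGE, hGf⟩ := hPS 𝒪 p ρbar Smin N₀ Sig N S θ x χ rest h f₁ hf₁E hf₁1
  set b : ℂ := qCoeff G 1 with hb
  have hGb : ∀ n : ℕ, qCoeff f₁ (p * n) = b * qCoeff G₀ n := by
    intro n
    rw [← hGf n, ← qCoeff_smul, ← hline G hGE]
  have hfn : ∀ n : ℕ, qCoeff f n = qCoeff f₁ n + α * qCoeff G₀ n := by
    intro n
    rw [hf₁, qCoeff_sub, qCoeff_smul, qCoeff_levelIncl]
    ring
  apply cuspForm_eq_zero_of_qCoeff
  intro n
  rw [qCoeff_add, qCoeff_sub, qCoeff_smul, qCoeff_smul,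
    Fermat.Agent.S49.qCoeff_heckeULin hp.ne_zero hd,
    Fermat.Agent.S49.qCoeff_heckeULin hp.ne_zero hd,
    Fermat.Agent.S49.qCoeff_heckeULin hp.ne_zero hd, hfn (n * p * p), hfn (n * p), hfn n]
  have e1 : qCoeff f₁ (n * p * p) = b * qCoeff G₀ (n * p) := by
    rw [mul_comm (n * p) p, hGb]
  have e2 : qCoeff f₁ (n * p) = b * qCoeff G₀ n := by
    rw [mul_comm n p, hGb]
  have e3 : qCoeff G₀ (n * p * p) = a * qCoeff G₀ (n * p) - (p : ℂ) * qCoeff G₀ n := by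
    have := hg (n * p)
    rw [if_pos (Dvd.intro_left n rfl), Nat.mul_div_cancel n hp.pos] at this
    rw [← this]
    ring
  have e4 : qCoeff G₀ (n * p) = a * qCoeff G₀ n -
      (if p ∣ n then (p : ℂ) * qCoeff G₀ (n / p) else 0) := by
    rw [← hg n]
    ring
  have e5 : qCoeff f₁ n = if p ∣ n then b * qCoeff G₀ (n / p) else 0 := by
    by_cases hn : p ∣ n
    · rw [if_pos hn]
      obtain ⟨m, rfl⟩ := hn
      rw [hGb, Nat.mul_div_cancel_left m hp.pos]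
    · rw [if_neg hn, hsupp n hn]
  rw [e1, e2, e3, e5, e4]
  by_cases hn : p ∣ n
  · simp only [if_pos hn]
    ring
  · simp only [if_neg hn]
    ring

end Fermat.Agent.S59.NonMin.Geom.Rank.H56

end
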