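import Fermat.Agent.S59.NonMin.Geom.Rank.H75_NonVan
import Fermat.Agent.S59.NonMin.Geom.Rank.H25_Depl

/-!
# S59 / RT-NONMIN / NMGEOM / RANK, leaf NONVAN: unconditional (helper75)

`stmt_NONVAN : Stmt_NONVAN`, from `H75.nonvan_of` and helper25's `H25.stmt_DEPL`.
-/

set_option autoImplicit false

namespace Fermat.Agent.S59.NonMin.Geom.Rank.H75

/-- **NONVAN**, unconditional. -/
theorem stmt_NONVAN : Fermat.Agent.S59.NonMin.Geom.Rank.Stmt_NONVAN :=
  nonvan_of Fermat.Agent.S59.NonMin.Geom.Rank.H25.stmt_DEPL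

end Fermat.Agent.S59.NonMin.Geom.Rank.H75
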