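import Fermat.Agent.S59.NonMin.Geom.Rank.Defs
import Fermat.Agent.S49.QCoeff

/-!
# S59 / NMGEOM / RANK, leaf MULT1 (helper78): multiplicity one from CLAIM, COEF, NOLOW

`mult1_of : Stmt_MULT1_of` (`= Stmt_CLAIM → Stmt_COEF → Stmt_NOLOW → Stmt_MULT1`): the linear form
`a₁ : EC → ℂ` is injective, so `dim EC ≤ 1`.
For `f ∈ EC` with `a₁(f) = 0`: `a_n(f) = 0` for `n` prime to `Smin` (COEF), then `f = 0` by CLAIM
with `P = Smin`, `L = N` (`N = N₀ ∏_{r ∈ Sig} r²`, `N₀` squarefree, `Sig ∩ Smin = ∅`, so `r² ∤ N`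
for `r ∈ Smin`, and `r ∣ N ⟹ r ∣ N₀`: NOLOW).
This file contains no `sorry`.
-/

set_option autoImplicit false

open CuspForm CongruenceSubgroup IsLocalRing ModularFormClass
open scoped MatrixGroups

namespace Fermat.Agent.S59.NonMin.Geom.Rank.H78

open Fermat.Agent.Betti Fermat.Agent.S59 Fermat.Agent.S59.Asm Fermat.Agent.S59.NonMin.Geom
  Fermat.Agent.S59.NonMin.Geom.Rank

/-- The linear form `a₁` on the eigenspace `EC`. -/
noncomputable def a1Lin (N : ℕ) [NeZero N] (S : Set ℕ) (Sig : Finset ℕ)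
    (χ : CuspForm.heckeAlgebra N 2 S →+* ℂ) : ↥(EC N S Sig χ) →ₗ[ℂ] ℂ where
  toFun f := qCoeff (f : CuspForm (Gamma0 N) 2) 1
  map_add' f g := Fermat.Agent.S49.qCoeff_add (f : CuspForm (Gamma0 N) 2) g 1
  map_smul' c f := by
    show qCoeff ⇑(c • (f : CuspForm (Gamma0 N) 2)) 1 = c • qCoeff ⇑(f : CuspForm (Gamma0 N) 2) 1
    rw [Fermat.Agent.S49.qCoeff_smul, smul_eq_mul]

theorem a1Lin_apply (N : ℕ) [NeZero N] (S : Set ℕ) (Sig : Finset ℕ)
    (χ : CuspForm.heckeAlgebra N 2 S →+* ℂ) (f : ↥(EC N S Sig χ)) :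
    a1Lin N S Sig χ f = qCoeff (f : CuspForm (Gamma0 N) 2) 1 := rfl

section Arith

variable {p : ℕ} {Smin : Finset ℕ} {N₀ : ℕ} {Sig : Finset ℕ} {N : ℕ} {S : Finset ℕ}

/-- A prime dividing the product `∏_{r ∈ Sig} r²` lies in `Sig`. -/
theorem mem_Sig_of_dvd_prod (hG : GeomHyp p Smin N₀ Sig N S) {s : ℕ} (hs : s.Prime)
    (h : s ∣ ∏ r ∈ Sig, r ^ 2) : s ∈ Sig := by
  obtain ⟨r, hr, hsr⟩ := (Prime.dvd_finsetProd_iff (Nat.prime_iff.mp hs) _).mp h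
  have h1 : s ∣ r := hs.dvd_of_dvd_pow hsr
  have h2 : s = r := (Nat.prime_dvd_prime_iff_eq hs (hG.hSig r hr).1).mp h1
  rw [h2]
  exact hr

/-- A prime of `Smin` is prime to `∏_{r ∈ Sig} r²`. -/
theorem coprime_prod_of_mem_Smin (hG : GeomHyp p Smin N₀ Sig N S) {s : ℕ} (hs : s.Prime)
    (hsm : s ∈ Smin) : s.Coprime (∏ r ∈ Sig, r ^ 2) := by
  rw [Nat.Prime.coprime_iff_not_dvd hs]
  intro h
  exact (hG.hSig s (mem_Sig_of_dvd_prod hG hs h)).2.2 hsm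

theorem prime_dvd_mem_S (hG : GeomHyp p Smin N₀ Sig N S) {s : ℕ} (hs : s.Prime) (h : s ∣ N) :
    s ∈ S := by
  rw [hG.hS, Finset.mem_union]
  rw [hG.hN] at h
  rcases (Nat.Prime.dvd_mul hs).mp h with h1 | h1
  · exact Or.inl (hG.hN₀S s hs h1)
  · exact Or.inr (mem_Sig_of_dvd_prod hG hs h1)

theorem Sig_dvd (hG : GeomHyp p Smin N₀ Sig N S) {r : ℕ} (hr : r ∈ Sig) : r ∣ N := by
  rw [hG.hN]
  have h1 : r ^ 2 ∣ ∏ r ∈ Sig, r ^ 2 := Finset.dvd_prod_of_mem (fun r => r ^ 2) hr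
  exact Dvd.dvd.mul_left (dvd_trans (dvd_pow_self r two_ne_zero) h1) N₀

/-- A prime of `Smin` dividing `N` divides `N₀`. -/
theorem dvd_N₀_of_mem_Smin (hG : GeomHyp p Smin N₀ Sig N S) {s : ℕ} (hs : s.Prime)
    (hsm : s ∈ Smin) (h : s ∣ N) : s ∣ N₀ := by
  rw [hG.hN] at h
  exact (coprime_prod_of_mem_Smin hG hs hsm).dvd_of_dvd_mul_right h

/-- The square of a prime of `Smin` does not divide `N`. -/
theorem sq_not_dvd_of_mem_Smin (hG : GeomHyp p Smin N₀ Sig N S) {s : ℕ} (hs : s.Prime)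
    (hsm : s ∈ Smin) : ¬ s ^ 2 ∣ N := by
  intro h
  rw [hG.hN] at h
  have hc : (s ^ 2).Coprime (∏ r ∈ Sig, r ^ 2) :=
    Nat.Coprime.pow_left 2 (coprime_prod_of_mem_Smin hG hs hsm)
  have h1 : s ^ 2 ∣ N₀ := hc.dvd_of_dvd_mul_right h
  have h2 : s * s ∣ N₀ := by rwa [pow_two] at h1
  have h3 : IsUnit s := hG.hN₀ s h2
  exact hs.one_lt.ne' (Nat.isUnit_iff.mp h3)

end Arith

/-- **MULT1** from CLAIM, COEF and NOLOW. -/
theorem mult1_of : Stmt_MULT1_of := by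
  intro hCLAIM hCOEF hNOLOW 𝒪 _ _ _ _ _ _ p _ hp2 hpm ρbar Smin hres N₀ hflat Sig N _ S hG θ hFrob
    x hx χ hconj
  have hS_all : ∀ s : ℕ, s.Prime → s ∣ N → s ∈ (↑S : Set ℕ) :=
    fun s hs h => Finset.mem_coe.mpr (prime_dvd_mem_S hG hs h)
  have hSminS : Smin ⊆ S := by
    rw [hG.hS]
    exact Finset.subset_union_left
  have hinj : Function.Injective (a1Lin N (↑S : Set ℕ) Sig χ) := by
    rw [injective_iff_map_eq_zero]
    rintro ⟨f, hf⟩ h0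
    have h0' : qCoeff (f : CuspForm (Gamma0 N) 2) 1 = 0 := h0
    have hcoef := hCOEF N (↑S : Set ℕ) Sig χ hS_all (fun r hr => Sig_dvd hG hr) f hf h0'
    have hf0 : f = 0 := by
      refine hCLAIM (↑S : Set ℕ) (eigVal χ) Smin
        (fun r hr => ⟨hres.hS r hr, Finset.mem_coe.mpr (hSminS hr)⟩) N hS_all
        (fun r hr => sq_not_dvd_of_mem_Smin hG (hres.hS r hr) hr) ?_ f ?_ ?_
      · intro r hr hrN
        refine hNOLOW 𝒪 p hp2 hpm ρbar Smin hres N S hSminS hS_all θ hFrob x hx χ hconj r hr ?_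
        intro hrp
        apply hflat
        rw [← hrp]
        exact dvd_N₀_of_mem_Smin hG (hres.hS r hr) hr hrN
      · intro ℓ hℓ hℓN hℓS
        rw [eigVal_eq χ hℓ hℓN hℓS]
        exact hf.1 ℓ hℓ hℓN hℓS
      · intro n hn
        apply hcoef n
        intro s hs hsn hsS
        have hsS' : s ∈ S := Finset.mem_coe.mp hsS
        rw [hG.hS, Finset.mem_union] at hsS'
        rcases hsS' with h1 | h1
        · exact absurd hsn (hn s h1)
        · exact h1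
    exact Subtype.ext hf0
  have h1 := LinearMap.finrank_le_finrank_of_injective hinj
  rwa [Module.finrank_self] at h1

end Fermat.Agent.S59.NonMin.Geom.Rank.H78
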