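import Fermat.Agent.S59.NonMin.Geom.Rank.H27_PAsm
import Fermat.Agent.S59.NonMin.Geom.Rank.H78_Mult1
import Fermat.Agent.S59.NonMin.Geom.Rank.H38_Claim
import Fermat.Agent.S59.NonMin.Geom.Rank.H38_Coef
import Fermat.Agent.S59.NonMin.Geom.Rank.H38_PStruct
import Fermat.Agent.S59.NonMin.Geom.Rank.H2_NoLowFinal
import Fermat.Agent.S59.NonMin.Geom.Rank.H2_POrdAlgR
import Fermat.Agent.S59.NonMin.Geom.Rank.H75_NonVanDone
import Fermat.Agent.S59.NonMin.Geom.Rank.H13_Embed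
import Fermat.Agent.S59.NonMin.Geom.Rank.H13_EmbedA
import Fermat.Agent.S59.NonMin.Geom.Rank.H26_RelTr
import Fermat.Agent.S59.NonMin.Geom.Rank.H56_Main
import Fermat.Agent.S59.NonMin.Geom.Rank.H56_PQuad
import Fermat.Agent.S59.NonMin.Geom.Rank.H25_Depl
import Fermat.Agent.S59.NonMin.Geom.Rank.H11_UInj
import Fermat.Agent.S59.NonMin.Geom.Rank.H34_ESU

/-!
# S59 / NMGEOM / RANK and P-RANK: wiring of the landed leaves (plan helper27, file helper2)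

* `stmt_CLAIM`, `stmt_MULT1`, `stmt_PSTRUCT`, `stmt_PQUAD`, `stmt_PMULT1U` : unconditional;
* `rank_of_betti : Stmt_LAT → Stmt_FIELD → Stmt_ES → Geom.Stmt_RANK`;
* `prank_of_rest : Stmt_LAT → Stmt_FIELD → Stmt_ES → Stmt_FIELDU → Stmt_PLAT →
    CaseC.Geom.Stmt_PRANK` (all other leaves are landed and inserted).
-/

set_option autoImplicit false

namespace Fermat.Agent.S59.NonMin.Geom.Rank.H2F

open Fermat.Agent.S59.NonMin.Geom.Rank

/-- **CLAIM**, unconditional. -/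
theorem stmt_CLAIM : Stmt_CLAIM :=
  H38.claim_of H25.stmt_DEPL H56.stmt_MAIN H56.stmt_MAINb

/-- **MULT1**, unconditional. -/
theorem stmt_MULT1 : Stmt_MULT1 :=
  H78.mult1_of stmt_CLAIM H38.stmt_COEF H2.stmt_NOLOW

/-- **P-STRUCT**, unconditional. -/
theorem stmt_PSTRUCT : Stmt_PSTRUCT :=
  H38.pstruct_of stmt_CLAIM H38.stmt_COEF H2.stmt_NOLOW H25.stmt_DEPL H56.stmt_MAIN

/-- **P-QUAD**, unconditional. -/
theorem stmt_PQUAD : Stmt_PQUAD :=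
  H56.pquad_of stmt_PSTRUCT stmt_MULT1 H75.stmt_NONVAN

/-- **P-MULT1U**, unconditional. -/
theorem stmt_PMULT1U : Stmt_PMULT1U :=
  H56.pmult1u_of stmt_PSTRUCT

/-- `Geom.Stmt_RANK` from the three Betti leaves. -/
theorem rank_of_betti (hLAT : Stmt_LAT) (hFIELD : Stmt_FIELD) (hES : Stmt_ES) :
    Fermat.Agent.S59.NonMin.Geom.Stmt_RANK :=
  H27.stmt_RANKASM hLAT hFIELD H13.stmt_EMBED hES stmt_MULT1 H75.stmt_NONVAN

/-- `CaseC.Geom.Stmt_PRANK` from the leaves in progress. -/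
theorem prank_of_rest (hLAT : Stmt_LAT) (hFIELD : Stmt_FIELD) (hES : Stmt_ES)
    (hFIELDU : Stmt_FIELDU) (hPLAT : Stmt_PLAT) :
    Fermat.Agent.S59.CaseC.Geom.Stmt_PRANK :=
  H27.stmt_PRANKASM hLAT hFIELD hES H75.stmt_NONVAN H13.stmt_EMBEDA
    stmt_PQUAD stmt_PMULT1U H34.stmt_ESU hFIELDU
    H26.stmt_RELTR H11.stmt_UINJ H2.stmt_PORDALGR hPLAT

end Fermat.Agent.S59.NonMin.Geom.Rank.H2F
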