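import Mathlib
import Fermat.Agent.S59.NonMin.Geom.Rank.Defs
import Fermat.Agent.R.Defs
import Fermat.Agent.R.H86_Defs2
import Fermat.Agent.R.H99_Newform
import Fermat.Agent.S59.Datum.Defs2
import Fermat.Agent.S59.Datum.Defs3

/-!
# S59 / NMGEOM / RANK, leaf NOLOW (helper2)

`nolow_of : R.Stmt_S30 → R.Stmt_FlatPoint → Datum.Stmt_ResIrr → Datum.Stmt_FlatDesc → Stmt_NOLOW`.

A nonzero cusp form `f` of a level `L` prime to `r` with the eigenvalues of `χ` gives a character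
`y₀` of the Hecke algebra of level `L` with values in `𝒪` (`exists_descent`, twice), hence a
Galois representation (`S30`) whose reduction is `ρbar`; it is unramified at `r ≠ p`, resp. flat
at `r = p`: contradiction.
-/

set_option autoImplicit false
set_option linter.style.haveILetI false
set_option linter.unusedSectionVars false
set_option linter.unusedVariables false
set_option maxHeartbeats 1000000

open Polynomial CuspForm CongruenceSubgroup IsLocalRing ModularFormClass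
open scoped TensorProduct

namespace Fermat.Agent.S59.NonMin.Geom.Rank.H2

open Fermat.Agent.S59 Fermat.Agent.S59.Asm Fermat.Agent.S59.NonMin.Geom.Rank

/-- An anemic eigenvector is an eigenvector of the whole Hecke algebra away from `S` (all primes
of the level lie in `S`). -/
theorem exists_eigenvalue_of_isAnemic {L : ℕ} [NeZero L] {S : Set ℕ} {a : ℕ → ℂ}
    (hLS : ∀ s : ℕ, s.Prime → s ∣ L → s ∈ S) {f : CuspForm (Gamma0 L) 2}
    (hf : IsAnemic L S a f) (T : heckeAlgebra L 2 S) :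
    ∃ c : ℂ, (T : Module.End ℂ (CuspForm (Gamma0 L) 2)) f = c • f := by
  obtain ⟨T, hT⟩ := T
  show ∃ c : ℂ, T f = c • f
  induction hT using Algebra.adjoin_induction with
  | mem x hx =>
    rcases hx with ⟨ℓ, hℓ, hℓN, hℓS, rfl⟩ | ⟨q, hqN, hq, hqS, rfl⟩
    · exact ⟨_, hf ℓ hℓ hℓN hℓS⟩
    · exact absurd (hLS q hq hqN) hqS
  | algebraMap r =>
    refine ⟨(r : ℂ), ?_⟩
    rw [Algebra.algebraMap_eq_smul_one, LinearMap.smul_apply, Module.End.one_apply]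
    exact (Int.cast_smul_eq_zsmul ℂ r f).symm
  | add x y _ _ hx hy =>
    obtain ⟨c, hc⟩ := hx
    obtain ⟨d, hd⟩ := hy
    exact ⟨c + d, by rw [LinearMap.add_apply, hc, hd, add_smul]⟩
  | mul x y _ _ hx hy =>
    obtain ⟨c, hc⟩ := hx
    obtain ⟨d, hd⟩ := hy
    exact ⟨d * c, by rw [Module.End.mul_apply, hd, map_smul, hc, smul_smul]⟩

/-- Descent of a character of the anemic Hecke algebra along an injective ring homomorphism. -/
theorem exists_descent {L : ℕ} [NeZero L] {S : Set ℕ}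
    (hLS : ∀ s : ℕ, s.Prime → s ∣ L → s ∈ S)
    {R R' : Type} [CommRing R] [CommRing R'] (ψ : heckeAlgebra L 2 S →+* R) (ι : R' →+* R)
    (hι : Function.Injective ι)
    (hgen : ∀ (ℓ : ℕ) (hℓ : ℓ.Prime) (hℓL : ¬ ℓ ∣ L) (hℓS : ℓ ∉ S),
      ψ (heckeAlgebra.T hℓ hℓL hℓS) ∈ ι.range) :
    ∃ θ : heckeAlgebra L 2 S →+* R', ∀ T, ι (θ T) = ψ T := by
  have hrange : ∀ T : heckeAlgebra L 2 S, ψ T ∈ ι.range := by
    rintro ⟨T, hT⟩
    induction hT using Algebra.adjoin_induction with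
    | mem x hx =>
      rcases hx with ⟨ℓ, hℓ, hℓN, hℓS, rfl⟩ | ⟨q, hqN, hq, hqS, rfl⟩
      · exact hgen ℓ hℓ hℓN hℓS
      · exact absurd (hLS q hq hqN) hqS
    | algebraMap r =>
      refine ⟨(r : R'), ?_⟩
      rw [map_intCast]
      have : (⟨algebraMap ℤ _ r, Subalgebra.algebraMap_mem _ r⟩ : heckeAlgebra L 2 S) =
          ((r : ℤ) : heckeAlgebra L 2 S) := by
        apply Subtype.ext
        simp
      rw [this, map_intCast]
    | add x y hx hy ihx ihy =>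
      have : (⟨x + y, Subalgebra.add_mem _ hx hy⟩ : heckeAlgebra L 2 S) =
          (⟨x, hx⟩ : heckeAlgebra L 2 S) + ⟨y, hy⟩ := rfl
      rw [this, map_add]
      exact ι.range.add_mem ihx ihy
    | mul x y hx hy ihx ihy =>
      have : (⟨x * y, Subalgebra.mul_mem _ hx hy⟩ : heckeAlgebra L 2 S) =
          (⟨x, hx⟩ : heckeAlgebra L 2 S) * ⟨y, hy⟩ := rfl
      rw [this, map_mul]
      exact ι.range.mul_mem ihx ihy
  let e : R' ≃+* ι.range := RingEquiv.ofBijective ι.rangeRestrict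
    ⟨fun x y hxy => hι (congrArg Subtype.val hxy), ι.rangeRestrict_surjective⟩
  let θ : heckeAlgebra L 2 S →+* R' :=
    (e.symm : ι.range →+* R').comp (ψ.codRestrict ι.range hrange)
  have hθ : ∀ T, ι (θ T) = ψ T := by
    intro T
    have h1 : e (θ T) = ψ.codRestrict ι.range hrange T := by
      simp only [θ, RingHom.comp_apply, RingHom.coe_coe, RingEquiv.apply_symm_apply]
    exact congrArg Subtype.val h1
  exact ⟨θ, hθ⟩

/-- Characteristic polynomials of the residual representation. -/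
theorem charpoly_resid {A : Type} [CommRing A] [IsLocalRing A] (ρ : GaloisRepAdic A)
    (σ : AlgebraicClosure ℚ ≃ₐ[ℚ] AlgebraicClosure ℚ) :
    LinearMap.charpoly (ρ.residual.ρ σ) = (LinearMap.charpoly (ρ.ρ σ)).map (residue A) :=
  LinearMap.charpoly_baseChange (A := ResidueField A) (ρ.ρ σ)

/-- the reduction of an unramified representation is unramified -/
theorem residual_unramified {A : Type} [CommRing A] [IsLocalRing A] (ρ : GaloisRepAdic A)
    (q : ℕ) (h : ρ.IsUnramifiedAt q) : ρ.residual.IsUnramifiedAt q := by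
  intro P hP σ hσ
  have h1 : ρ.residual.ρ σ = (ρ.ρ σ).baseChange (ResidueField A) := rfl
  rw [h1, h P hP σ hσ]
  exact LinearMap.baseChange_one (R := A) (A := ResidueField A) (M := ρ.V)

/-- unramifiedness is invariant under equivalence of residual representations -/
theorem unramified_of_isEquiv {k : Type} [Field k] {ρ₁ ρ₂ : ResidualGaloisRep k}
    (he : ρ₁.IsEquiv ρ₂) (q : ℕ) (h : ρ₁.IsUnramifiedAt q) : ρ₂.IsUnramifiedAt q := by
  obtain ⟨e⟩ := he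
  intro P hP σ hσ
  refine LinearMap.ext fun v => ?_
  obtain ⟨w, rfl⟩ := e.toLinearEquiv.surjective v
  rw [← e.map_apply, h P hP σ hσ]
  rfl

/-- unramifiedness descends along a change of the field of coefficients -/
theorem unramified_of_baseChangeAlong {k k' : Type} [Field k] [Field k'] (φ : k →+* k')
    (ρbar : ResidualGaloisRep k) (q : ℕ) (h : (ρbar.baseChangeAlong φ).IsUnramifiedAt q) :
    ρbar.IsUnramifiedAt q := by
  letI : Algebra k k' := φ.toAlgebra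
  intro P hP σ hσ
  have h1 : (ρbar.ρ σ).baseChange k' = 1 := h P hP σ hσ
  refine LinearMap.ext fun v => ?_
  apply Module.FaithfullyFlat.tensorProduct_mk_injective (A := k) (B := k') ρbar.V
  show (1 : k') ⊗ₜ[k] (ρbar.ρ σ v) = (1 : k') ⊗ₜ[k] ((1 : Module.End k ρbar.V) v)
  rw [← LinearMap.baseChange_tmul, h1]
  rfl

/-- **NOLOW** from its inputs. -/
theorem nolow_of (hS30 : Fermat.Agent.R.Stmt_S30) (hFP : Fermat.Agent.R.Stmt_FlatPoint)
    (hRI : Fermat.Agent.S59.Datum.Stmt_ResIrr) (hFD : Fermat.Agent.S59.Datum.Stmt_FlatDesc) :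
    Stmt_NOLOW := by
  intro 𝒪 _ _ _ _ _ _ p _ hp2 hp𝒪 ρbar Smin hyp N _ S hSS hNS θ hθ x hx χ hχ r hr hrflat
  intro L _ hrL hLS f hf
  by_contra hf0
  have hpP : p.Prime := Fact.out
  obtain ⟨F, _, x₀, jK, jC, hjK, hjC⟩ := hχ
  have hLS' : ∀ s : ℕ, s.Prime → s ∣ L → s ∈ (↑S : Set ℕ) := hLS
  have hℓN : ∀ ℓ : ℕ, ℓ.Prime → ℓ ∉ (↑S : Set ℕ) → ¬ ℓ ∣ N :=
    fun ℓ hℓ hℓS h => hℓS (Finset.mem_coe.mpr (hNS ℓ hℓ h))
  -- the character of `f`
  obtain ⟨y, hy⟩ := Fermat.Agent.R.H99.exists_character_of_eigenvector (↑S : Set ℕ) f hf0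
    (exists_eigenvalue_of_isAnemic hLS' hf)
  have hyT : ∀ (ℓ : ℕ) (hℓ : ℓ.Prime) (hℓL : ¬ ℓ ∣ L) (hℓS : ℓ ∉ (↑S : Set ℕ)),
      y (heckeAlgebra.T hℓ hℓL hℓS) =
        jC (x₀ (heckeAlgebra.T hℓ (hℓN ℓ hℓ hℓS) hℓS)) := by
    intro ℓ hℓ hℓL hℓS
    have h1 := hy (heckeAlgebra.T hℓ hℓL hℓS)
    rw [heckeAlgebra.coe_T, hf ℓ hℓ hℓL hℓS, eigVal_eq χ hℓ (hℓN ℓ hℓ hℓS) hℓS, ← hjC] at h1
    exact (smul_left_injective ℂ hf0 h1).symm
  -- descent to `F`
  obtain ⟨y₁, hy₁⟩ := exists_descent hLS' y jC jC.injective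
    (fun ℓ hℓ hℓL hℓS => ⟨_, (hyT ℓ hℓ hℓL hℓS).symm⟩)
  have hy₁T : ∀ (ℓ : ℕ) (hℓ : ℓ.Prime) (hℓL : ¬ ℓ ∣ L) (hℓS : ℓ ∉ (↑S : Set ℕ)),
      y₁ (heckeAlgebra.T hℓ hℓL hℓS) = x₀ (heckeAlgebra.T hℓ (hℓN ℓ hℓ hℓS) hℓS) := by
    intro ℓ hℓ hℓL hℓS
    apply jC.injective
    rw [hy₁, hyT]
  -- descent to `𝒪`
  have hjK' : ∀ t, jK (x₀ t) = algebraMap 𝒪 (FractionRing 𝒪) (x t) := fun t =>
    RingHom.congr_fun hjK t
  obtain ⟨y₀, hy₀⟩ := exists_descent hLS' (jK.comp y₁) (algebraMap 𝒪 (FractionRing 𝒪))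
    (IsFractionRing.injective 𝒪 (FractionRing 𝒪))
    (fun ℓ hℓ hℓL hℓS => ⟨x (heckeAlgebra.T hℓ (hℓN ℓ hℓ hℓS) hℓS), by
      rw [RingHom.comp_apply, hy₁T, hjK']⟩)
  have hy₀T : ∀ (ℓ : ℕ) (hℓ : ℓ.Prime) (hℓL : ¬ ℓ ∣ L) (hℓS : ℓ ∉ (↑S : Set ℕ)),
      y₀ (heckeAlgebra.T hℓ hℓL hℓS) = x (heckeAlgebra.T hℓ (hℓN ℓ hℓ hℓS) hℓS) := by
    intro ℓ hℓ hℓL hℓS
    apply IsFractionRing.injective 𝒪 (FractionRing 𝒪)
    rw [hy₀, RingHom.comp_apply, hy₁T, hjK']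
  -- the Galois representation
  have hpS : p ∈ S := hSS hyp.hpSmin
  obtain ⟨𝒪'', i1, i2, i3, i4, i5, i6, i7, i8, i9, hinj, ρ, hfrob, hunr⟩ :=
    hS30 p L S hpS hLS 𝒪 hp𝒪 y₀
  have hℓL : ∀ ℓ : ℕ, ℓ.Prime → ℓ ∉ S → ¬ ℓ ∣ L := fun ℓ hℓ hℓS h => hℓS (hLS ℓ hℓ h)
  -- its reduction is `ρbar`
  have hres := hRI (ResidueField 𝒪) (ResidueField 𝒪'') (ResidueField.map (algebraMap 𝒪 𝒪''))
    ρbar ρ.residual S hyp.habs (by
      intro ℓ hℓ hℓS B hB σ hσ
      have hℓS' : ℓ ∉ (↑S : Set ℕ) := fun h => hℓS (Finset.mem_coe.mp h)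
      rw [charpoly_resid, hfrob ℓ hℓ (hℓL ℓ hℓ hℓS) hℓS' B hB σ hσ,
        hθ ℓ hℓ (hℓN ℓ hℓ hℓS') hℓS' B hB σ hσ, hy₀T ℓ hℓ (hℓL ℓ hℓ hℓS) hℓS', ← hx]
      simp only [Polynomial.map_add, Polynomial.map_sub, Polynomial.map_mul, Polynomial.map_pow,
        Polynomial.map_X, Polynomial.map_C, map_natCast, Polynomial.map_natCast,
        ResidueField.map_residue])
  obtain ⟨hirr, hequiv⟩ := hres
  by_cases hrp : r = p
  · -- flatness at `p`
    subst hrp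
    have hp𝒪'' : ((r : ℕ) : 𝒪'') ∈ maximalIdeal 𝒪'' := by
      rw [mem_maximalIdeal, mem_nonunits_iff]
      intro hu
      have h1 : IsUnit (algebraMap 𝒪 𝒪'' ((r : ℕ) : 𝒪)) := by
        rw [map_natCast]
        exact hu
      have h2 := (isUnit_map_iff (algebraMap 𝒪 𝒪'') _).mp h1
      exact (mem_nonunits_iff.mp ((mem_maximalIdeal _).mp hp𝒪)) h2
    have hflat : ρ.IsFlatAt r := hFP r L S 𝒪'' hpP hp2 hp𝒪'' hrL hpS hLS
      ((algebraMap 𝒪 𝒪'').comp y₀) ρ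
      (fun ℓ hℓ hℓN hℓS B hB σ hσ => hfrob ℓ hℓ hℓN hℓS B hB σ hσ) hirr
    exact hrflat rfl (hFD r hpP (ResidueField 𝒪) ρbar 𝒪''
      (ResidueField.map (algebraMap 𝒪 𝒪'')) ρ hequiv hflat)
  · -- unramified at `r`
    have hrP : r.Prime := hyp.hS r hr
    have h1 : ρ.IsUnramifiedAt r := hunr r hrP hrL hrp
    have h2 : ρbar.IsUnramifiedAt r :=
      unramified_of_baseChangeAlong _ ρbar r
        (unramified_of_isEquiv hequiv r (residual_unramified ρ r h1))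
    exact ((hyp.hmin r hrP hrp).mp hr) h2

end Fermat.Agent.S59.NonMin.Geom.Rank.H2
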