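import Mathlib
import Fermat.Prelude.Def_FLTPrelim_Modularity
import Fermat.Prelude.Def_ModularForm_HeckeOperatorForms
import Fermat.Prelude.Thm_ModularFormClass_qCoeff_heckeU
import Fermat.Prelude.Thm_CongruenceSubgroup_one_mem_strictPeriods_Gamma0

/-!
# RANK leaf MAIN (helper56): the single-prime Atkin–Lehner main lemma

If `f ∈ S₂(Γ₀(L))` has `q`-expansion supported on the multiples of a prime `r`, then
`G(z) = f(z / r) = U_r f` is a cusp form of level `L / gcd(L, r)` with `a_n(G) = a_{rn}(f)`.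
-/

set_option autoImplicit false

open UpperHalfPlane ModularForm CongruenceSubgroup ModularFormClass Matrix.SpecialLinearGroup
open scoped MatrixGroups ModularForm
open P2MW.S_ModularForm_heckeT_slash_eq_self_of_mem_Gamma0.ModularForm.HeckeSlashInvariance

noncomputable section

namespace Fermat.Agent.S59.NonMin.Geom.Rank.H56

local notation "𝕢" => Function.Periodic.qParam

theorem hper56 (N : ℕ) :
    (1 : ℝ) ∈ (Subgroup.map (Matrix.SpecialLinearGroup.mapGL ℝ) (Gamma0 N)).strictPeriods :=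
  CongruenceSubgroup.one_mem_strictPeriods_Gamma0 N

/-- The `q`-parameter at `(z + j) / r`, raised to a multiple of `r`, does not depend on `j`. -/
theorem qParam_pow_mul {r : ℕ} (hr : r ≠ 0) (z : ℍ) (j m : ℕ) :
    𝕢 1 ((heckeMatrix r j • z : ℍ) : ℂ) ^ (r * m) = 𝕢 1 ((heckeMatrix r 0 • z : ℍ) : ℂ) ^ (r * m) := by
  have hr' : (r : ℂ) ≠ 0 := by exact_mod_cast hr
  rw [coe_heckeMatrix_smul hr, coe_heckeMatrix_smul hr]
  simp only [Function.Periodic.qParam, ← Complex.exp_nat_mul]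
  rw [Complex.exp_eq_exp_iff_exists_int]
  refine ⟨(j * m : ℕ), ?_⟩
  push_cast
  field_simp
  ring

/-- A cusp form whose `q`-expansion is supported on the multiples of `r` is `1 / r`-periodic. -/
theorem apply_heckeMatrix_smul {L r : ℕ} [NeZero L] (hr : r ≠ 0) (f : CuspForm (Gamma0 L) 2)
    (h : ∀ n : ℕ, ¬ r ∣ n → qCoeff f n = 0) (z : ℍ) (j : ℕ) :
    f (heckeMatrix r j • z) = f (heckeMatrix r 0 • z) := by
  have h1 := ModularForm.hasSum_qExpansion (f := f) one_pos (hper56 L) (heckeMatrix r j • z)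
  have h2 := ModularForm.hasSum_qExpansion (f := f) one_pos (hper56 L) (heckeMatrix r 0 • z)
  refine h1.unique ?_
  convert h2 using 2 with m
  by_cases hm : r ∣ m
  · obtain ⟨m', rfl⟩ := hm
    rw [qParam_pow_mul hr]
  · have := h m hm
    rw [qCoeff] at this
    rw [this, zero_mul, zero_mul]

/-! ### The arithmetic of the coset representatives -/

/-- For `g ∈ SL(2, ℤ)` and a prime `r` there are `j ∈ {0, 1}`, `j'` and `e` with
`b + j d = j' (a + j c) + r e`. -/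
theorem exists_index {r : ℕ} (hr : r.Prime) (g : SL(2, ℤ)) :
    ∃ (j j' : ℕ) (e : ℤ), g 0 1 + j * g 1 1 = j' * (g 0 0 + j * g 1 0) + r * e := by
  have : Fact r.Prime := ⟨hr⟩
  have hdet := det_eq g
  -- choose `j` with `r ∤ a + j c`
  obtain ⟨j, hj⟩ : ∃ j : ℕ, ((g 0 0 + j * g 1 0 : ℤ) : ZMod r) ≠ 0 := by
    by_cases ha : ((g 0 0 : ℤ) : ZMod r) = 0
    · refine ⟨1, ?_⟩
      intro h
      push_cast at h
      rw [ha, zero_add, one_mul] at h
      have h1 := congrArg (Int.cast : ℤ → ZMod r) hdet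
      push_cast at h1
      rw [ha, h] at h1
      simp at h1
    · exact ⟨0, by simpa using ha⟩
  set u : ZMod r := ((g 0 0 + j * g 1 0 : ℤ) : ZMod r) with hu
  set w : ZMod r := ((g 0 1 + j * g 1 1 : ℤ) : ZMod r) / u with hw
  have h1 : ((g 0 1 + j * g 1 1 - (w.val : ℤ) * (g 0 0 + j * g 1 0) : ℤ) : ZMod r) = 0 := by
    push_cast
    rw [ZMod.natCast_zmod_val]
    have : w * u = ((g 0 1 + j * g 1 1 : ℤ) : ZMod r) := by
      rw [hw, div_mul_cancel₀ _ hj]
    push_cast at this hu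
    rw [← hu, this]
    ring
  obtain ⟨e, he⟩ := (ZMod.intCast_zmod_eq_zero_iff_dvd _ _).1 h1
  exact ⟨j, w.val, e, by linear_combination he⟩

/-! ### The form `G(z) = f(z / r)` -/

section construction

variable {L r : ℕ} [NeZero L] (f : CuspForm (Gamma0 L) 2)

/-- All the translates `f ∣ [[1, j], [0, r]]` coincide. -/
theorem slash_heckeMatrix_eq (hr : r ≠ 0) (h : ∀ n : ℕ, ¬ r ∣ n → qCoeff f n = 0) (j : ℕ) :
    (⇑f) ∣[(2 : ℤ)] heckeMatrix r j = (⇑f) ∣[(2 : ℤ)] heckeMatrix r 0 := by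
  funext z
  rw [slash_heckeMatrix_apply 2 hr, slash_heckeMatrix_apply 2 hr, apply_heckeMatrix_smul hr f h]

/-- `U_r f` is invariant under `Γ₀(L')` as soon as `L ∣ r L'`. -/
theorem heckeU_slash {L' : ℕ} (hr : r.Prime) (hL : L ∣ r * L')
    (h : ∀ n : ℕ, ¬ r ∣ n → qCoeff f n = 0) (γ : SL(2, ℤ)) (hγ : γ ∈ Gamma0 L') :
    (heckeU 2 r ⇑f) ∣[(2 : ℤ)] (mapGL ℝ γ) = heckeU 2 r ⇑f := by
  obtain ⟨j, j', e, he⟩ := exists_index hr γ
  obtain ⟨g', hg', hmul⟩ := heckeMatrix_mul_of_eq hr.ne_zero γ j j' e he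
  have hg'L : g' ∈ Gamma0 L := by
    rw [Gamma0_mem, hg']
    rw [Gamma0_mem, ZMod.intCast_zmod_eq_zero_iff_dvd] at hγ
    rw [ZMod.intCast_zmod_eq_zero_iff_dvd]
    have h1 : (L : ℤ) ∣ (r : ℤ) * (L' : ℤ) := by exact_mod_cast hL
    exact h1.trans (mul_dvd_mul_left _ hγ)
  have key : ((⇑f) ∣[(2 : ℤ)] heckeMatrix r 0) ∣[(2 : ℤ)] mapGL ℝ γ =
      (⇑f) ∣[(2 : ℤ)] heckeMatrix r 0 := by
    have e0 := slash_heckeMatrix_eq f hr.ne_zero h j
    have e1 : ((⇑f) ∣[(2 : ℤ)] heckeMatrix r j) ∣[(2 : ℤ)] mapGL ℝ γ =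
        (⇑f) ∣[(2 : ℤ)] heckeMatrix r 0 := by
      rw [← SlashAction.slash_mul, hmul, SlashAction.slash_mul,
        SlashInvariantFormClass.slash_action_eq f _ (Subgroup.mem_map_of_mem (mapGL ℝ) hg'L),
        slash_heckeMatrix_eq f hr.ne_zero h j']
    rw [e0] at e1
    exact e1
  rw [heckeU_def, SlashAction.sum_slash]
  refine Finset.sum_congr rfl fun x _ => ?_
  rw [slash_heckeMatrix_eq f hr.ne_zero h x, key]

/-- The cusp form `G(z) = f(z / r) = U_r f` of level `L'`, for `f` supported on the multiples of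
`r` and `L ∣ r L'`. -/
def descendCusp (L' : ℕ) [NeZero L'] (hr : r.Prime) (hL : L ∣ r * L')
    (h : ∀ n : ℕ, ¬ r ∣ n → qCoeff f n = 0) : CuspForm (Gamma0 L') 2 where
  toFun := heckeU 2 r ⇑f
  slash_action_eq' := by
    rintro _ ⟨γ, hγ, rfl⟩
    exact heckeU_slash f hr hL h γ hγ
  holo' := mdifferentiable_heckeU (CuspFormClass.holo f) 2 r
  zero_at_cusps' := fun hc => CuspFormClass.isZeroAt_heckeU f r (by
    rw [Subgroup.IsArithmetic.isCusp_iff_isCusp_SL2Z] at hc ⊢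
    exact hc)

@[simp] theorem coe_descendCusp (L' : ℕ) [NeZero L'] (hr : r.Prime) (hL : L ∣ r * L')
    (h : ∀ n : ℕ, ¬ r ∣ n → qCoeff f n = 0) :
    ⇑(descendCusp f L' hr hL h) = heckeU 2 r ⇑f := rfl

theorem qCoeff_descendCusp (L' : ℕ) [NeZero L'] (hr : r.Prime) (hL : L ∣ r * L')
    (h : ∀ n : ℕ, ¬ r ∣ n → qCoeff f n = 0) (n : ℕ) :
    qCoeff (descendCusp f L' hr hL h) n = qCoeff f (r * n) := by
  rw [coe_descendCusp, ModularFormClass.qCoeff_heckeU f (hper56 L) hr.ne_zero n,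
    coeffHeckeU_apply, mul_comm]

end construction

/-- **MAIN** (single-prime Atkin–Lehner main lemma). -/
theorem main (L r : ℕ) [NeZero L] (hr : r.Prime) (f : CuspForm (Gamma0 L) 2)
    (h : ∀ n : ℕ, ¬ r ∣ n → ModularFormClass.qCoeff f n = 0) :
    ∃ G : CuspForm (Gamma0 (L / Nat.gcd L r)) 2,
      ∀ n : ℕ, ModularFormClass.qCoeff G n = ModularFormClass.qCoeff f (r * n) := by
  have hL0 : L ≠ 0 := NeZero.ne L
  have hgL : Nat.gcd L r ∣ L := Nat.gcd_dvd_left L r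
  have hne : L / Nat.gcd L r ≠ 0 := by
    intro h0
    rw [Nat.div_eq_zero_iff] at h0
    rcases h0 with h0 | h0
    · exact hL0 (Nat.eq_zero_of_gcd_eq_zero_left h0)
    · exact absurd (Nat.le_of_dvd (Nat.pos_of_ne_zero hL0) hgL) (not_le.2 h0)
  have : NeZero (L / Nat.gcd L r) := ⟨hne⟩
  have hL : L ∣ r * (L / Nat.gcd L r) := by
    have h1 : Nat.gcd L r * (L / Nat.gcd L r) = L := Nat.mul_div_cancel' hgL
    have h2 : Nat.gcd L r ∣ r := Nat.gcd_dvd_right L r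
    calc L = Nat.gcd L r * (L / Nat.gcd L r) := h1.symm
      _ ∣ r * (L / Nat.gcd L r) := Nat.mul_dvd_mul_right h2 _
  exact ⟨descendCusp f (L / Nat.gcd L r) hr hL h, qCoeff_descendCusp f _ hr hL h⟩

end Fermat.Agent.S59.NonMin.Geom.Rank.H56

end
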