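import Fermat.Agent.S59.NonMin.Geom.Rank.Defs
import Fermat.Agent.GTor.H81_OldKiller
import Fermat.Agent.S49.QCoeff

/-!
# S59 / RT-NONMIN / NMGEOM / RANK, leaf NONVAN (helper75)

`nonvan_of : Stmt_NONVAN_of`, i.e. `Stmt_DEPL → Stmt_NONVAN`: the cusp form eigenspace `EC` is
not zero, for every level `N`, every character `χ` of the Hecke algebra and every finite set
`Sig` of primes `r` with `r² ∣ N`.

Proof.  `X = {f : T_ℓ f = χ(T_ℓ) f, ℓ ∤ N, ℓ ∉ S}` is not zero
(`GTor.H81.exists_cusp_eigenvector`) and is stable under all the `T_p` (`p ∤ N`) and `U_p`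
(`p ∣ N`).  If `a₁` vanishes on `X`, then all the `a_n` vanish on `X` (strong induction on `n`:
for a prime factor `p` of `n = m p`, `a_n(f) = a_m(U_p f)` if `p ∣ N`, and
`a_n(f) = a_m(T_p f) - p a_{m/p}(f)` if `p ∤ N`), so `X = 0` by the `q`-expansion principle.
Hence there is `f ∈ X` with `a₁(f) ≠ 0`.  Deplete `f` at all the primes of `Sig` (`Stmt_DEPL`,
induction on the finite set): the result `g` has the coefficients `a_n(g) = a_n(f)` if no prime
of `Sig` divides `n`, and `0` otherwise; so `U_r g = 0` for `r ∈ Sig`, `T_ℓ g = χ(T_ℓ) g` for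
`ℓ ∤ N`, `ℓ ∉ S` (compare the coefficients: `ℓ ∉ Sig`), and `a₁(g) = a₁(f) ≠ 0`.
-/

set_option autoImplicit false

open CuspForm CongruenceSubgroup ModularFormClass

namespace Fermat.Agent.S59.NonMin.Geom.Rank.H75

open Fermat.Agent.S49 Fermat.Agent.S59.NonMin.Geom.Rank

section

variable (N : ℕ) [NeZero N] (S : Set ℕ)

/-- `f` is an eigenvector of the `T_ℓ` (`ℓ ∤ N`, `ℓ ∉ S`) for the character `χ`. -/
def IsX (χ : CuspForm.heckeAlgebra N 2 S →+* ℂ) (f : CuspForm (Gamma0 N) 2) : Prop :=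
  ∀ (ℓ : ℕ) (hℓ : ℓ.Prime) (hℓN : ¬ ℓ ∣ N) (hℓS : ℓ ∉ S),
    CuspForm.heckeTLin 2 hℓ hℓN f = χ (CuspForm.heckeAlgebra.T hℓ hℓN hℓS) • f

variable {N S}

theorem isX_heckeT {χ : CuspForm.heckeAlgebra N 2 S →+* ℂ} {f : CuspForm (Gamma0 N) 2}
    (hf : IsX N S χ f) {p : ℕ} (hp : p.Prime) (hpN : ¬ p ∣ N) :
    IsX N S χ (CuspForm.heckeTLin 2 hp hpN f) := by
  intro ℓ hℓ hℓN hℓS
  have hc := (CuspForm.heckeTLin_comm (N := N) 2 hℓ hℓN hp hpN).eq
  have h1 := LinearMap.congr_fun hc f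
  rw [Module.End.mul_apply, Module.End.mul_apply] at h1
  rw [h1, hf ℓ hℓ hℓN hℓS, map_smul]

theorem isX_heckeU {χ : CuspForm.heckeAlgebra N 2 S →+* ℂ} {f : CuspForm (Gamma0 N) 2}
    (hf : IsX N S χ f) {p : ℕ} (hpN : p ∣ N) :
    IsX N S χ (CuspForm.heckeULin 2 hpN f) := by
  intro ℓ hℓ hℓN hℓS
  have hc := (CuspForm.heckeTLin_heckeULin_comm (N := N) 2 hℓ hℓN hpN).eq
  have h1 := LinearMap.congr_fun hc f
  rw [Module.End.mul_apply, Module.End.mul_apply] at h1
  rw [h1, hf ℓ hℓ hℓN hℓS, map_smul]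

/-- If `a₁` vanishes on `X`, then every `a_n` vanishes on `X`. -/
theorem coeff_vanish {χ : CuspForm.heckeAlgebra N 2 S →+* ℂ}
    (h1 : ∀ f : CuspForm (Gamma0 N) 2, IsX N S χ f → qCoeff f 1 = 0) :
    ∀ (n : ℕ) (f : CuspForm (Gamma0 N) 2), IsX N S χ f → qCoeff f n = 0 := by
  intro n
  induction n using Nat.strong_induction_on with
  | _ n ih =>
    intro f hf
    rcases Nat.lt_or_ge n 2 with hn | hn
    · interval_cases n
      · exact qCoeff_at_zero f
      · exact h1 f hf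
    · have hn1 : n ≠ 1 := by omega
      obtain ⟨p, hp, hpn⟩ := Nat.exists_prime_and_dvd hn1
      obtain ⟨m, rfl⟩ := hpn
      have hm0 : 0 < m := by
        rcases Nat.eq_zero_or_pos m with h | h
        · subst h
          simp at hn
        · exact h
      have hmlt : m < p * m := by
        have := hp.two_le
        nlinarith
      by_cases hpN : p ∣ N
      · have h2 := ih m hmlt (CuspForm.heckeULin 2 hpN f) (isX_heckeU hf hpN)
        rw [qCoeff_heckeULin hp.ne_zero hpN f m] at h2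
        rw [mul_comm]
        exact h2
      · have h2 := ih m hmlt (CuspForm.heckeTLin 2 hp hpN f) (isX_heckeT hf hp hpN)
        rw [qCoeff_heckeTLin hp hpN f m] at h2
        have h3 : (if p ∣ m then (p : ℂ) ^ ((2 : ℤ) - 1) * qCoeff ⇑f (m / p) else 0) = 0 := by
          split_ifs with hpm
          · have hlt : m / p < p * m := lt_of_le_of_lt (Nat.div_le_self m p) hmlt
            rw [ih (m / p) hlt f hf, mul_zero]
          · rfl
        rw [h3, add_zero] at h2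
        rw [mul_comm]
        exact h2

/-- There is an eigenvector with `a₁ ≠ 0`. -/
theorem exists_a1_ne_zero (χ : CuspForm.heckeAlgebra N 2 S →+* ℂ) :
    ∃ f : CuspForm (Gamma0 N) 2, IsX N S χ f ∧ qCoeff f 1 ≠ 0 := by
  by_contra hcon
  push Not at hcon
  obtain ⟨v, hv0, hv⟩ := Fermat.Agent.GTor.H81.exists_cusp_eigenvector N S χ
  apply hv0
  apply cuspForm_eq_zero_of_qCoeff
  intro n
  exact coeff_vanish hcon n v hv

/-- Depletion at all the primes of a finite set. -/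
theorem deplete_finset (hD : Stmt_DEPL) (P : Finset ℕ) (hP : ∀ r ∈ P, r.Prime ∧ r ^ 2 ∣ N)
    (f : CuspForm (Gamma0 N) 2) :
    ∃ g : CuspForm (Gamma0 N) 2,
      (∀ n : ℕ, (∃ r ∈ P, r ∣ n) → qCoeff g n = 0) ∧
      ∀ n : ℕ, (¬ ∃ r ∈ P, r ∣ n) → qCoeff g n = qCoeff f n := by
  classical
  induction P using Finset.induction_on with
  | empty =>
    refine ⟨f, fun n hn => ?_, fun n _ => rfl⟩
    obtain ⟨r, hr, -⟩ := hn
    exact absurd hr (Finset.notMem_empty r)
  | insert r P hr ih =>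
    obtain ⟨g, hg0, hg1⟩ := ih (fun s hs => hP s (Finset.mem_insert_of_mem hs))
    obtain ⟨hrp, hrN⟩ := hP r (Finset.mem_insert_self r P)
    obtain ⟨g', hg'⟩ := hD N r hrp hrN g
    refine ⟨g', fun n hn => ?_, fun n hn => ?_⟩
    · rw [hg' n]
      by_cases hrn : r ∣ n
      · rw [if_pos hrn]
      · rw [if_neg hrn]
        obtain ⟨s, hs, hsn⟩ := hn
        rcases Finset.mem_insert.mp hs with rfl | hs'
        · exact absurd hsn hrn
        · exact hg0 n ⟨s, hs', hsn⟩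
    · rw [hg' n]
      have hrn : ¬ r ∣ n := fun h => hn ⟨r, Finset.mem_insert_self r P, h⟩
      rw [if_neg hrn]
      exact hg1 n (fun ⟨s, hs, hsn⟩ => hn ⟨s, Finset.mem_insert_of_mem hs, hsn⟩)

end

/-- **NONVAN**: the eigenspace `EC` is not zero. -/
theorem nonvan_of : Stmt_NONVAN_of := by
  intro hD N _ S Sig χ hSig
  obtain ⟨f, hfX, hf1⟩ := exists_a1_ne_zero (N := N) (S := S) χ
  obtain ⟨g, hg0, hg1⟩ := deplete_finset (N := N) hD Sig hSig f
  have hgEC : g ∈ EC N S Sig χ := by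
    rw [mem_EC]
    refine ⟨fun ℓ hℓ hℓN hℓS => ?_, fun r hr hrN => ?_⟩
    · apply cuspForm_ext_qCoeff
      intro n
      rw [qCoeff_heckeTLin hℓ hℓN g n, qCoeff_smul]
      have hf : qCoeff ⇑(CuspForm.heckeTLin 2 hℓ hℓN f) n =
          qCoeff ⇑(χ (CuspForm.heckeAlgebra.T hℓ hℓN hℓS) • f) n := by
        rw [hfX ℓ hℓ hℓN hℓS]
      rw [qCoeff_heckeTLin hℓ hℓN f n, qCoeff_smul] at hf
      have hndvd : ∀ r ∈ Sig, ¬ r ∣ ℓ := by
        intro r hr hrℓ
        have hrp := (hSig r hr).1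
        have hrN : r ∣ N := dvd_trans (dvd_pow_self r (by norm_num)) (hSig r hr).2
        rcases (Nat.dvd_prime hℓ).mp hrℓ with h | h
        · exact hrp.one_lt.ne' h
        · exact hℓN (h ▸ hrN)
      have hD1 : (∃ r ∈ Sig, r ∣ n * ℓ) ↔ (∃ r ∈ Sig, r ∣ n) := by
        constructor
        · rintro ⟨r, hr, hrn⟩
          rcases ((hSig r hr).1.dvd_mul).mp hrn with h | h
          · exact ⟨r, hr, h⟩
          · exact absurd h (hndvd r hr)
        · rintro ⟨r, hr, hrn⟩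
          exact ⟨r, hr, dvd_mul_of_dvd_left hrn ℓ⟩
      have hD2 : ℓ ∣ n → ((∃ r ∈ Sig, r ∣ n / ℓ) ↔ (∃ r ∈ Sig, r ∣ n)) := by
        intro hℓn
        constructor
        · rintro ⟨r, hr, hrn⟩
          exact ⟨r, hr, dvd_trans hrn (Nat.div_dvd_of_dvd hℓn)⟩
        · rintro ⟨r, hr, hrn⟩
          rw [← Nat.div_mul_cancel hℓn] at hrn
          rcases ((hSig r hr).1.dvd_mul).mp hrn with h | h
          · exact ⟨r, hr, h⟩
          · exact absurd h (hndvd r hr)
      by_cases hex : ∃ r ∈ Sig, r ∣ n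
      · rw [hg0 n hex, hg0 (n * ℓ) (hD1.mpr hex), mul_zero]
        split_ifs with hℓn
        · rw [hg0 (n / ℓ) ((hD2 hℓn).mpr hex), mul_zero, add_zero]
        · rw [add_zero]
      · rw [hg1 n hex, hg1 (n * ℓ) (fun h => hex (hD1.mp h)), ← hf]
        congr 1
        split_ifs with hℓn
        · rw [hg1 (n / ℓ) (fun h => hex ((hD2 hℓn).mp h))]
        · rfl
    · apply cuspForm_eq_zero_of_qCoeff
      intro n
      rw [qCoeff_heckeULin (hSig r hr).1.ne_zero hrN g n]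
      exact hg0 (n * r) ⟨r, hr, dvd_mul_left r n⟩
  intro hbot
  have hg : g = 0 := by
    rw [hbot] at hgEC
    exact (Submodule.mem_bot ℂ).mp hgEC
  apply hf1
  have h1 : ¬ ∃ r ∈ Sig, r ∣ 1 := by
    rintro ⟨r, hr, hr1⟩
    exact (hSig r hr).1.one_lt.ne' (Nat.dvd_one.mp hr1)
  rw [← hg1 1 h1, hg]
  exact qCoeff_zero_form 1

end Fermat.Agent.S59.NonMin.Geom.Rank.H75
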