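/-
S59 / RT-NONMIN / NMGEOM, leaf RANK, sub-leaf **MULT1** (helper80): multiplicity one.

`mult1_of : Stmt_MULT1_of`, i.e. `Stmt_CLAIM → Stmt_COEF → Stmt_NOLOW → Stmt_MULT1`:
at every state of the class `G` the eigenspace `EC` has dimension `≤ 1`.

Proof: `a₁ : EC → ℂ`, `f ↦ qCoeff f 1`, is linear and injective.  For `f ∈ EC` with
`a₁(f) = 0`, `Stmt_COEF` gives `a_n(f) = 0` for every `n` prime to `Smin`; `Stmt_CLAIM` with
`P = Smin`, `L = N` then gives `f = 0`: no `r ∈ Smin` has `r² ∣ N` (`N₀` squarefree,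
`Sig ∩ Smin = ∅`), and for `r ∈ Smin`, `r ∣ N`, `NoLow` holds by `Stmt_NOLOW`
(`r = p`, `p ∣ N` ⟹ `p ∣ N₀` ⟹ `ρbar` is not flat).
-/
import Fermat.Agent.S59.NonMin.Geom.Rank.Defs
import Fermat.Agent.S49.QCoeff

set_option autoImplicit false

open CuspForm CongruenceSubgroup IsLocalRing ModularFormClass

namespace Fermat.Agent.S59.NonMin.Geom.Rank.H80

open Fermat.Agent.S59 Fermat.Agent.S59.NonMin.Geom Fermat.Agent.S59.NonMin.Geom.Rank

/-! ### Arithmetic of the level -/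

section Level

variable {p : ℕ} {Smin : Finset ℕ} {N₀ : ℕ} {Sig : Finset ℕ} {N : ℕ} {S : Finset ℕ}

/-- a prime of `Smin` is prime to `∏_{r ∈ Sig} r²` -/
theorem coprime_prod (hG : GeomHyp p Smin N₀ Sig N S) {r : ℕ} (hr : r.Prime) (hrS : r ∈ Smin) :
    Nat.Coprime r (∏ s ∈ Sig, s ^ 2) := by
  apply Nat.Coprime.prod_right
  intro s hs
  apply Nat.Coprime.pow_right
  obtain ⟨hsp, -, hsS⟩ := hG.hSig s hs
  exact (Nat.coprime_primes hr hsp).mpr (fun e => hsS (e ▸ hrS))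

/-- the prime `p` is prime to `∏_{r ∈ Sig} r²` -/
theorem coprime_prod_p (hG : GeomHyp p Smin N₀ Sig N S) (hp : p.Prime) :
    Nat.Coprime p (∏ s ∈ Sig, s ^ 2) := by
  apply Nat.Coprime.prod_right
  intro s hs
  apply Nat.Coprime.pow_right
  obtain ⟨hsp, hsne, -⟩ := hG.hSig s hs
  exact (Nat.coprime_primes hp hsp).mpr (fun e => hsne e.symm)

/-- all the primes of `N` are in `S` -/
theorem prime_dvd_mem (hG : GeomHyp p Smin N₀ Sig N S) {s : ℕ} (hs : s.Prime) (hsN : s ∣ N) :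
    s ∈ S := by
  rw [hG.hS, Finset.mem_union]
  rw [hG.hN] at hsN
  rcases (Nat.Prime.dvd_mul hs).mp hsN with h | h
  · exact Or.inl (hG.hN₀S s hs h)
  · right
    obtain ⟨r, hr, hsr⟩ := (Prime.dvd_finsetProd_iff (Nat.Prime.prime hs) _).mp h
    have h1 : s ∣ r := Nat.Prime.dvd_of_dvd_pow hs hsr
    have h2 : s = r := (Nat.prime_dvd_prime_iff_eq hs (hG.hSig r hr).1).mp h1
    rw [h2]
    exact hr

/-- the primes of `Sig` divide `N` -/
theorem sig_dvd (hG : GeomHyp p Smin N₀ Sig N S) {r : ℕ} (hr : r ∈ Sig) : r ∣ N := by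
  rw [hG.hN]
  apply Dvd.dvd.mul_left
  exact dvd_trans (dvd_pow_self r two_ne_zero) (Finset.dvd_prod_of_mem (fun s => s ^ 2) hr)

/-- a prime of `Smin` divides `N` at most once -/
theorem not_sq_dvd (hG : GeomHyp p Smin N₀ Sig N S) {r : ℕ} (hr : r.Prime) (hrS : r ∈ Smin) :
    ¬ r ^ 2 ∣ N := by
  intro h
  rw [hG.hN] at h
  have hcop : Nat.Coprime (r ^ 2) (∏ s ∈ Sig, s ^ 2) :=
    Nat.Coprime.pow_left 2 (coprime_prod hG hr hrS)
  have h1 : r ^ 2 ∣ N₀ := hcop.dvd_of_dvd_mul_right h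
  rw [pow_two] at h1
  exact hr.not_isUnit (hG.hN₀ r h1)

/-- a prime of `Smin` which divides `N` divides `N₀` -/
theorem dvd_N₀ (hG : GeomHyp p Smin N₀ Sig N S) {r : ℕ} (hr : r.Prime) (hrS : r ∈ Smin)
    (h : r ∣ N) : r ∣ N₀ := by
  rw [hG.hN] at h
  exact (coprime_prod hG hr hrS).dvd_of_dvd_mul_right h

end Level

/-! ### The first coefficient -/

section A1

variable (N : ℕ) [NeZero N] (S : Set ℕ) (Sig : Finset ℕ)
  (χ : CuspForm.heckeAlgebra N 2 S →+* ℂ)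

/-- The linear form `f ↦ a₁(f)` on `EC`. -/
noncomputable def a1 : ↥(EC N S Sig χ) →ₗ[ℂ] ℂ where
  toFun f := qCoeff ⇑(f : CuspForm (Gamma0 N) 2) 1
  map_add' f g := by
    show qCoeff ⇑((f : CuspForm (Gamma0 N) 2) + (g : CuspForm (Gamma0 N) 2)) 1 = _
    exact Fermat.Agent.S49.qCoeff_add _ _ 1
  map_smul' c f := by
    show qCoeff ⇑(c • (f : CuspForm (Gamma0 N) 2)) 1 = _
    rw [Fermat.Agent.S49.qCoeff_smul]
    rfl

theorem a1_apply (f : ↥(EC N S Sig χ)) :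
    a1 N S Sig χ f = qCoeff ⇑(f : CuspForm (Gamma0 N) 2) 1 := rfl

/-- an injective linear form bounds the dimension by `1` -/
theorem finrank_le_one_of_injective (h : Function.Injective (a1 N S Sig χ)) :
    Module.finrank ℂ ↥(EC N S Sig χ) ≤ 1 := by
  have := LinearMap.finrank_le_finrank_of_injective h
  rwa [Module.finrank_self] at this

/-- the elements of `EC` are eigenvectors of the anemic operators -/
theorem isAnemic_of_mem_EC {f : CuspForm (Gamma0 N) 2} (hf : f ∈ EC N S Sig χ) : IsAnemic N S (eigVal χ) f := by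
  intro ℓ hℓ hℓN hℓS
  rw [eigVal_eq χ hℓ hℓN hℓS]
  exact hf.1 ℓ hℓ hℓN hℓS

end A1

/-! ### MULT1 -/

/-- **MULT1**. -/
theorem mult1_of : Stmt_MULT1_of := by
  intro hCLAIM hCOEF hNOLOW 𝒪 _ _ _ _ _ _ p _ hp2 hp𝒪 ρbar Smin hR N₀ hfl Sig N _ S hG θ hθ x hx
    χ hχ
  have hp : p.Prime := Fact.out
  have hNS : ∀ s : ℕ, s.Prime → s ∣ N → s ∈ (↑S : Set ℕ) :=
    fun s hs hsN => Finset.mem_coe.mpr (prime_dvd_mem hG hs hsN)
  have hSminS : Smin ⊆ S := by
    rw [hG.hS]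
    exact Finset.subset_union_left
  apply finrank_le_one_of_injective
  rw [← LinearMap.ker_eq_bot, LinearMap.ker_eq_bot']
  rintro ⟨f, hf⟩ hf1
  have hf1' : qCoeff ⇑f 1 = 0 := hf1
  apply Subtype.ext
  show f = 0
  -- the coefficients prime to `Smin` vanish
  have hcoef := hCOEF N (↑S : Set ℕ) Sig χ hNS (fun r hr => sig_dvd hG hr) f hf hf1'
  -- the induction
  refine hCLAIM (↑S : Set ℕ) (eigVal χ) Smin
    (fun r hr => ⟨hR.hS r hr, Finset.mem_coe.mpr (hSminS hr)⟩) N hNS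
    (fun r hr => not_sq_dvd hG (hR.hS r hr) hr) ?_ f
    (isAnemic_of_mem_EC N (↑S : Set ℕ) Sig χ hf) ?_
  · intro r hr hrN
    refine hNOLOW 𝒪 p hp2 hp𝒪 ρbar Smin hR N S hSminS
      (fun s hs hsN => prime_dvd_mem hG hs hsN) θ hθ x hx χ hχ r hr ?_
    intro hrp
    apply hfl
    rw [← hrp]
    exact dvd_N₀ hG (hR.hS r hr) hr hrN
  · intro n hn
    apply hcoef n
    intro s hs hsn hsS
    have hsS' : s ∈ S := Finset.mem_coe.mp hsS
    rw [hG.hS, Finset.mem_union] at hsS'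
    rcases hsS' with h | h
    · exact absurd hsn (hn s h)
    · exact h

end Fermat.Agent.S59.NonMin.Geom.Rank.H80
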